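import Mathlib
import Fermat.Agent.TeamA.MvPS
import Fermat.Agent.TeamA.CompleteLift

/-!
# Surjections from power series rings onto complete local algebras

Let `𝒪` be a complete Noetherian local ring and `R` a complete Noetherian local `𝒪`-algebra
with the same residue field.  A family `x : σ → 𝔪_R` (with `σ` finite) defines an evaluation map
`𝒪⟦X_s⟧ → R`, and this map is surjective as soon as the `x s` together with `𝔪_𝒪 R` generate
`𝔪_R` modulo `𝔪_R ^ 2`.
-/

set_option autoImplicit false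
set_option linter.style.haveILetI false

namespace Fermat.Agent.S56lib.Dict

open IsLocalRing MvPowerSeries Fermat.Agent.TeamA

section Eval

variable {σ : Type*} [Finite σ] {𝒪 : Type*} [CommRing 𝒪]
variable {R : Type*} [CommRing R] [IsLocalRing R] [Algebra 𝒪 R]

/-- The image of the maximal ideal in `R ⧸ 𝔪 ^ c` is nilpotent. -/
theorem map_mk_maximalIdeal_pow_eq_bot (c : ℕ) :
    ((maximalIdeal R).map (Ideal.Quotient.mk (maximalIdeal R ^ c))) ^ c = ⊥ := by
  rw [← Ideal.map_pow, Ideal.map_quotient_self]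

/-- The truncated evaluation `𝒪⟦X⟧ → R ⧸ 𝔪 ^ c`. -/
noncomputable def evalQuot (x : σ → R) (hx : ∀ s, x s ∈ maximalIdeal R) (c : ℕ) :
    MvPowerSeries σ 𝒪 →ₐ[𝒪] R ⧸ maximalIdeal R ^ c :=
  evalNilp ((maximalIdeal R).map (Ideal.Quotient.mk (maximalIdeal R ^ c))) c
    (map_mk_maximalIdeal_pow_eq_bot c) (fun s => Ideal.Quotient.mk _ (x s))
    (fun s => Ideal.mem_map_of_mem _ (hx s))

theorem evalQuot_X (x : σ → R) (hx : ∀ s, x s ∈ maximalIdeal R) (c : ℕ) (s : σ) :
    evalQuot (𝒪 := 𝒪) x hx c (X s) = Ideal.Quotient.mk _ (x s) :=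
  evalNilp_X _ _ _ _ _ s

theorem evalQuot_compat (x : σ → R) (hx : ∀ s, x s ∈ maximalIdeal R) (c : ℕ) :
    (Ideal.Quotient.factorₐ 𝒪 (Ideal.pow_le_pow_right (Nat.le_succ c))).comp
      (evalQuot (𝒪 := 𝒪) x hx (c + 1)) = evalQuot x hx c := by
  refine algHom_ext_of_nilpotent
    ((maximalIdeal R).map (Ideal.Quotient.mk (maximalIdeal R ^ c))) c
    (map_mk_maximalIdeal_pow_eq_bot c) _ _ ?_ ?_
  · intro s
    rw [AlgHom.comp_apply, evalQuot_X]
    exact Ideal.mem_map_of_mem _ (hx s)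
  · intro s
    rw [AlgHom.comp_apply, evalQuot_X, evalQuot_X]
    rfl

variable [IsAdicComplete (maximalIdeal R) R]

/-- Evaluation of power series at a family of elements of the maximal ideal of a complete local
ring. -/
theorem exists_eval (x : σ → R) (hx : ∀ s, x s ∈ maximalIdeal R) :
    ∃ γ : MvPowerSeries σ 𝒪 →ₐ[𝒪] R, ∀ s, γ (X s) = x s := by
  obtain ⟨F, hF, -⟩ := existsUnique_algHom_of_compatible (𝒪 := 𝒪) (maximalIdeal R)
    (fun c => evalQuot (𝒪 := 𝒪) x hx c) (evalQuot_compat x hx)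
  refine ⟨F, fun s => ?_⟩
  rw [← sub_eq_zero]
  apply IsHausdorff.haus (inferInstance : IsHausdorff (maximalIdeal R) R)
  intro n
  rw [SModEq.zero, smul_eq_mul, Ideal.mul_top, ← Ideal.Quotient.eq]
  have := congrArg (fun φ => φ (X s)) (hF n)
  simp only [AlgHom.comp_apply, evalQuot_X] at this
  exact this

end Eval

section Surj

variable {σ : Type*} [Finite σ] {𝒪 : Type*} [CommRing 𝒪] [IsLocalRing 𝒪] [IsNoetherianRing 𝒪]
  [IsAdicComplete (maximalIdeal 𝒪) 𝒪]
variable {R : Type*} [CommRing R] [IsLocalRing R] [IsNoetherianRing R]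
  [IsAdicComplete (maximalIdeal R) R] [Algebra 𝒪 R]

omit [IsAdicComplete (maximalIdeal R) R] in
/-- Nakayama: if the `x s` and `𝔪_𝒪 R` generate `𝔪_R` modulo `𝔪_R ^ 2`, they generate `𝔪_R`. -/
theorem maximalIdeal_le_of_le_sup_sq (N : Ideal R)
    (h : maximalIdeal R ≤ N ⊔ maximalIdeal R ^ 2) : maximalIdeal R ≤ N := by
  refine Submodule.le_of_le_smul_of_le_jacobson_bot (I := maximalIdeal R)
    (IsNoetherian.noetherian _) (IsLocalRing.maximalIdeal_le_jacobson _) ?_
  rwa [smul_eq_mul, ← pow_two]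

omit [IsAdicComplete (maximalIdeal R) R] in
/-- **Surjectivity criterion.**  If `γ : 𝒪⟦X⟧ → R` maps the variables into `𝔪_R`, and the images
of the variables together with `𝔪_𝒪 R` generate `𝔪_R` modulo `𝔪_R ^ 2`, then `γ` is surjective
(`R` complete Noetherian local with residue field generated by `𝒪`). -/
theorem surjective_of_span [IsLocalHom (algebraMap 𝒪 R)]
    (hsurj : Function.Surjective (residue R ∘ algebraMap 𝒪 R))
    (γ : MvPowerSeries σ 𝒪 →ₐ[𝒪] R) (hγ : ∀ s, γ (X s) ∈ maximalIdeal R)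
    (hspan : maximalIdeal R ≤
      Ideal.span (Set.range fun s => γ (X s)) ⊔ (maximalIdeal 𝒪).map (algebraMap 𝒪 R)
        ⊔ maximalIdeal R ^ 2) :
    Function.Surjective γ := by
  have hmap : (maximalIdeal (MvPowerSeries σ 𝒪)).map (γ : MvPowerSeries σ 𝒪 →+* R)
      = maximalIdeal R := by
    apply le_antisymm
    · rw [maximalIdeal_mvPowerSeries, Ideal.map_sup, sup_le_iff]
      constructor
      · rw [varIdeal, Ideal.map_span, Ideal.span_le]
        rintro _ ⟨_, ⟨s, rfl⟩, rfl⟩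
        exact hγ s
      · rw [Ideal.map_map]
        have : (γ : MvPowerSeries σ 𝒪 →+* R).comp (algebraMap 𝒪 (MvPowerSeries σ 𝒪))
            = algebraMap 𝒪 R := by
          ext a; simp
        rw [this]
        exact ((IsLocalRing.local_hom_TFAE (algebraMap 𝒪 R)).out 0 2).mp ‹IsLocalHom (algebraMap 𝒪 R)›
    · apply maximalIdeal_le_of_le_sup_sq
      refine hspan.trans (sup_le_sup_right ?_ _)
      rw [maximalIdeal_mvPowerSeries, Ideal.map_sup, sup_le_iff]
      constructor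
      · refine le_sup_of_le_left ?_
        rw [varIdeal, Ideal.map_span, Ideal.span_le]
        rintro _ ⟨s, rfl⟩
        exact Ideal.subset_span ⟨X s, ⟨s, rfl⟩, rfl⟩
      · refine le_sup_of_le_right ?_
        rw [Ideal.map_map]
        have : (γ : MvPowerSeries σ 𝒪 →+* R).comp (algebraMap 𝒪 (MvPowerSeries σ 𝒪))
            = algebraMap 𝒪 R := by
          ext a; simp
        rw [this]
  have : IsHausdorff ((maximalIdeal (MvPowerSeries σ 𝒪)).map (γ : MvPowerSeries σ 𝒪 →+* R)) R := by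
    rw [hmap]; infer_instance
  have hP : IsPrecomplete (maximalIdeal (MvPowerSeries σ 𝒪)) (MvPowerSeries σ 𝒪) :=
    (isAdicComplete_maximalIdeal_mvPowerSeries σ 𝒪).toIsPrecomplete
  refine surjective_of_mk_map_comp_surjective (I := maximalIdeal (MvPowerSeries σ 𝒪))
    (γ : MvPowerSeries σ 𝒪 →+* R) ?_
  intro y
  obtain ⟨a, rfl⟩ := Ideal.Quotient.mk_surjective y
  obtain ⟨o, ho⟩ := hsurj (residue R a)
  refine ⟨algebraMap 𝒪 _ o, ?_⟩
  rw [RingHom.comp_apply, Ideal.Quotient.eq, hmap]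
  have : (γ : MvPowerSeries σ 𝒪 →+* R) (algebraMap 𝒪 _ o) = algebraMap 𝒪 R o := by simp
  rw [this, ← residue_eq_zero_iff, map_sub, sub_eq_zero]
  exact ho

/-- **Existence of a surjection.**  If `x : σ → 𝔪_R` together with `𝔪_𝒪 R` generates `𝔪_R` modulo
`𝔪_R ^ 2`, there is a surjective `𝒪`-algebra map `𝒪⟦X⟧ → R` sending `X s` to `x s`. -/
theorem exists_surjective_of_span [IsLocalHom (algebraMap 𝒪 R)]
    (hsurj : Function.Surjective (residue R ∘ algebraMap 𝒪 R))
    (x : σ → R) (hx : ∀ s, x s ∈ maximalIdeal R)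
    (hspan : maximalIdeal R ≤
      Ideal.span (Set.range x) ⊔ (maximalIdeal 𝒪).map (algebraMap 𝒪 R) ⊔ maximalIdeal R ^ 2) :
    ∃ γ : MvPowerSeries σ 𝒪 →ₐ[𝒪] R, (∀ s, γ (X s) = x s) ∧ Function.Surjective γ := by
  obtain ⟨γ, hγ⟩ := exists_eval (𝒪 := 𝒪) x hx
  refine ⟨γ, hγ, surjective_of_span hsurj γ (fun s => hγ s ▸ hx s) ?_⟩
  have : (fun s => γ (X s)) = x := funext hγ
  rwa [this]

end Surj

end Fermat.Agent.S56lib.Dict
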