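import Mathlib

/-!
# Matrices over the dual numbers and cocycles

`M_n(k[ε]) = M_n(k) ⊕ ε M_n(k)`.  A multiplicative map `r : G → M_n(k[ε])` with reduction `rb`
is the same as a 1-cocycle `c : G → M_n(k)` for the adjoint action, via `r g = (1 + ε c g) rb g`.
Conjugation by `1 + ε m` changes `c` by the coboundary of `m`.
-/

set_option autoImplicit false
set_option linter.unusedSectionVars false
set_option linter.unusedSimpArgs false

namespace Fermat.Agent.S56lib.Dict

open TrivSqZeroExt

section Calculus

variable {n : Type*} [Fintype n] [DecidableEq n] {k : Type*} [CommRing k]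

/-- The reduction of a matrix over `k[ε]`. -/
def fstM (X : Matrix n n (DualNumber k)) : Matrix n n k := X.map TrivSqZeroExt.fst

/-- The `ε`-part of a matrix over `k[ε]`. -/
def sndM (X : Matrix n n (DualNumber k)) : Matrix n n k := X.map TrivSqZeroExt.snd

/-- The matrix `A + ε B`. -/
def mkM (A B : Matrix n n k) : Matrix n n (DualNumber k) :=
  Matrix.of fun i j => inl (A i j) + inr (B i j)

@[simp] theorem fstM_apply (X : Matrix n n (DualNumber k)) (i j : n) :
    fstM X i j = (X i j).fst := rfl

@[simp] theorem sndM_apply (X : Matrix n n (DualNumber k)) (i j : n) :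
    sndM X i j = (X i j).snd := rfl

@[simp] theorem mkM_apply (A B : Matrix n n k) (i j : n) :
    mkM A B i j = inl (A i j) + inr (B i j) := rfl

@[simp] theorem fstM_mkM (A B : Matrix n n k) : fstM (mkM A B) = A := by
  ext i j; simp

@[simp] theorem sndM_mkM (A B : Matrix n n k) : sndM (mkM A B) = B := by
  ext i j; simp

theorem mkM_fstM_sndM (X : Matrix n n (DualNumber k)) : mkM (fstM X) (sndM X) = X := by
  ext i j <;> simp

theorem dualMat_ext {X Y : Matrix n n (DualNumber k)} (h1 : fstM X = fstM Y)
    (h2 : sndM X = sndM Y) : X = Y := by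
  rw [← mkM_fstM_sndM X, ← mkM_fstM_sndM Y, h1, h2]

theorem mkM_injective {A B A' B' : Matrix n n k} (h : mkM A B = mkM A' B') :
    A = A' ∧ B = B' := by
  constructor
  · simpa using congrArg fstM h
  · simpa using congrArg sndM h

@[simp] theorem fstM_one : fstM (1 : Matrix n n (DualNumber k)) = 1 := by
  ext i j
  by_cases h : i = j <;> simp [Matrix.one_apply, h]

@[simp] theorem sndM_one : sndM (1 : Matrix n n (DualNumber k)) = 0 := by
  ext i j
  by_cases h : i = j <;> simp [Matrix.one_apply, h]

theorem mkM_one_zero : mkM (1 : Matrix n n k) 0 = 1 :=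
  dualMat_ext (by simp) (by simp)

@[simp] theorem fstM_mul (X Y : Matrix n n (DualNumber k)) : fstM (X * Y) = fstM X * fstM Y := by
  ext i j
  simp [Matrix.mul_apply, TrivSqZeroExt.fst_sum]

@[simp] theorem sndM_mul (X Y : Matrix n n (DualNumber k)) :
    sndM (X * Y) = fstM X * sndM Y + sndM X * fstM Y := by
  ext i j
  simp [Matrix.mul_apply, TrivSqZeroExt.snd_sum, Finset.sum_add_distrib, mul_comm]

theorem mkM_mul (A B A' B' : Matrix n n k) :
    mkM A B * mkM A' B' = mkM (A * A') (A * B' + B * A') :=
  dualMat_ext (by simp) (by simp)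

@[simp] theorem fstM_add (X Y : Matrix n n (DualNumber k)) : fstM (X + Y) = fstM X + fstM Y := by
  ext i j; simp

@[simp] theorem sndM_add (X Y : Matrix n n (DualNumber k)) : sndM (X + Y) = sndM X + sndM Y := by
  ext i j; simp

@[simp] theorem fstM_sub (X Y : Matrix n n (DualNumber k)) : fstM (X - Y) = fstM X - fstM Y := by
  ext i j; simp

@[simp] theorem sndM_sub (X Y : Matrix n n (DualNumber k)) : sndM (X - Y) = sndM X - sndM Y := by
  ext i j; simp

/-- `det (A + ε B) = det A + ε tr (adj A · B)`; we only need the case `A = 1`. -/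
theorem det_mkM_one (B : Matrix (Fin 2) (Fin 2) k) :
    (mkM (1 : Matrix (Fin 2) (Fin 2) k) B).det = inl 1 + inr B.trace := by
  rw [Matrix.det_fin_two, Matrix.trace_fin_two]
  ext <;> simp [Matrix.one_apply]
  ring

end Calculus

section Cocycle

variable {G : Type*} [Group G] {n : Type*} [Fintype n] [DecidableEq n] {k : Type*} [CommRing k]

/-- 1-cocycles for the adjoint action attached to `rb`. -/
def IsCocycle (rb : G →* Matrix n n k) (c : G → Matrix n n k) : Prop :=
  ∀ g h, c (g * h) = c g + rb g * c h * rb g⁻¹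

/-- 1-coboundaries for the adjoint action attached to `rb`. -/
def IsCobound (rb : G →* Matrix n n k) (c : G → Matrix n n k) : Prop :=
  ∃ m : Matrix n n k, ∀ g, c g = rb g * m * rb g⁻¹ - m

theorem rb_mul_inv (rb : G →* Matrix n n k) (g : G) : rb g * rb g⁻¹ = 1 := by
  rw [← map_mul, mul_inv_cancel, map_one]

theorem rb_inv_mul (rb : G →* Matrix n n k) (g : G) : rb g⁻¹ * rb g = 1 := by
  rw [← map_mul, inv_mul_cancel, map_one]

theorem IsCocycle.map_one {rb : G →* Matrix n n k} {c : G → Matrix n n k}
    (hc : IsCocycle rb c) : c 1 = 0 := by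
  have := hc 1 1
  simpa using this

/-- The lift `g ↦ (1 + ε c g) rb g` attached to a cochain. -/
def liftFun (rb : G →* Matrix n n k) (c : G → Matrix n n k) (g : G) :
    Matrix n n (DualNumber k) :=
  mkM (rb g) (c g * rb g)

@[simp] theorem fstM_liftFun (rb : G →* Matrix n n k) (c : G → Matrix n n k) (g : G) :
    fstM (liftFun rb c g) = rb g := by simp [liftFun]

@[simp] theorem sndM_liftFun (rb : G →* Matrix n n k) (c : G → Matrix n n k) (g : G) :
    sndM (liftFun rb c g) = c g * rb g := by simp [liftFun]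

theorem liftFun_mul {rb : G →* Matrix n n k} {c : G → Matrix n n k} (hc : IsCocycle rb c)
    (g h : G) : liftFun rb c (g * h) = liftFun rb c g * liftFun rb c h := by
  unfold liftFun
  rw [mkM_mul, map_mul, hc g h]
  congr 1
  rw [add_mul, Matrix.mul_assoc (rb g * c h), ← Matrix.mul_assoc (rb g⁻¹), rb_inv_mul, one_mul,
    Matrix.mul_assoc, Matrix.mul_assoc, add_comm]

theorem liftFun_one {rb : G →* Matrix n n k} {c : G → Matrix n n k} (hc : IsCocycle rb c) :
    liftFun rb c 1 = 1 := by
  unfold liftFun
  rw [hc.map_one, map_one, zero_mul, mkM_one_zero]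

/-- The lift attached to a cocycle, as a monoid homomorphism. -/
def liftHom (rb : G →* Matrix n n k) (c : G → Matrix n n k) (hc : IsCocycle rb c) :
    G →* Matrix n n (DualNumber k) where
  toFun := liftFun rb c
  map_one' := liftFun_one hc
  map_mul' := liftFun_mul hc

@[simp] theorem liftHom_apply (rb : G →* Matrix n n k) (c : G → Matrix n n k)
    (hc : IsCocycle rb c) (g : G) : liftHom rb c hc g = liftFun rb c g := rfl

/-- The cochain attached to a lift. -/
def cocycleOf (rb : G →* Matrix n n k) (r : G → Matrix n n (DualNumber k)) (g : G) :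
    Matrix n n k :=
  sndM (r g) * rb g⁻¹

theorem liftFun_cocycleOf (rb : G →* Matrix n n k) (r : G → Matrix n n (DualNumber k))
    (hr : ∀ g, fstM (r g) = rb g) (g : G) : liftFun rb (cocycleOf rb r) g = r g := by
  refine dualMat_ext (by simp [hr]) ?_
  rw [sndM_liftFun, cocycleOf, Matrix.mul_assoc, rb_inv_mul, mul_one]

theorem isCocycle_cocycleOf (rb : G →* Matrix n n k) (r : G → Matrix n n (DualNumber k))
    (hr : ∀ g, fstM (r g) = rb g) (hmul : ∀ g h, r (g * h) = r g * r h) :
    IsCocycle rb (cocycleOf rb r) := by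
  intro g h
  unfold cocycleOf
  rw [hmul, sndM_mul, hr, hr, mul_inv_rev, map_mul, add_mul, add_comm]
  congr 1
  · rw [Matrix.mul_assoc, ← Matrix.mul_assoc (rb h), rb_mul_inv, one_mul]
  · simp only [Matrix.mul_assoc]

theorem cocycleOf_liftFun (rb : G →* Matrix n n k) (c : G → Matrix n n k) (g : G) :
    cocycleOf rb (liftFun rb c) g = c g := by
  rw [cocycleOf, sndM_liftFun, Matrix.mul_assoc, rb_mul_inv, mul_one]

/-- Conjugation by `1 + ε m` changes the cocycle by a coboundary. -/
theorem conj_liftFun (rb : G →* Matrix n n k) (c : G → Matrix n n k) (m : Matrix n n k) (g : G) :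
    mkM 1 m * liftFun rb c g * mkM 1 (-m) =
      liftFun rb (fun g => c g + m - rb g * m * rb g⁻¹) g := by
  unfold liftFun
  rw [mkM_mul, mkM_mul]
  congr 1
  · simp
  · simp only [one_mul, mul_one, mul_neg, add_mul, sub_mul]
    rw [Matrix.mul_assoc (rb g * m), rb_inv_mul, mul_one]
    abel

theorem mkM_one_mul_neg (m : Matrix n n k) : mkM (1 : Matrix n n k) m * mkM 1 (-m) = 1 := by
  rw [mkM_mul]
  simp [mkM_one_zero]

theorem mkM_one_neg_mul (m : Matrix n n k) : mkM (1 : Matrix n n k) (-m) * mkM 1 m = 1 := by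
  rw [mkM_mul]
  simp [mkM_one_zero]

/-- Cohomologous cocycles have conjugate lifts. -/
theorem exists_conj_of_isCobound (rb : G →* Matrix n n k) (c c' : G → Matrix n n k)
    (h : IsCobound rb (fun g => c g - c' g)) :
    ∃ M M' : Matrix n n (DualNumber k), M * M' = 1 ∧ M' * M = 1 ∧
      ∀ g, M * liftFun rb c g = liftFun rb c' g * M := by
  obtain ⟨m, hm⟩ := h
  refine ⟨mkM 1 m, mkM 1 (-m), mkM_one_mul_neg m, mkM_one_neg_mul m, fun g => ?_⟩
  have h1 := conj_liftFun rb c m g
  have h2 : (fun g => c g + m - rb g * m * rb g⁻¹) = c' := by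
    funext g
    have := hm g
    simp only at this
    rw [eq_sub_iff_add_eq] at this
    rw [← this]
    abel
  rw [h2] at h1
  rw [← h1, Matrix.mul_assoc, mkM_one_neg_mul, mul_one]

end Cocycle

end Fermat.Agent.S56lib.Dict
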