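import Mathlib
import Fermat.Agent.TeamA.BasedLift
import Fermat.Agent.TeamA.Frame
import Fermat.Agent.TeamA.ResK
import Fermat.Agent.TeamA.FibGood
import Fermat.Agent.TeamA.Dual
import Fermat.Agent.S56lib.Dict.DualMat

/-!
# The tangent map: `𝒪`-algebra maps `R → k[ε]` as cocycles

For a universal deformation ring datum `DQ` (with universal representation `DQ.ρ` over `DQ.R`)
and a based lift (a basis of `DQ.ρ` whose matrices reduce to the fixed matrices `rb` of `ρbar`),
every `𝒪`-algebra map `φ : DQ.R → k[ε]` gives a cocycle `tanCocycle φ : Γℚ → M₂(k)` for the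
adjoint action, with `(1 + ε c) rb` the matrices of `ρ_φ`.  If the deformation condition is stable
under surjective base change to `k[ε]`, cohomologous cocycles come from the same `φ`.
-/

set_option autoImplicit false
set_option linter.unusedSectionVars false
set_option linter.style.haveILetI false

namespace Fermat.Agent.S56lib.Dict

open IsLocalRing TrivSqZeroExt Fermat.Agent.TeamA Fermat.Agent.TeamA.Rep

local notation "Γℚ" => (AlgebraicClosure ℚ ≃ₐ[ℚ] AlgebraicClosure ℚ)

attribute [local instance] dualNumberAlgebra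

section Complete

/-- A module is complete for the adic topology of a nilpotent ideal. -/
theorem isAdicComplete_of_pow_eq_bot {A : Type*} [CommRing A] (I : Ideal A) (M : Type*)
    [AddCommGroup M] [Module A M] (c : ℕ) (hc : I ^ c = ⊥) : IsAdicComplete I M where
  haus' := by
    intro x hx
    have := hx c
    rwa [hc, Submodule.bot_smul, SModEq.zero, Submodule.mem_bot] at this
  prec' := by
    intro f hf
    refine ⟨f c, fun n => ?_⟩
    rcases le_total n c with h | h
    · exact hf h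
    · have := hf h
      rw [hc, Submodule.bot_smul, SModEq.bot] at this
      rw [this]

instance dualNumber_isAdicComplete {K : Type*} [Field K] :
    IsAdicComplete (maximalIdeal (DualNumber K)) (DualNumber K) :=
  isAdicComplete_of_pow_eq_bot _ _ 2 dualNumber_maximalIdeal_sq

end Complete

section TestAlg

variable (𝒪 : Type) [CommRing 𝒪] [IsLocalRing 𝒪]

instance dualNumber_isTestAlg : IsTestAlg 𝒪 (DualNumber (ResidueField 𝒪)) :=
  ⟨dualNumberAlgebra_isLocalHom 𝒪, dualNumberAlgebra_residue_surjective 𝒪⟩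

instance dualNumber_isLocalHom_algebraMap :
    IsLocalHom (algebraMap 𝒪 (DualNumber (ResidueField 𝒪))) :=
  dualNumberAlgebra_isLocalHom 𝒪

variable {𝒪}

/-- An element of `k[ε]` is congruent to `algebraMap o` modulo `ε` iff its first component is the
residue of `o`. -/
theorem dual_sub_algebraMap_mem_iff (x : DualNumber (ResidueField 𝒪)) (o : 𝒪) :
    x - algebraMap 𝒪 (DualNumber (ResidueField 𝒪)) o ∈ maximalIdeal (DualNumber (ResidueField 𝒪)) ↔
      x.fst = residue 𝒪 o := by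
  rw [dualNumber_mem_maximalIdeal_iff, fst_sub, dualNumberAlgebra_algebraMap_apply, fst_inl,
    sub_eq_zero]

end TestAlg

section Dichotomy

variable {𝒪 : Type} [CommRing 𝒪] [IsLocalRing 𝒪]
variable {R : Type} [CommRing R] [IsLocalRing R] [Algebra 𝒪 R] [IsTestAlg 𝒪 R]

/-- The trivial tangent vector `R → k ⊂ k[ε]`. -/
noncomputable def trivTangent : R →ₐ[𝒪] DualNumber (ResidueField 𝒪) :=
  { (inlHom (ResidueField 𝒪) (ResidueField 𝒪) : ResidueField 𝒪 →+* _).comp
      (resK 𝒪 R : R →+* ResidueField 𝒪) with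
    commutes' := by
      intro o
      change inl (resK 𝒪 R (algebraMap 𝒪 R o)) = inl (residue 𝒪 o)
      rw [AlgHom.commutes]
      rfl }

theorem trivTangent_apply (a : R) :
    trivTangent (𝒪 := 𝒪) a = inl (resK 𝒪 R a) := rfl

theorem fst_algHom_dual (φ : R →ₐ[𝒪] DualNumber (ResidueField 𝒪)) (a : R) :
    (φ a).fst = resK 𝒪 R a := by
  obtain ⟨o, ho⟩ := exists_algebraMap_sub_mem 𝒪 R a
  have h1 := map_mem_maximalIdeal φ ho
  rw [map_sub, AlgHom.commutes, dual_sub_algebraMap_mem_iff] at h1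
  rw [h1, (resK_eq_iff a o).mpr ho]

/-- **Dichotomy**: an `𝒪`-algebra map `R → k[ε]` is surjective or trivial. -/
theorem surjective_or_eq_trivTangent (φ : R →ₐ[𝒪] DualNumber (ResidueField 𝒪)) :
    Function.Surjective φ ∨ φ = trivTangent := by
  by_cases h : ∀ a, (φ a).snd = 0
  · right
    ext a
    · rw [fst_algHom_dual, trivTangent_apply, fst_inl]
    · rw [h a, trivTangent_apply, snd_inl]
  · left
    simp only [not_forall] at h
    obtain ⟨a, ha⟩ := h
    intro y
    -- `y = inl y₁ + (y₂ / d) ε d` with `d = snd (φ a)`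
    obtain ⟨o, ho⟩ := exists_algebraMap_sub_mem 𝒪 R a
    set a' := a - algebraMap 𝒪 R o with ha'
    have hfst : (φ a').fst = 0 := by
      have h1 := map_mem_maximalIdeal φ ho
      rwa [dualNumber_mem_maximalIdeal_iff] at h1
    have hsnd : (φ a').snd = (φ a).snd := by
      rw [ha', map_sub, AlgHom.commutes, snd_sub, dualNumberAlgebra_algebraMap_apply, snd_inl,
        sub_zero]
    obtain ⟨o₁, ho₁⟩ := residue_surjective y.fst
    obtain ⟨o₂, ho₂⟩ := residue_surjective (y.snd / (φ a).snd)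
    refine ⟨algebraMap 𝒪 R o₁ + algebraMap 𝒪 R o₂ * a', ?_⟩
    rw [map_add, map_mul, AlgHom.commutes, AlgHom.commutes, dualNumberAlgebra_algebraMap_apply,
      dualNumberAlgebra_algebraMap_apply, ho₁, ho₂]
    ext
    · simp [hfst]
    · simp [hfst, hsnd, ha]

end Dichotomy

section Based

variable {𝒪 : Type} [CommRing 𝒪] [IsDomain 𝒪] [IsDiscreteValuationRing 𝒪]
  [IsAdicComplete (maximalIdeal 𝒪) 𝒪]
variable {ρbar : ResidualGaloisRep (ResidueField 𝒪)}
variable {𝒟 : ∀ ⦃A : Type⦄ [CommRing A] [IsLocalRing A] [Algebra 𝒪 A], GaloisRepAdic A → Prop}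

instance deformationRingData_isTestAlg (DQ : GaloisRep.DeformationRingData 𝒪 ρbar 𝒟) :
    IsTestAlg 𝒪 DQ.R :=
  ⟨inferInstance, DQ.residue_surjective⟩

/-- The matrices of a based residual representation, as a monoid homomorphism. -/
noncomputable def resHom (ρbar : ResidualGaloisRep (ResidueField 𝒪))
    (bbar : Module.Basis (Fin 2) (ResidueField 𝒪) ρbar.V) :
    Γℚ →* Matrix (Fin 2) (Fin 2) (ResidueField 𝒪) where
  toFun := matOfRes ρbar bbar
  map_one' := matOfRes_one ρbar bbar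
  map_mul' := matOfRes_mul ρbar bbar

@[simp] theorem resHom_apply (bbar : Module.Basis (Fin 2) (ResidueField 𝒪) ρbar.V) (g : Γℚ) :
    resHom ρbar bbar g = matOfRes ρbar bbar g := rfl

/-- A based universal deformation: a basis of the universal representation whose matrices
reduce to the matrices of `ρbar` in a fixed basis. -/
structure Based (DQ : GaloisRep.DeformationRingData 𝒪 ρbar 𝒟) where
  /-- the basis of `ρbar` -/
  bbar : Module.Basis (Fin 2) (ResidueField 𝒪) ρbar.V
  /-- a set-theoretic lift of the matrices of `ρbar` -/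
  Rt : Γℚ → Matrix (Fin 2) (Fin 2) 𝒪
  hRt : ∀ g, (Rt g).map (residue 𝒪) = matOfRes ρbar bbar g
  /-- the basis of the universal representation -/
  bR : Module.Basis (Fin 2) DQ.R DQ.ρ.V
  hl : Lifts Rt (matOf DQ.ρ bR)

theorem exists_based (DQ : GaloisRep.DeformationRingData 𝒪 ρbar 𝒟)
    (bbar : Module.Basis (Fin 2) (ResidueField 𝒪) ρbar.V) : ∃ B : Based DQ, B.bbar = bbar := by
  classical
  have hRt : ∀ g : Γℚ, ∃ M : Matrix (Fin 2) (Fin 2) 𝒪,
      M.map (residue 𝒪) = matOfRes ρbar bbar g := by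
    intro g
    refine ⟨Matrix.of fun i j => Classical.choose (residue_surjective (matOfRes ρbar bbar g i j)),
      ?_⟩
    ext i j
    exact Classical.choose_spec (residue_surjective (matOfRes ρbar bbar g i j))
  choose Rt hRt' using hRt
  obtain ⟨bR, hbR⟩ := Fermat.Agent.TeamA.BasedLift.exists_basis_lifts ρbar bbar Rt hRt' DQ.ρ
    DQ.residual_isEquiv
  exact ⟨⟨bbar, Rt, hRt', bR, hbR⟩, rfl⟩

theorem nonempty_based (DQ : GaloisRep.DeformationRingData 𝒪 ρbar 𝒟) : Nonempty (Based DQ) := by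
  obtain ⟨B, -⟩ := exists_based DQ (Module.finBasisOfFinrankEq _ _ ρbar.finrank_eq)
  exact ⟨B⟩

variable {DQ : GaloisRep.DeformationRingData 𝒪 ρbar 𝒟} (B : Based DQ)

/-- The fixed matrices of `ρbar`. -/
noncomputable abbrev Based.rb : Γℚ →* Matrix (Fin 2) (Fin 2) (ResidueField 𝒪) :=
  resHom ρbar B.bbar

/-- The matrices of the tangent vector `φ`. -/
noncomputable def Based.tanMat (φ : DQ.R →ₐ[𝒪] DualNumber (ResidueField 𝒪)) (g : Γℚ) :
    Matrix (Fin 2) (Fin 2) (DualNumber (ResidueField 𝒪)) :=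
  (matOf DQ.ρ B.bR g).map φ

theorem Based.tanMat_mul (φ : DQ.R →ₐ[𝒪] DualNumber (ResidueField 𝒪)) (g h : Γℚ) :
    B.tanMat φ (g * h) = B.tanMat φ g * B.tanMat φ h := by
  unfold Based.tanMat
  rw [matOf_mul, Matrix.map_mul]

theorem Based.fstM_tanMat (φ : DQ.R →ₐ[𝒪] DualNumber (ResidueField 𝒪)) (g : Γℚ) :
    fstM (B.tanMat φ g) = B.rb g := by
  ext i j
  have h := (B.hl.comp φ) g i j
  change (B.tanMat φ g i j) - algebraMap 𝒪 _ (B.Rt g i j) ∈ _ at h
  rw [dual_sub_algebraMap_mem_iff] at h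
  rw [fstM_apply, h, resHom_apply, ← B.hRt g, Matrix.map_apply]

/-- The representation `ρ_φ`. -/
noncomputable def tanRep (DQ : GaloisRep.DeformationRingData 𝒪 ρbar 𝒟)
    (φ : DQ.R →ₐ[𝒪] DualNumber (ResidueField 𝒪)) : GaloisRepAdic (DualNumber (ResidueField 𝒪)) :=
  DQ.ρ.baseChangeAlong (φ : DQ.R →+* DualNumber (ResidueField 𝒪)) (isLocalHom_of_isTestAlg φ)

theorem Based.matOf_tanRep (φ : DQ.R →ₐ[𝒪] DualNumber (ResidueField 𝒪)) (g : Γℚ) :
    matOf (tanRep DQ φ) (bcBasis (φ : DQ.R →+* DualNumber (ResidueField 𝒪))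
      (isLocalHom_of_isTestAlg φ) DQ.ρ B.bR) g = B.tanMat φ g :=
  matOf_baseChangeAlong _ _ _ _ g

/-- **The tangent cocycle** of `φ`. -/
noncomputable def Based.tanCocycle (φ : DQ.R →ₐ[𝒪] DualNumber (ResidueField 𝒪)) :
    Γℚ → Matrix (Fin 2) (Fin 2) (ResidueField 𝒪) :=
  cocycleOf B.rb (B.tanMat φ)

theorem Based.isCocycle_tanCocycle (φ : DQ.R →ₐ[𝒪] DualNumber (ResidueField 𝒪)) :
    IsCocycle B.rb (B.tanCocycle φ) :=
  isCocycle_cocycleOf _ _ (B.fstM_tanMat φ) (B.tanMat_mul φ)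

theorem Based.liftFun_tanCocycle (φ : DQ.R →ₐ[𝒪] DualNumber (ResidueField 𝒪)) (g : Γℚ) :
    liftFun B.rb (B.tanCocycle φ) g = B.tanMat φ g :=
  liftFun_cocycleOf _ _ (B.fstM_tanMat φ) g

/-- Cohomologous tangent cocycles give equivalent deformations. -/
theorem Based.isEquiv_of_isCobound (φ φ' : DQ.R →ₐ[𝒪] DualNumber (ResidueField 𝒪))
    (h : IsCobound B.rb (fun g => B.tanCocycle φ g - B.tanCocycle φ' g)) :
    (tanRep DQ φ).IsEquiv (tanRep DQ φ') := by
  obtain ⟨M, M', h1, h2, hc⟩ := exists_conj_of_isCobound _ _ _ h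
  refine isEquiv_of_conj _ _ (bcBasis _ (isLocalHom_of_isTestAlg φ) DQ.ρ B.bR)
    (bcBasis _ (isLocalHom_of_isTestAlg φ') DQ.ρ B.bR) M M' h1 h2 fun g => ?_
  rw [B.matOf_tanRep, B.matOf_tanRep, ← B.liftFun_tanCocycle, ← B.liftFun_tanCocycle]
  exact hc g

/-- The residual representation of `ρ_φ` is `ρbar`. -/
theorem Based.residual_tanRep (B : Based DQ) (φ : DQ.R →ₐ[𝒪] DualNumber (ResidueField 𝒪)) :
    (tanRep DQ φ).residual.IsEquiv
      (ρbar.baseChangeAlong (ResidueField.map (algebraMap 𝒪 (DualNumber (ResidueField 𝒪))))) := by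
  refine Fermat.Agent.TeamA.BasedLift.residual_isEquiv_of_lifts ρbar B.bbar B.Rt B.hRt
    (tanRep DQ φ) (bcBasis _ (isLocalHom_of_isTestAlg φ) DQ.ρ B.bR) ?_
  intro g i j
  rw [B.matOf_tanRep]
  exact (B.hl.comp φ) g i j

/-- **Injectivity of the tangent map modulo coboundaries**, for a deformation condition which is
stable under surjective base change to `k[ε]`. -/
theorem Based.eq_of_isCobound
    (hbc : ∀ φ : DQ.R →ₐ[𝒪] DualNumber (ResidueField 𝒪), Function.Surjective φ →
      𝒟 (tanRep DQ φ))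
    (φ φ' : DQ.R →ₐ[𝒪] DualNumber (ResidueField 𝒪))
    (h : IsCobound B.rb (fun g => B.tanCocycle φ g - B.tanCocycle φ' g)) : φ = φ' := by
  have hE := B.isEquiv_of_isCobound φ φ' h
  have hres := B.residual_tanRep
  have key : ∀ ψ ψ' : DQ.R →ₐ[𝒪] DualNumber (ResidueField 𝒪), Function.Surjective ψ' →
      (tanRep DQ ψ).IsEquiv (tanRep DQ ψ') → ψ = ψ' := by
    intro ψ ψ' hs hE'
    obtain ⟨χ, -, huniq⟩ := DQ.universal (DualNumber (ResidueField 𝒪))
      (dualNumberAlgebra_residue_surjective 𝒪) (tanRep DQ ψ') (hbc ψ' hs) (hres ψ')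
    have e1 : ψ = χ := huniq ψ ⟨isLocalHom_of_isTestAlg ψ, hE'⟩
    have e2 : ψ' = χ := huniq ψ' ⟨isLocalHom_of_isTestAlg ψ', ⟨GaloisRepAdic.Equiv.refl _⟩⟩
    rw [e1, e2]
  rcases surjective_or_eq_trivTangent φ' with hs' | ht'
  · exact key φ φ' hs' hE
  · rcases surjective_or_eq_trivTangent φ with hs | ht
    · obtain ⟨e⟩ := hE
      exact (key φ' φ hs ⟨e.symm⟩).symm
    · rw [ht, ht']

end Based

end Fermat.Agent.S56lib.Dict
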