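import Mathlib
import Fermat.Agent.S56lib.Dict.TangentMap

/-!
# The deformation to `k[ε]` attached to a smooth cocycle

For a (smooth) 1-cocycle `c : Γℚ → M₂(k)` for the adjoint action attached to `rb : Γℚ →* M₂(k)`,
`liftRep rb c` is the representation `g ↦ (1 + ε c g) rb g` on `k[ε]²`.  For a tangent vector
`φ : DQ.R → k[ε]` of a universal deformation ring, `ρ_φ` is equivalent to `liftRep` of its tangent
cocycle.
-/

set_option autoImplicit false
set_option linter.unusedSectionVars false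
set_option linter.style.haveILetI false

namespace Fermat.Agent.S56lib.Dict

open IsLocalRing TrivSqZeroExt Fermat.Agent.TeamA Fermat.Agent.TeamA.Rep

local notation "Γℚ" => (AlgebraicClosure ℚ ≃ₐ[ℚ] AlgebraicClosure ℚ)

attribute [local instance] dualNumberAlgebra

section Smooth

variable {k : Type} [Field k]

/-- A cochain is smooth (for `rb`) if `rb` is trivial and `c` vanishes on an open subgroup. -/
def IsSmoothCochain (rb : Γℚ →* Matrix (Fin 2) (Fin 2) k)
    (c : Γℚ → Matrix (Fin 2) (Fin 2) k) : Prop :=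
  ∃ L : IntermediateField ℚ (AlgebraicClosure ℚ), FiniteDimensional ℚ L ∧
    ∀ σ : Γℚ, (∀ x ∈ L, σ x = x) → rb σ = 1 ∧ c σ = 0

theorem matCont_liftFun {rb : Γℚ →* Matrix (Fin 2) (Fin 2) k}
    {c : Γℚ → Matrix (Fin 2) (Fin 2) k} (hs : IsSmoothCochain rb c) :
    MatCont (liftFun rb c) := by
  obtain ⟨L, hL, h⟩ := hs
  intro n
  refine ⟨L, hL, fun σ hσ i j => ?_⟩
  obtain ⟨h1, h2⟩ := h σ hσ
  have : liftFun rb c σ = 1 := by
    unfold liftFun
    rw [h1, h2, zero_mul, mkM_one_zero]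
  rw [this, sub_self]
  exact Ideal.zero_mem _

/-- The deformation of `rb` to `k[ε]` attached to a smooth cocycle. -/
noncomputable def liftRep (rb : Γℚ →* Matrix (Fin 2) (Fin 2) k)
    (c : Γℚ → Matrix (Fin 2) (Fin 2) k) (hc : IsCocycle rb c) (hs : IsSmoothCochain rb c) :
    GaloisRepAdic (DualNumber k) :=
  matRep (liftHom rb c hc) (matCont_liftFun hs)

/-- The standard basis of `liftRep`. -/
noncomputable def liftBasis (rb : Γℚ →* Matrix (Fin 2) (Fin 2) k)
    (c : Γℚ → Matrix (Fin 2) (Fin 2) k) (hc : IsCocycle rb c) (hs : IsSmoothCochain rb c) :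
    Module.Basis (Fin 2) (DualNumber k) (liftRep rb c hc hs).V :=
  stdBasis (liftHom rb c hc) (matCont_liftFun hs)

theorem matOf_liftRep (rb : Γℚ →* Matrix (Fin 2) (Fin 2) k)
    (c : Γℚ → Matrix (Fin 2) (Fin 2) k) (hc : IsCocycle rb c) (hs : IsSmoothCochain rb c)
    (g : Γℚ) : matOf (liftRep rb c hc hs) (liftBasis rb c hc hs) g = liftFun rb c g :=
  matOf_matRep _ _ g

/-- A multiplicative adically continuous matrix function over `k[ε]` with reduction `rb` has a
smooth cocycle. -/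
theorem isSmoothCochain_cocycleOf (rb : Γℚ →* Matrix (Fin 2) (Fin 2) k)
    (r : Γℚ → Matrix (Fin 2) (Fin 2) (DualNumber k)) (hr : ∀ g, fstM (r g) = rb g)
    (hcont : MatCont r) : IsSmoothCochain rb (cocycleOf rb r) := by
  obtain ⟨L, hL, h⟩ := hcont 2
  refine ⟨L, hL, fun σ hσ => ?_⟩
  have h1 : r σ = 1 := by
    ext i j : 1
    have := h σ hσ i j
    rw [dualNumber_maximalIdeal_sq, Ideal.mem_bot, Matrix.sub_apply, sub_eq_zero] at this
    exact this
  constructor
  · rw [← hr, h1, fstM_one]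
  · rw [cocycleOf, h1, sndM_one, zero_mul]

end Smooth

section Tangent

variable {𝒪 : Type} [CommRing 𝒪] [IsDomain 𝒪] [IsDiscreteValuationRing 𝒪]
  [IsAdicComplete (maximalIdeal 𝒪) 𝒪]
variable {ρbar : ResidualGaloisRep (ResidueField 𝒪)}
variable {𝒟 : ∀ ⦃A : Type⦄ [CommRing A] [IsLocalRing A] [Algebra 𝒪 A], GaloisRepAdic A → Prop}
variable {DQ : GaloisRep.DeformationRingData 𝒪 ρbar 𝒟} (B : Based DQ)

theorem Based.matCont_tanMat (φ : DQ.R →ₐ[𝒪] DualNumber (ResidueField 𝒪)) :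
    MatCont (B.tanMat φ) := by
  have := matCont_matOf (tanRep DQ φ) (bcBasis (φ : DQ.R →+* DualNumber (ResidueField 𝒪))
      (isLocalHom_of_isTestAlg φ) DQ.ρ B.bR)
  have e : matOf (tanRep DQ φ) (bcBasis (φ : DQ.R →+* DualNumber (ResidueField 𝒪))
      (isLocalHom_of_isTestAlg φ) DQ.ρ B.bR) = B.tanMat φ := funext (B.matOf_tanRep φ)
  rwa [e] at this

theorem Based.isSmoothCochain_tanCocycle (φ : DQ.R →ₐ[𝒪] DualNumber (ResidueField 𝒪)) :
    IsSmoothCochain B.rb (B.tanCocycle φ) :=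
  isSmoothCochain_cocycleOf _ _ (B.fstM_tanMat φ) (B.matCont_tanMat φ)

/-- The deformation attached to the tangent cocycle of `φ`. -/
noncomputable def Based.tanLift (φ : DQ.R →ₐ[𝒪] DualNumber (ResidueField 𝒪)) :
    GaloisRepAdic (DualNumber (ResidueField 𝒪)) :=
  liftRep B.rb (B.tanCocycle φ) (B.isCocycle_tanCocycle φ) (B.isSmoothCochain_tanCocycle φ)

/-- `ρ_φ` is equivalent to the deformation attached to its tangent cocycle. -/
theorem Based.tanRep_isEquiv_tanLift (φ : DQ.R →ₐ[𝒪] DualNumber (ResidueField 𝒪)) :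
    (tanRep DQ φ).IsEquiv (B.tanLift φ) := by
  refine isEquiv_of_matOf_eq _ _ (bcBasis _ (isLocalHom_of_isTestAlg φ) DQ.ρ B.bR)
    (liftBasis _ _ _ _) fun g => ?_
  unfold Based.tanLift
  rw [B.matOf_tanRep, matOf_liftRep, B.liftFun_tanCocycle]

end Tangent

end Fermat.Agent.S56lib.Dict
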