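import Mathlib
import Fermat.Prelude.Def_ExtCitation_AdmissibleExtension
import Fermat.Prelude.Def_GaloisRep_StrictOrdinary
import Fermat.Prelude.Def_GaloisRep_Flat
import Fermat.Agent.S56lib.Dict.LiftRep

/-!
# The local conditions on `liftRep` in cocycle language

For a smooth cocycle `c` with lift `ρ = liftRep rb c`:
* `ρ.DetIsCyclotomic p` implies `tr (c g) = 0` for all `g`;
* `ρ.IsUnramifiedAt q` implies `rb σ = 1` and `c σ = 0` on inertia at `q`;
* `ρ.IsUnipotentOnInertiaAt q` implies that `(1 + ε c σ) rb σ` has characteristic polynomial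
  `(X - 1) ^ 2` for `σ` in inertia at `q`; in particular `tr (c σ) = 0`, `tr (c σ * rb σ) = 0`.
-/

set_option autoImplicit false
set_option linter.unusedSectionVars false
set_option linter.style.haveILetI false

namespace Fermat.Agent.S56lib.Dict

open IsLocalRing TrivSqZeroExt Fermat.Agent.TeamA Fermat.Agent.TeamA.Rep Polynomial

local notation "Γℚ" => (AlgebraicClosure ℚ ≃ₐ[ℚ] AlgebraicClosure ℚ)

section Cyclo

variable (p : ℕ) [Fact p.Prime]

/-- Every `σ` acts on the `p`-th roots of unity by the power `cycloExp p σ`. -/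
theorem apply_root_eq_pow_cycloExp (σ : Γℚ) (μ : AlgebraicClosure ℚ) (hμ : μ ^ p ^ 1 = 1) :
    σ μ = μ ^ ExtCitation.cycloExp p σ := by
  haveI : NeZero p := ⟨(Fact.out : p.Prime).ne_zero⟩
  rw [pow_one] at hμ
  have hu : IsUnit μ := IsUnit.of_pow_eq_one hμ (NeZero.ne p)
  obtain ⟨u, rfl⟩ := hu
  have hmem : u ∈ rootsOfUnity p (AlgebraicClosure ℚ) := by
    rw [mem_rootsOfUnity]
    exact Units.ext (by simpa using hμ)
  exact modularCyclotomicCharacter.spec (AlgebraicClosure ℚ) (ExtCitation.card_rootsOfUnity_eq_self p)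
    (σ : AlgebraicClosure ℚ ≃+* AlgebraicClosure ℚ) hmem

end Cyclo

section Lift

variable {k : Type} [Field k] (rb : Γℚ →* Matrix (Fin 2) (Fin 2) k)
  (c : Γℚ → Matrix (Fin 2) (Fin 2) k) (hc : IsCocycle rb c) (hs : IsSmoothCochain rb c)

theorem liftRep_ρ_apply (g : Γℚ) :
    (liftRep rb c hc hs).ρ g = Matrix.toLin' (liftFun rb c g) := rfl

theorem det_liftRep (g : Γℚ) :
    LinearMap.det ((liftRep rb c hc hs).ρ g) = (liftFun rb c g).det := by
  change LinearMap.det (Matrix.toLin' (liftFun rb c g) :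
    (Fin 2 → DualNumber k) →ₗ[DualNumber k] (Fin 2 → DualNumber k)) = _
  exact LinearMap.det_toLin' _

theorem charpoly_liftRep (g : Γℚ) :
    LinearMap.charpoly ((liftRep rb c hc hs).ρ g) = (liftFun rb c g).charpoly := by
  change LinearMap.charpoly (Matrix.toLin' (liftFun rb c g) :
    (Fin 2 → DualNumber k) →ₗ[DualNumber k] (Fin 2 → DualNumber k)) = _
  rw [← LinearMap.charpoly_toMatrix _ (Pi.basisFun (DualNumber k) (Fin 2)),
    LinearMap.toMatrix_eq_toMatrix', LinearMap.toMatrix'_toLin']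

theorem det_mkM_zero (A : Matrix (Fin 2) (Fin 2) k) : (mkM A 0).det = inl A.det := by
  rw [Matrix.det_fin_two, Matrix.det_fin_two]
  ext <;> simp

/-- `det ((1 + ε c) u) = det u + ε tr c det u`. -/
theorem det_liftFun (g : Γℚ) :
    (liftFun rb c g).det = inl (rb g).det + inr ((c g).trace * (rb g).det) := by
  have e : liftFun rb c g = mkM 1 (c g) * mkM (rb g) 0 := by
    unfold liftFun
    rw [mkM_mul]
    simp
  rw [e, Matrix.det_mul, det_mkM_one, det_mkM_zero]
  ext <;> simp

theorem isUnit_det_rb (g : Γℚ) : IsUnit (rb g).det := by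
  refine IsUnit.of_mul_eq_one ((rb g⁻¹).det) ?_
  rw [← Matrix.det_mul, rb_mul_inv, Matrix.det_one]

/-- `(p : k[ε]) ∈ 𝔪` forces `(p : k[ε]) = 0`. -/
theorem natCast_dualNumber_eq_zero {p : ℕ}
    (h : (p : DualNumber k) ∈ maximalIdeal (DualNumber k)) : (p : DualNumber k) = 0 := by
  rw [dualNumber_mem_maximalIdeal_iff] at h
  ext
  · exact h
  · simp

/-- **Determinant condition ⇒ trace zero.** -/
theorem trace_eq_zero_of_detIsCyclotomic (p : ℕ) [Fact p.Prime]
    (h : (liftRep rb c hc hs).DetIsCyclotomic p) (g : Γℚ) : (c g).trace = 0 := by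
  have h0 := natCast_dualNumber_eq_zero h.1
  have h1 := h.2 1 g (ExtCitation.cycloExp p g) (apply_root_eq_pow_cycloExp p g)
  rw [pow_one, h0, Ideal.span_singleton_eq_bot.mpr rfl, Ideal.mem_bot, sub_eq_zero, det_liftRep,
    det_liftFun] at h1
  have h2 := congrArg TrivSqZeroExt.snd h1
  simp only [snd_add, snd_inl, snd_inr, zero_add, snd_natCast] at h2
  exact (mul_eq_zero.mp h2).resolve_right (isUnit_det_rb rb g).ne_zero

/-- **Unramified ⇒ `rb` trivial and `c = 0` on inertia.** -/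
theorem eq_zero_of_isUnramifiedAt {q : ℕ} (h : (liftRep rb c hc hs).IsUnramifiedAt q)
    (P : ValuationSubring (AlgebraicClosure ℚ)) (hP : P.LiesOverPrime q) (σ : Γℚ)
    (hσ : σ ∈ P.inertiaSubgroupIn ℚ) : rb σ = 1 ∧ c σ = 0 := by
  have h1 := h P hP σ hσ
  rw [liftRep_ρ_apply] at h1
  have h2 : liftFun rb c σ = 1 := by
    apply Matrix.toLin'.injective
    rw [h1, Matrix.toLin'_one]
    rfl
  have h3 : rb σ = 1 := by
    have := congrArg fstM h2
    simpa using this
  refine ⟨h3, ?_⟩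
  have := congrArg sndM h2
  simpa [h3] using this

/-- **Unipotent on inertia ⇒ characteristic polynomial of the matrix.** -/
theorem charpoly_of_isUnipotentOnInertiaAt {q : ℕ}
    (h : (liftRep rb c hc hs).IsUnipotentOnInertiaAt q)
    (P : ValuationSubring (AlgebraicClosure ℚ)) (hP : P.LiesOverPrime q) (σ : Γℚ)
    (hσ : σ ∈ P.inertiaSubgroupIn ℚ) : (liftFun rb c σ).charpoly = (X - 1) ^ 2 := by
  rw [← charpoly_liftRep rb c hc hs]
  exact h P hP σ hσ

theorem trace_det_of_charpoly {R : Type*} [CommRing R] [Nontrivial R]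
    (M : Matrix (Fin 2) (Fin 2) R) (h : M.charpoly = (X - 1) ^ 2) : M.trace = 2 ∧ M.det = 1 := by
  rw [Matrix.charpoly_fin_two] at h
  have e : (X - 1 : R[X]) ^ 2 = X ^ 2 - C 2 * X + C 1 := by
    rw [map_ofNat, map_one]; ring
  rw [e] at h
  constructor
  · have := congrArg (fun f => coeff f 1) h
    simp only [coeff_add, coeff_sub, coeff_X_pow, coeff_C_mul, coeff_X_one, coeff_C] at this
    simpa using this
  · have := congrArg (fun f => coeff f 0) h
    simp only [coeff_add, coeff_sub, coeff_X_pow, coeff_C_mul, coeff_X_zero, coeff_C] at this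
    simpa using this

theorem trace_mkM (A B : Matrix (Fin 2) (Fin 2) k) :
    (mkM A B).trace = inl A.trace + inr B.trace := by
  rw [Matrix.trace_fin_two, Matrix.trace_fin_two, Matrix.trace_fin_two]
  ext <;> simp

/-- **Unipotent on inertia, cocycle form**: `rb σ` is unipotent, `tr (c σ) = 0` and
`tr (c σ * rb σ) = 0`. -/
theorem unipotent_cocycle_form {q : ℕ}
    (h : (liftRep rb c hc hs).IsUnipotentOnInertiaAt q)
    (P : ValuationSubring (AlgebraicClosure ℚ)) (hP : P.LiesOverPrime q) (σ : Γℚ)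
    (hσ : σ ∈ P.inertiaSubgroupIn ℚ) :
    (rb σ).trace = 2 ∧ (rb σ).det = 1 ∧ (c σ).trace = 0 ∧ (c σ * rb σ).trace = 0 := by
  obtain ⟨h1, h2⟩ := trace_det_of_charpoly _
    (charpoly_of_isUnipotentOnInertiaAt rb c hc hs h P hP σ hσ)
  unfold liftFun at h1
  rw [trace_mkM] at h1
  rw [det_liftFun] at h2
  have a1 := congrArg TrivSqZeroExt.fst h1
  have a2 := congrArg TrivSqZeroExt.snd h1
  have b1 := congrArg TrivSqZeroExt.fst h2
  have b2 := congrArg TrivSqZeroExt.snd h2
  simp only [fst_add, fst_inl, fst_inr, add_zero, snd_add, snd_inl, snd_inr, zero_add,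
    fst_one, snd_one] at a1 a2 b1 b2
  refine ⟨?_, b1, ?_, ?_⟩
  · rw [a1]; rfl
  · rw [b1, mul_one] at b2
    exact b2
  · rw [a2]; rfl

end Lift

end Fermat.Agent.S56lib.Dict
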