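import Mathlib
import Fermat.Agent.S55lib.Iface.Top
import Fermat.Agent.S55lib.GlobDual.SmoothM
import Fermat.Agent.S56lib.Dict.CondCocycle

/-!
# The adjoint representation `ad⁰ρ̄` as a `Rep (ZMod p) G_ℚ` and the class of a cocycle

`adRep p rb` is the conjugation action through `rb : G_ℚ →* M₂(K)` on the trace-zero matrices,
viewed over `ZMod p` (`K` of characteristic `p`).  A trace-zero cocycle `c` (in the sense of
`Dict.IsCocycle`) which is level-constant for a field unramified outside `S` defines a class in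
the smooth cohomology `H1S S (adRep p rb)` of the S55 library; two such classes agree iff the
cocycles differ by a coboundary.
-/

set_option autoImplicit false
set_option linter.unusedSectionVars false
set_option linter.style.haveILetI false

noncomputable section

namespace Fermat.Agent.S56lib.Dict

open Fermat.Agent.S55lib groupCohomology

attribute [local instance] ZMod.algebra

section AdRep

variable {K : Type} [Field K] (p : ℕ) [Fact p.Prime] [CharP K p]

/-- Trace-zero matrices. -/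
def sl2 (K : Type) [Field K] : Submodule K (Matrix (Fin 2) (Fin 2) K) :=
  LinearMap.ker (Matrix.traceLinearMap (Fin 2) K K)

theorem mem_sl2_iff (X : Matrix (Fin 2) (Fin 2) K) : X ∈ sl2 K ↔ X.trace = 0 := by
  rw [sl2, LinearMap.mem_ker, Matrix.traceLinearMap_apply]

theorem conj_mem_sl2 (rb : GQ →* Matrix (Fin 2) (Fin 2) K) (g : GQ)
    {X : Matrix (Fin 2) (Fin 2) K} (hX : X ∈ sl2 K) : rb g * X * rb g⁻¹ ∈ sl2 K := by
  rw [mem_sl2_iff] at hX ⊢
  rw [Matrix.trace_mul_cycle, rb_inv_mul, one_mul, hX]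

/-- The adjoint action on trace-zero matrices, over `ZMod p`. -/
def adRho (rb : GQ →* Matrix (Fin 2) (Fin 2) K) : Representation (ZMod p) GQ (sl2 K) where
  toFun g :=
    { toFun := fun X => ⟨rb g * X.1 * rb g⁻¹, conj_mem_sl2 rb g X.2⟩
      map_add' := fun X Y => by
        apply Subtype.ext
        simp [mul_add, add_mul]
      map_smul' := fun a X => by
        apply Subtype.ext
        simp }
  map_one' := by
    apply LinearMap.ext
    intro X
    apply Subtype.ext
    simp
  map_mul' g h := by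
    apply LinearMap.ext
    intro X
    apply Subtype.ext
    simp [Matrix.mul_assoc]

theorem adRho_apply_coe (rb : GQ →* Matrix (Fin 2) (Fin 2) K) (g : GQ) (X : sl2 K) :
    ((adRho p rb g X : sl2 K) : Matrix (Fin 2) (Fin 2) K) = rb g * X.1 * rb g⁻¹ := rfl

/-- `ad⁰ρ̄` as an object of `Rep (ZMod p) G_ℚ`. -/
def adRep (rb : GQ →* Matrix (Fin 2) (Fin 2) K) : Rep.{0} (ZMod p) GQ := Rep.of (adRho p rb)

end AdRep

section Class

variable {K : Type} [Field K] (p : ℕ) [Fact p.Prime] [CharP K p] (S : Finset Nat.Primes)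
  (rb : GQ →* Matrix (Fin 2) (Fin 2) K)

/-- Trace-zero cocycles which are level-constant for a field unramified outside `S`. -/
structure IsUnrCocycle (c : GQ → Matrix (Fin 2) (Fin 2) K) : Prop where
  cocycle : IsCocycle rb c
  trace : ∀ g, (c g).trace = 0
  lc : ∃ F : FieldQ, F.IsUnramifiedOutside S ∧ ∀ g s, s ∈ F.fixingSubgroup → c (g * s) = c g

variable {S rb}

/-- The underlying matrix of an element of `adRep`. -/
def adVal (X : adRep p rb) : Matrix (Fin 2) (Fin 2) K :=
  @Subtype.val _ (fun x => x ∈ sl2 K) X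

theorem adVal_injective : Function.Injective (adVal p (rb := rb)) := fun _ _ h => Subtype.ext h

theorem adVal_add (X Y : adRep p rb) : adVal p (X + Y) = adVal p X + adVal p Y := rfl

theorem adVal_sub (X Y : adRep p rb) : adVal p (X - Y) = adVal p X - adVal p Y := rfl

theorem trace_adVal (X : adRep p rb) : (adVal p X).trace = 0 :=
  (mem_sl2_iff _).1 (@Subtype.property _ (fun x => x ∈ sl2 K) X)

theorem adVal_ρ (g : GQ) (X : adRep p rb) :
    adVal p ((adRep p rb).ρ g X) = rb g * adVal p X * rb g⁻¹ := rfl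

/-- A trace-zero cochain as a cochain of `adRep`. -/
def toAd (c : GQ → Matrix (Fin 2) (Fin 2) K) (h : ∀ g, (c g).trace = 0) : GQ → adRep p rb :=
  fun g => (⟨c g, (mem_sl2_iff _).2 (h g)⟩ : sl2 K)

theorem adVal_toAd (c : GQ → Matrix (Fin 2) (Fin 2) K) (h : ∀ g, (c g).trace = 0) (g : GQ) :
    adVal p (toAd p (rb := rb) c h g) = c g := rfl

theorem toAd_mem_Z1 {c : GQ → Matrix (Fin 2) (Fin 2) K} (hc : IsUnrCocycle S rb c) :
    toAd p (rb := rb) c hc.trace ∈ Sm.Z1 (MonoidHom.id GQ) (LevelClass.unr S) (adRep p rb) := by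
  refine ⟨(mem_cocycles₁_iff _).2 fun g h => ?_, ?_⟩
  · apply adVal_injective
    rw [adVal_add, adVal_ρ, adVal_toAd, adVal_toAd, adVal_toAd, hc.cocycle g h, add_comm]
  · obtain ⟨F, hF, hlc⟩ := hc.lc
    refine ⟨F, hF, fun g s hs => ?_⟩
    apply adVal_injective
    rw [adVal_toAd, adVal_toAd]
    exact hlc g s hs

/-- **The class of an unramified trace-zero cocycle** in `H¹(G_S, ad⁰ρ̄)`. -/
def adClass {c : GQ → Matrix (Fin 2) (Fin 2) K} (hc : IsUnrCocycle S rb c) :
    H1S S (adRep p rb) :=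
  Sm.H1π (MonoidHom.id GQ) (LevelClass.unr S) (adRep p rb) ⟨_, toAd_mem_Z1 p hc⟩

/-- Equal classes differ by a coboundary. -/
theorem isCobound_of_adClass_eq {c c' : GQ → Matrix (Fin 2) (Fin 2) K}
    (hc : IsUnrCocycle S rb c) (hc' : IsUnrCocycle S rb c') (h : adClass p hc = adClass p hc') :
    IsCobound rb (fun g => c g - c' g) := by
  unfold adClass at h
  rw [← sub_eq_zero, ← map_sub, Submodule.mkQ_apply, Submodule.Quotient.mk_eq_zero,
    Submodule.mem_comap] at h
  obtain ⟨⟨m, hm⟩, -⟩ := h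
  refine ⟨adVal p (rb := rb) m, fun g => ?_⟩
  have h1 := congrFun hm g
  have h2 := congrArg (adVal p (rb := rb)) h1
  rw [d₀₁_hom_apply, adVal_sub, adVal_ρ] at h2
  rw [h2]
  rfl

end Class

section Unramified

variable {K : Type} [Field K] {S : Finset Nat.Primes} {rb : GQ →* Matrix (Fin 2) (Fin 2) K}

/-- The subgroup on which `rb` is trivial and the cocycle `c` vanishes. -/
def cocycleKer (rb : GQ →* Matrix (Fin 2) (Fin 2) K) (c : GQ → Matrix (Fin 2) (Fin 2) K)
    (hc : IsCocycle rb c) : Subgroup GQ where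
  carrier := {s | rb s = 1 ∧ c s = 0}
  one_mem' := ⟨map_one rb, hc.map_one⟩
  mul_mem' := by
    rintro s t ⟨hs1, hs2⟩ ⟨ht1, ht2⟩
    refine ⟨by rw [map_mul, hs1, ht1, one_mul], ?_⟩
    rw [hc s t, hs2, ht2]
    simp
  inv_mem' := by
    rintro s ⟨hs1, hs2⟩
    have h1 : rb s⁻¹ = 1 := by
      have := rb_inv_mul rb s
      rwa [hs1, mul_one] at this
    refine ⟨h1, ?_⟩
    have := hc s s⁻¹
    rw [mul_inv_cancel, hc.map_one, hs2, hs1, h1] at this
    simpa using this.symm

theorem mem_cocycleKer_iff {c : GQ → Matrix (Fin 2) (Fin 2) K} (hc : IsCocycle rb c) (s : GQ) :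
    s ∈ cocycleKer rb c hc ↔ rb s = 1 ∧ c s = 0 := Iff.rfl

/-- A smooth trace-zero cocycle which vanishes (together with `rb`) on the inertia groups at the
primes outside `S` is level-constant for a field unramified outside `S`. -/
theorem isUnrCocycle_of_smooth_unramified {c : GQ → Matrix (Fin 2) (Fin 2) K}
    (hc : IsCocycle rb c) (hs : IsSmoothCochain rb c) (htr : ∀ g, (c g).trace = 0)
    (hur : ∀ q : Nat.Primes, q ∉ S → ∀ P : ValuationSubring (AlgebraicClosure ℚ),
      P.LiesOverPrime (q : ℕ) → ∀ σ ∈ P.inertiaSubgroupIn ℚ, rb σ = 1 ∧ c σ = 0) :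
    IsUnrCocycle S rb c := by
  classical
  have : IsGalois ℚ (AlgebraicClosure ℚ) := ⟨⟩
  refine ⟨hc, htr, ?_⟩
  obtain ⟨L, hL, hLc⟩ := hs
  let N : Subgroup GQ := cocycleKer rb c hc
  have hLN : L.fixingSubgroup ≤ N := by
    intro s hs
    exact hLc s (fun x hx => (IntermediateField.mem_fixingSubgroup_iff _ _).1 hs x hx)
  have hNopen : IsOpen (N : Set GQ) :=
    Subgroup.isOpen_mono hLN (IntermediateField.fixingSubgroup_isOpen L)
  let Nc : ClosedSubgroup GQ := ⟨N, (OpenSubgroup.isClosed ⟨N, hNopen⟩ : _)⟩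
  let F' : FieldQ := IntermediateField.fixedField N
  have hF'fix : F'.fixingSubgroup = N := InfiniteGalois.fixingSubgroup_fixedField Nc
  have hF'le : F' ≤ L := by
    have h1 : IntermediateField.fixedField L.fixingSubgroup = L :=
      InfiniteGalois.fixedField_fixingSubgroup L
    rw [← h1]
    exact IntermediateField.fixedField_antitone hLN
  refine ⟨F', ⟨?_, fun q hq A hA σ hσ => ?_⟩, fun g s hs => ?_⟩
  · exact FiniteDimensional.of_injective (IntermediateField.inclusion hF'le).toLinearMap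
      (IntermediateField.inclusion_injective hF'le)
  · rw [hF'fix]
    exact hur q hq A hA σ hσ
  · rw [hF'fix] at hs
    obtain ⟨-, h2⟩ := hs
    rw [hc g s, h2]
    simp

end Unramified

section Smooth

variable {K : Type} [Field K] (p : ℕ) [Fact p.Prime] [CharP K p] (S : Finset Nat.Primes)
  (rb : GQ →* Matrix (Fin 2) (Fin 2) K)

instance adRep_finite [Finite K] : Finite (adRep p rb) :=
  inferInstanceAs (Finite (sl2 K))

instance adRep_finiteDimensional [Finite K] : FiniteDimensional (ZMod p) (adRep p rb) :=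
  Module.Finite.of_finite

theorem adRep_ρ_eq_one_of_rb_eq_one {s : GQ} (hs : rb s = 1) : (adRep p rb).ρ s = 1 := by
  apply LinearMap.ext
  intro X
  apply adVal_injective
  have h1 : rb s⁻¹ = 1 := by
    have := rb_inv_mul rb s
    rwa [hs, mul_one] at this
  rw [adVal_ρ, hs, h1, one_mul, mul_one]
  rfl

/-- `ad⁰ρ̄` is smooth for the level class `unr S` when `ρ̄` factors through a finite level and is
unramified outside `S`. -/
theorem adRep_isSmooth [Finite K]
    (hsm : ∃ L : FieldQ, FiniteDimensional ℚ L ∧ ∀ s ∈ L.fixingSubgroup, rb s = 1)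
    (hur : ∀ q : Nat.Primes, q ∉ S → ∀ P : ValuationSubring (AlgebraicClosure ℚ),
      P.LiesOverPrime (q : ℕ) → ∀ σ ∈ P.inertiaSubgroupIn ℚ, rb σ = 1) :
    Sm.IsSmooth (MonoidHom.id GQ) (LevelClass.unr S) (adRep p rb) := by
  obtain ⟨L, hL, hLr⟩ := hsm
  refine isSmooth_of_unramified S (adRep p rb) (fun m => ⟨L, hL, fun s hs => ?_⟩)
    (fun q hq P hP σ hσ => adRep_ρ_eq_one_of_rb_eq_one p rb (hur q hq P hP σ hσ))
  rw [adRep_ρ_eq_one_of_rb_eq_one p rb (hLr s hs)]
  rfl

variable {S rb}

/-- The localisation of `adClass` at `q` is the class of the restricted cocycle. -/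
theorem loc1_adClass {c : GQ → Matrix (Fin 2) (Fin 2) K} (hc : IsUnrCocycle S rb c)
    (q : Nat.Primes) :
    loc1 S (adRep p rb) q (adClass p hc) =
      Sm.H1π (rloc q) LevelClass.all (Rep.res (rloc q) (adRep p rb))
        (Sm.resZ1 (rloc q) (r := MonoidHom.id GQ) (r' := rloc q) (fun _ => rfl)
          (𝓛 := LevelClass.unr S) (𝓛' := LevelClass.all) (fun _ h => h.1) (adRep p rb)
          ⟨_, toAd_mem_Z1 p hc⟩) := rfl

theorem resZ1_toAd_apply {c : GQ → Matrix (Fin 2) (Fin 2) K} (hc : IsUnrCocycle S rb c)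
    (q : Nat.Primes) (g : Gloc q) :
    adVal p (rb := rb) ((Sm.resZ1 (rloc q) (r := MonoidHom.id GQ) (r' := rloc q) (fun _ => rfl)
      (𝓛 := LevelClass.unr S) (𝓛' := LevelClass.all) (fun _ h => h.1) (adRep p rb)
      ⟨_, toAd_mem_Z1 p hc⟩ : ↥(Sm.Z1 (rloc q) LevelClass.all (Rep.res (rloc q) (adRep p rb)))).1 g)
      = c (rloc q g) := rfl

end Smooth

end Fermat.Agent.S56lib.Dict
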