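import Mathlib
import Fermat.Prelude.Def_GaloisRep_StrictOrdinary
import Fermat.Prelude.Def_GaloisRep_Flat
import Fermat.Agent.TeamA.MatRep

/-!
# Stability of the local conditions under base change

`DetIsCyclotomic`, `IsUnramifiedAt`, `IsUnipotentOnInertiaAt` and `IsStrictOrdinaryAt` are stable
under base change along any local homomorphism; `IsFlatAt` is stable under base change along a
surjective local homomorphism.
-/

set_option autoImplicit false
set_option linter.unusedSectionVars false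
set_option linter.style.haveILetI false

namespace Fermat.Agent.S56lib.Dict

open IsLocalRing
open scoped TensorProduct

local notation "Γℚ" => (AlgebraicClosure ℚ ≃ₐ[ℚ] AlgebraicClosure ℚ)

section BaseChange

variable {A B : Type} [CommRing A] [IsLocalRing A] [CommRing B] [IsLocalRing B]

theorem map_mem_maximalIdeal_of_isLocalHom (φ : A →+* B) (hφ : IsLocalHom φ) {a : A}
    (ha : a ∈ maximalIdeal A) : φ a ∈ maximalIdeal B := by
  haveI := hφ
  rw [mem_maximalIdeal, mem_nonunits_iff] at ha ⊢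
  exact fun h => ha (isUnit_of_map_unit φ a h)

theorem map_mem_span_natCast (φ : A →+* B) {m : ℕ} {a : A} (ha : a ∈ Ideal.span {(m : A)}) :
    φ a ∈ Ideal.span {(m : B)} := by
  rw [Ideal.mem_span_singleton'] at ha ⊢
  obtain ⟨c, rfl⟩ := ha
  exact ⟨φ c, by rw [map_mul, map_natCast]⟩

theorem detIsCyclotomic_baseChangeAlong (φ : A →+* B) (hφ : IsLocalHom φ) (ρ : GaloisRepAdic A)
    {p : ℕ} (h : ρ.DetIsCyclotomic p) : (ρ.baseChangeAlong φ hφ).DetIsCyclotomic p := by
  letI : Algebra A B := φ.toAlgebra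
  refine ⟨?_, fun n σ a ha => ?_⟩
  · have := map_mem_maximalIdeal_of_isLocalHom φ hφ h.1
    rwa [map_natCast] at this
  · have h1 := h.2 n σ a ha
    have h2 := map_mem_span_natCast φ h1
    rw [map_sub, map_natCast] at h2
    change LinearMap.det ((ρ.ρ σ).baseChange B) - _ ∈ _
    rw [LinearMap.det_baseChange]
    exact h2

theorem isUnramifiedAt_baseChangeAlong (φ : A →+* B) (hφ : IsLocalHom φ) (ρ : GaloisRepAdic A)
    {q : ℕ} (h : ρ.IsUnramifiedAt q) : (ρ.baseChangeAlong φ hφ).IsUnramifiedAt q := by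
  letI : Algebra A B := φ.toAlgebra
  intro P hP σ hσ
  change (ρ.ρ σ).baseChange B = 1
  rw [h P hP σ hσ]
  exact LinearMap.baseChange_one A ρ.V

theorem isUnipotentOnInertiaAt_baseChangeAlong (φ : A →+* B) (hφ : IsLocalHom φ)
    (ρ : GaloisRepAdic A) {q : ℕ} (h : ρ.IsUnipotentOnInertiaAt q) :
    (ρ.baseChangeAlong φ hφ).IsUnipotentOnInertiaAt q := by
  letI : Algebra A B := φ.toAlgebra
  intro P hP σ hσ
  change LinearMap.charpoly ((ρ.ρ σ).baseChange B) = _
  rw [LinearMap.charpoly_baseChange, h P hP σ hσ]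
  simp

theorem tmul_smul_eq (φ : A →+* B) {V : Type} [AddCommGroup V] [Module A V] (β : B) (a : A)
    (v : V) :
    letI : Algebra A B := φ.toAlgebra
    β ⊗ₜ[A] (a • v) = (β * φ a) ⊗ₜ[A] v := by
  letI : Algebra A B := φ.toAlgebra
  rw [TensorProduct.tmul_smul, TensorProduct.smul_tmul', Algebra.smul_def, mul_comm]
  rfl

theorem smul_tmul_eq (φ : A →+* B) {V : Type} [AddCommGroup V] [Module A V] (β' β : B) (v : V) :
    letI : Algebra A B := φ.toAlgebra
    β' • (β ⊗ₜ[A] v) = (β' * β) ⊗ₜ[A] v := by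
  letI : Algebra A B := φ.toAlgebra
  rw [TensorProduct.smul_tmul', smul_eq_mul]

theorem tmul_mem_span_basis_zero (φ : A →+* B) {V : Type} [AddCommGroup V] [Module A V]
    (b : Module.Basis (Fin 2) A V) (β : B) (v : V) (hv : v ∈ Submodule.span A {b 0}) :
    letI : Algebra A B := φ.toAlgebra
    β ⊗ₜ[A] v ∈ Submodule.span B {(Algebra.TensorProduct.basis B b) 0} := by
  letI : Algebra A B := φ.toAlgebra
  obtain ⟨a, rfl⟩ := Submodule.mem_span_singleton.mp hv
  rw [Submodule.mem_span_singleton]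
  refine ⟨β * φ a, ?_⟩
  rw [Algebra.TensorProduct.basis_apply, smul_tmul_eq, tmul_smul_eq, mul_one]

theorem isStrictOrdinaryAt_baseChangeAlong (φ : A →+* B) (hφ : IsLocalHom φ)
    (ρ : GaloisRepAdic A) {p : ℕ} (h : ρ.IsStrictOrdinaryAt p) :
    (ρ.baseChangeAlong φ hφ).IsStrictOrdinaryAt p := by
  letI : Algebra A B := φ.toAlgebra
  refine ⟨?_, fun P hP => ?_⟩
  · have := map_mem_maximalIdeal_of_isLocalHom φ hφ h.1
    rwa [map_natCast] at this
  obtain ⟨L, ⟨b, hb⟩, hD, hI, hchar⟩ := h.2 P hP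
  let b' : Module.Basis (Fin 2) B (B ⊗[A] ρ.V) := Algebra.TensorProduct.basis B b
  have key : ∀ (β : B) (v : ρ.V), v ∈ L → β ⊗ₜ[A] v ∈ Submodule.span B {b' 0} := by
    intro β v hv
    rw [hb] at hv
    exact tmul_mem_span_basis_zero φ b β v hv
  -- action on the line
  have hline : ∀ (σ : Γℚ) (x : A), (∀ w ∈ L, ρ.ρ σ w = x • w) →
      ∀ w ∈ Submodule.span B {b' 0}, (ρ.ρ σ).baseChange B w = φ x • w := by
    intro σ x hx w hw
    obtain ⟨β, rfl⟩ := Submodule.mem_span_singleton.mp hw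
    have hb0 : b 0 ∈ L := by rw [hb]; exact Submodule.mem_span_singleton_self _
    rw [map_smul, Algebra.TensorProduct.basis_apply, LinearMap.baseChange_tmul, hx _ hb0,
      tmul_smul_eq, smul_tmul_eq, smul_tmul_eq, smul_tmul_eq, one_mul, mul_one, mul_comm]
  -- action modulo the line
  have hquot : ∀ (σ : Γℚ) (z : A), (∀ v : ρ.V, ρ.ρ σ v - z • v ∈ L) →
      ∀ w : B ⊗[A] ρ.V, (ρ.ρ σ).baseChange B w - φ z • w ∈ Submodule.span B {b' 0} := by
    intro σ z hz w
    induction w using TensorProduct.induction_on with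
    | zero => simp
    | tmul β v =>
      have e : (ρ.ρ σ).baseChange B (β ⊗ₜ[A] v) - φ z • (β ⊗ₜ[A] v)
          = β ⊗ₜ[A] (ρ.ρ σ v - z • v) := by
        rw [LinearMap.baseChange_tmul, TensorProduct.tmul_sub, tmul_smul_eq, smul_tmul_eq,
          mul_comm]
      rw [e]
      exact key β _ (hz v)
    | add x y hx hy =>
      have e : (ρ.ρ σ).baseChange B (x + y) - φ z • (x + y)
          = ((ρ.ρ σ).baseChange B x - φ z • x) + ((ρ.ρ σ).baseChange B y - φ z • y) := by
        rw [map_add, smul_add]; abel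
      rw [e]
      exact Submodule.add_mem _ hx hy
  refine ⟨(Submodule.span B {b' 0} : Submodule B (B ⊗[A] ρ.V)), ⟨b', rfl⟩, ?_, ?_, ?_⟩
  · intro σ hσ v hv
    obtain ⟨x, z, hx, -, -⟩ := hchar σ hσ
    change (ρ.ρ σ).baseChange B v ∈ _
    rw [hline σ x hx v hv]
    exact Submodule.smul_mem _ _ hv
  · intro σ hσ (v : B ⊗[A] ρ.V)
    have := hquot σ 1 (fun v => by simpa using hI σ hσ v) v
    rw [map_one, one_smul] at this
    exact this
  · intro σ hσ
    obtain ⟨x, z, hx, hz, hxz⟩ := hchar σ hσ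
    refine ⟨φ x, φ z, fun w hw => hline σ x hx w hw, fun v => hquot σ z hz v, fun n a ha => ?_⟩
    have := map_mem_span_natCast φ (hxz n a ha)
    rwa [map_sub, map_mul, map_natCast] at this

/-- The `φ`-semilinear map `v ↦ 1 ⊗ v`. -/
noncomputable def tmulOne (φ : A →+* B) (V : Type) [AddCommGroup V] [Module A V] :
    letI : Algebra A B := φ.toAlgebra
    V →ₛₗ[φ] (B ⊗[A] V) :=
  letI : Algebra A B := φ.toAlgebra
  { toFun := fun v => (1 : B) ⊗ₜ[A] v
    map_add' := fun v w => TensorProduct.tmul_add _ _ _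
    map_smul' := fun a v => by
      rw [tmul_smul_eq φ, one_mul, smul_tmul_eq φ, mul_one] }

theorem tmulOne_apply (φ : A →+* B) (V : Type) [AddCommGroup V] [Module A V] (v : V) :
    letI : Algebra A B := φ.toAlgebra
    tmulOne φ V v = (1 : B) ⊗ₜ[A] v := rfl

theorem tmulOne_surjective (φ : A →+* B) (hsurj : Function.Surjective φ) (V : Type)
    [AddCommGroup V] [Module A V] : Function.Surjective (tmulOne φ V) := by
  letI : Algebra A B := φ.toAlgebra
  intro w
  induction w using TensorProduct.induction_on with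
  | zero => exact ⟨0, map_zero _⟩
  | tmul β v =>
    obtain ⟨a, rfl⟩ := hsurj β
    refine ⟨a • v, ?_⟩
    rw [tmulOne_apply, tmul_smul_eq φ, one_mul]
  | add x y hx hy =>
    obtain ⟨x', rfl⟩ := hx
    obtain ⟨y', rfl⟩ := hy
    exact ⟨x' + y', map_add _ _ _⟩

theorem isFlatAt_baseChangeAlong_of_surjective (φ : A →+* B) (hφ : IsLocalHom φ)
    (hsurj : Function.Surjective φ) (ρ : GaloisRepAdic A) {p : ℕ} (h : ρ.IsFlatAt p) :
    (ρ.baseChangeAlong φ hφ).IsFlatAt p := by
  letI : Algebra A B := φ.toAlgebra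
  haveI := hφ
  obtain ⟨hfin, hH⟩ := h
  refine ⟨?_, fun I' hI' => ?_⟩
  · haveI := hfin
    refine Finite.of_surjective (ResidueField.map φ) fun y => ?_
    obtain ⟨β, rfl⟩ := residue_surjective y
    obtain ⟨a, rfl⟩ := hsurj β
    exact ⟨residue A a, ResidueField.map_residue φ a⟩
  · let I : Ideal A := I'.comap φ
    haveI : Finite (A ⧸ I) :=
      Finite.of_injective (Ideal.quotientMap I' φ le_rfl) (Ideal.quotientMap_injective' le_rfl)
    obtain ⟨H, i1, i2, hf, hfl, hco, e, hadd, hequiv⟩ := hH I inferInstance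
    let b : Module.Basis (Fin 2) A ρ.V := Module.finBasisOfFinrankEq A ρ.V ρ.finrank_eq
    let b' : Module.Basis (Fin 2) B (B ⊗[A] ρ.V) := Algebra.TensorProduct.basis B b
    have hle : (I • ⊤ : Submodule A ρ.V) ≤
        (I' • ⊤ : Submodule B (B ⊗[A] ρ.V)).comap (tmulOne φ ρ.V) := by
      rw [Submodule.smul_le]
      intro a ha v _
      rw [Submodule.mem_comap, map_smulₛₗ]
      exact Submodule.smul_mem_smul ha Submodule.mem_top
    let Ψ : (ρ.V ⧸ (I • ⊤ : Submodule A ρ.V)) →ₛₗ[φ]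
        ((B ⊗[A] ρ.V) ⧸ (I' • ⊤ : Submodule B (B ⊗[A] ρ.V))) :=
      Submodule.mapQ _ _ (tmulOne φ ρ.V) hle
    have hΨmk : ∀ v : ρ.V, Ψ (Submodule.Quotient.mk v) = Submodule.Quotient.mk (tmulOne φ ρ.V v) :=
      fun v => rfl
    have hinj : Function.Injective Ψ := by
      rw [injective_iff_map_eq_zero]
      intro x hx
      obtain ⟨v, rfl⟩ := Submodule.Quotient.mk_surjective _ x
      rw [hΨmk, Submodule.Quotient.mk_eq_zero] at hx
      rw [Submodule.Quotient.mk_eq_zero]
      have hcoord : ∀ i, b.repr v i ∈ I := by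
        intro i
        have h1 := Fermat.Agent.TeamA.Rep.repr_mem_of_mem_smul_top b' I' hx i
        rw [tmulOne_apply, Algebra.TensorProduct.basis_repr_tmul, one_smul,
          Finsupp.mapRange_apply] at h1
        exact h1
      rw [← b.sum_repr v]
      exact Submodule.sum_mem _ fun i _ => Submodule.smul_mem_smul (hcoord i) Submodule.mem_top
    have hsur : Function.Surjective Ψ := by
      intro y
      obtain ⟨w, rfl⟩ := Submodule.Quotient.mk_surjective _ y
      obtain ⟨v, rfl⟩ := tmulOne_surjective φ hsurj ρ.V w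
      exact ⟨Submodule.Quotient.mk v, hΨmk v⟩
    have hΨequiv : ∀ (σ : Γℚ) (x : ρ.V ⧸ (I • ⊤ : Submodule A ρ.V)),
        Ψ (ρ.levelAction I σ x) = (ρ.baseChangeAlong φ hφ).levelAction I' σ (Ψ x) := by
      intro σ x
      obtain ⟨v, rfl⟩ := Submodule.Quotient.mk_surjective _ x
      change Ψ (Submodule.Quotient.mk (ρ.ρ σ v)) =
        Submodule.Quotient.mk ((ρ.ρ σ).baseChange B ((1 : B) ⊗ₜ[A] v))
      rw [hΨmk, tmulOne_apply, LinearMap.baseChange_tmul]
    refine ⟨H, i1, i2, hf, hfl, hco, e.trans (Equiv.ofBijective Ψ ⟨hinj, hsur⟩), ?_, ?_⟩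
    · intro f g
      change Ψ (e (f * g)) = Ψ (e f) + Ψ (e g)
      rw [hadd, map_add]
    · intro σ f g hfg
      change Ψ (e g) = (ρ.baseChangeAlong φ hφ).levelAction I' σ (Ψ (e f))
      rw [hequiv σ f g hfg, hΨequiv]

end BaseChange

end Fermat.Agent.S56lib.Dict
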