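import Mathlib
import Fermat.Prelude.Def_GaloisRep_StrictOrdinary
import Fermat.Prelude.Def_GaloisRep_Flat

/-!
# Invariance of the local conditions under equivalence

`DetIsCyclotomic`, `IsUnramifiedAt`, `IsUnipotentOnInertiaAt`, `IsStrictOrdinaryAt` and `IsFlatAt`
only depend on the equivalence class of a representation.
-/

set_option autoImplicit false
set_option linter.unusedSectionVars false
set_option linter.style.haveILetI false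

namespace Fermat.Agent.S56lib.Dict

open IsLocalRing

local notation "Γℚ" => (AlgebraicClosure ℚ ≃ₐ[ℚ] AlgebraicClosure ℚ)

section Equiv

variable {A : Type} [CommRing A] [IsLocalRing A] {ρ₁ ρ₂ : GaloisRepAdic A}

theorem equiv_ρ_eq_conj (e : GaloisRepAdic.Equiv ρ₁ ρ₂) (σ : Γℚ) :
    ρ₂.ρ σ = e.toLinearEquiv.conj (ρ₁.ρ σ) := by
  ext x
  rw [LinearEquiv.conj_apply, LinearMap.comp_apply, LinearMap.comp_apply, LinearEquiv.coe_coe,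
    LinearEquiv.coe_coe, e.map_apply, LinearEquiv.apply_symm_apply]

theorem equiv_symm_apply_ρ (e : GaloisRepAdic.Equiv ρ₁ ρ₂) (σ : Γℚ) (y : ρ₂.V) :
    e.toLinearEquiv.symm (ρ₂.ρ σ y) = ρ₁.ρ σ (e.toLinearEquiv.symm y) :=
  e.symm.map_apply σ y

theorem detIsCyclotomic_of_equiv (e : GaloisRepAdic.Equiv ρ₁ ρ₂) {p : ℕ}
    (h : ρ₁.DetIsCyclotomic p) : ρ₂.DetIsCyclotomic p := by
  refine ⟨h.1, fun n σ a ha => ?_⟩
  rw [equiv_ρ_eq_conj e, LinearEquiv.conj_apply, LinearMap.comp_assoc, LinearMap.det_conj]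
  exact h.2 n σ a ha

theorem isUnramifiedAt_of_equiv (e : GaloisRepAdic.Equiv ρ₁ ρ₂) {q : ℕ}
    (h : ρ₁.IsUnramifiedAt q) : ρ₂.IsUnramifiedAt q := by
  intro P hP σ hσ
  rw [equiv_ρ_eq_conj e, h P hP σ hσ]
  ext x
  simp [LinearEquiv.conj_apply]

theorem isUnipotentOnInertiaAt_of_equiv (e : GaloisRepAdic.Equiv ρ₁ ρ₂) {q : ℕ}
    (h : ρ₁.IsUnipotentOnInertiaAt q) : ρ₂.IsUnipotentOnInertiaAt q := by
  intro P hP σ hσ
  rw [equiv_ρ_eq_conj e, LinearEquiv.charpoly_conj]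
  exact h P hP σ hσ

theorem isStrictOrdinaryAt_of_equiv (e : GaloisRepAdic.Equiv ρ₁ ρ₂) {p : ℕ}
    (h : ρ₁.IsStrictOrdinaryAt p) : ρ₂.IsStrictOrdinaryAt p := by
  refine ⟨h.1, fun P hP => ?_⟩
  obtain ⟨L, ⟨b, hb⟩, hD, hI, hchar⟩ := h.2 P hP
  have hmem : ∀ y : ρ₂.V, y ∈ L.map (e.toLinearEquiv : ρ₁.V →ₗ[A] ρ₂.V) ↔
      e.toLinearEquiv.symm y ∈ L := by
    intro y
    rw [Submodule.mem_map_equiv]
  refine ⟨L.map (e.toLinearEquiv : ρ₁.V →ₗ[A] ρ₂.V), ⟨b.map e.toLinearEquiv, ?_⟩, ?_, ?_, ?_⟩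
  · rw [hb, Submodule.map_span, Set.image_singleton, Module.Basis.map_apply]
    rfl
  · intro σ hσ v hv
    rw [hmem] at hv ⊢
    rw [equiv_symm_apply_ρ]
    exact hD σ hσ _ hv
  · intro σ hσ v
    rw [hmem, map_sub, equiv_symm_apply_ρ]
    exact hI σ hσ _
  · intro σ hσ
    obtain ⟨x, z, hx, hz, hxz⟩ := hchar σ hσ
    refine ⟨x, z, fun w hw => ?_, fun v => ?_, hxz⟩
    · rw [hmem] at hw
      apply e.toLinearEquiv.symm.injective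
      rw [equiv_symm_apply_ρ, hx _ hw, map_smul]
    · rw [hmem, map_sub, equiv_symm_apply_ρ, map_smul]
      exact hz _

theorem isFlatAt_of_equiv (e : GaloisRepAdic.Equiv ρ₁ ρ₂) {p : ℕ}
    (h : ρ₁.IsFlatAt p) : ρ₂.IsFlatAt p := by
  obtain ⟨hfin, hH⟩ := h
  refine ⟨hfin, fun I hI => ?_⟩
  obtain ⟨H, i1, i2, hf, hfl, hco, ε, hadd, hequiv⟩ := hH I hI
  have hmap : (I • ⊤ : Submodule A ρ₁.V).map (e.toLinearEquiv : ρ₁.V →ₗ[A] ρ₂.V)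
      = (I • ⊤ : Submodule A ρ₂.V) := by
    rw [Submodule.map_smul'', Submodule.map_top, LinearEquiv.range]
  let Ψ : (ρ₁.V ⧸ (I • ⊤ : Submodule A ρ₁.V)) ≃ₗ[A] (ρ₂.V ⧸ (I • ⊤ : Submodule A ρ₂.V)) :=
    Submodule.Quotient.equiv _ _ e.toLinearEquiv hmap
  have hΨ : ∀ (σ : Γℚ) (x : ρ₁.V ⧸ (I • ⊤ : Submodule A ρ₁.V)),
      Ψ (ρ₁.levelAction I σ x) = ρ₂.levelAction I σ (Ψ x) := by
    intro σ x
    obtain ⟨v, rfl⟩ := Submodule.Quotient.mk_surjective _ x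
    change Submodule.Quotient.mk (e.toLinearEquiv (ρ₁.ρ σ v)) =
      Submodule.Quotient.mk (ρ₂.ρ σ (e.toLinearEquiv v))
    rw [e.map_apply]
  refine ⟨H, i1, i2, hf, hfl, hco, ε.trans Ψ.toEquiv, ?_, ?_⟩
  · intro f g
    change Ψ (ε (f * g)) = Ψ (ε f) + Ψ (ε g)
    rw [hadd, map_add]
  · intro σ f g hfg
    change Ψ (ε g) = ρ₂.levelAction I σ (Ψ (ε f))
    rw [hequiv σ f g hfg, hΨ]

end Equiv

end Fermat.Agent.S56lib.Dict
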