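import Mathlib
import Fermat.Agent.S56lib.Dict.LiftRep
import Fermat.Agent.S56lib.Dict.CondBaseChange
import Fermat.Agent.S56lib.Dict.CondEquiv

/-!
# The tangent space of the deformation rings of S56 as a set of Selmer cocycles

For the two deformation conditions of statement S56 (strict-ordinary or flat at `p`, unramified
outside `S'`, unipotent on inertia at `Smin ∖ {p}`), every `𝒪`-algebra map `φ : DQ.R → k[ε]`
gives a smooth 1-cocycle `Φ φ : Γℚ → M₂(k)` for the adjoint action of `ρbar` (in a fixed basis)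
whose associated deformation `liftRep` satisfies the condition, and `φ ↦ Φ φ` is injective modulo
coboundaries.
-/

set_option autoImplicit false
set_option linter.unusedSectionVars false
set_option linter.style.haveILetI false

namespace Fermat.Agent.S56lib.Dict

open IsLocalRing TrivSqZeroExt Fermat.Agent.TeamA Fermat.Agent.TeamA.Rep

local notation "Γℚ" => (AlgebraicClosure ℚ ≃ₐ[ℚ] AlgebraicClosure ℚ)

attribute [local instance] dualNumberAlgebra

section Triv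

variable {𝒪 : Type} [CommRing 𝒪] [IsDomain 𝒪] [IsDiscreteValuationRing 𝒪]
  [IsAdicComplete (maximalIdeal 𝒪) 𝒪]
variable {ρbar : ResidualGaloisRep (ResidueField 𝒪)}
variable {𝒟 : ∀ ⦃A : Type⦄ [CommRing A] [IsLocalRing A] [Algebra 𝒪 A], GaloisRepAdic A → Prop}
variable {DQ : GaloisRep.DeformationRingData 𝒪 ρbar 𝒟} (B : Based DQ)

theorem Based.tanCocycle_trivTangent : B.tanCocycle trivTangent = 0 := by
  funext g
  have : sndM (B.tanMat trivTangent g) = 0 := by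
    ext i j
    change ((matOf DQ.ρ B.bR g).map (trivTangent (𝒪 := 𝒪) (R := DQ.R)) i j).snd = 0
    rw [Matrix.map_apply, trivTangent_apply, snd_inl]
  change sndM (B.tanMat trivTangent g) * _ = 0
  rw [this, zero_mul]

/-- General form of the dictionary: for a deformation condition which is stable under
surjective base change to `k[ε]` and invariant under equivalence over `k[ε]`. -/
theorem exists_tangent_cocycles (DQ : GaloisRep.DeformationRingData 𝒪 ρbar 𝒟)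
    (bbar : Module.Basis (Fin 2) (ResidueField 𝒪) ρbar.V)
    (hbc : ∀ φ : DQ.R →ₐ[𝒪] DualNumber (ResidueField 𝒪), Function.Surjective φ →
      𝒟 (tanRep DQ φ))
    (hiso : ∀ ρ ρ' : GaloisRepAdic (DualNumber (ResidueField 𝒪)), ρ.IsEquiv ρ' → 𝒟 ρ → 𝒟 ρ') :
    ∃ Φ : (DQ.R →ₐ[𝒪] DualNumber (ResidueField 𝒪)) →
        Γℚ → Matrix (Fin 2) (Fin 2) (ResidueField 𝒪),
      (∀ φ, IsCocycle (resHom ρbar bbar) (Φ φ)) ∧
      (∀ φ, IsSmoothCochain (resHom ρbar bbar) (Φ φ)) ∧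
      (∀ φ hc hs, Φ φ = 0 ∨ 𝒟 (liftRep (resHom ρbar bbar) (Φ φ) hc hs)) ∧
      (∀ φ φ', IsCobound (resHom ρbar bbar) (fun g => Φ φ g - Φ φ' g) → φ = φ') := by
  obtain ⟨B, rfl⟩ := exists_based DQ bbar
  refine ⟨B.tanCocycle, B.isCocycle_tanCocycle, B.isSmoothCochain_tanCocycle, fun φ hc hs => ?_,
    B.eq_of_isCobound hbc⟩
  rcases surjective_or_eq_trivTangent φ with hs' | ht
  · right
    exact hiso _ _ (B.tanRep_isEquiv_tanLift φ) (hbc φ hs')
  · left
    rw [ht]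
    exact B.tanCocycle_trivTangent

end Triv

section S56

variable {𝒪 : Type} [CommRing 𝒪] [IsDomain 𝒪] [IsDiscreteValuationRing 𝒪]
  [IsAdicComplete (maximalIdeal 𝒪) 𝒪]
variable {ρbar : ResidualGaloisRep (ResidueField 𝒪)} (p : ℕ) (Smin S' : Finset ℕ)

/-- **Dictionary, strict-ordinary case of S56.** -/
theorem exists_tangent_cocycles_strictOrdinary
    (DQ : GaloisRep.DeformationRingData 𝒪 ρbar (fun _A _ _ _ ρ =>
      GaloisRep.strictOrdinaryCondition 𝒪 p S' ρ ∧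
        ∀ q ∈ Smin, q.Prime → q ≠ p → ρ.IsUnipotentOnInertiaAt q))
    (bbar : Module.Basis (Fin 2) (ResidueField 𝒪) ρbar.V) :
    ∃ Φ : (DQ.R →ₐ[𝒪] DualNumber (ResidueField 𝒪)) →
        Γℚ → Matrix (Fin 2) (Fin 2) (ResidueField 𝒪),
      (∀ φ, IsCocycle (resHom ρbar bbar) (Φ φ)) ∧
      (∀ φ, IsSmoothCochain (resHom ρbar bbar) (Φ φ)) ∧
      (∀ φ hc hs, Φ φ = 0 ∨
        (GaloisRep.strictOrdinaryCondition 𝒪 p S' (liftRep (resHom ρbar bbar) (Φ φ) hc hs) ∧
          ∀ q ∈ Smin, q.Prime → q ≠ p →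
            (liftRep (resHom ρbar bbar) (Φ φ) hc hs).IsUnipotentOnInertiaAt q)) ∧
      (∀ φ φ', IsCobound (resHom ρbar bbar) (fun g => Φ φ g - Φ φ' g) → φ = φ') := by
  refine exists_tangent_cocycles DQ bbar (fun φ _ => ?_) (fun ρ ρ' hE h => ?_)
  · obtain ⟨⟨h1, h2, h3⟩, h4⟩ := DQ.isOfType
    exact ⟨⟨detIsCyclotomic_baseChangeAlong _ _ _ h1, isStrictOrdinaryAt_baseChangeAlong _ _ _ h2,
      fun q hq hqS => isUnramifiedAt_baseChangeAlong _ _ _ (h3 q hq hqS)⟩,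
      fun q hq hqp hne => isUnipotentOnInertiaAt_baseChangeAlong _ _ _ (h4 q hq hqp hne)⟩
  · obtain ⟨e⟩ := hE
    obtain ⟨⟨h1, h2, h3⟩, h4⟩ := h
    exact ⟨⟨detIsCyclotomic_of_equiv e h1, isStrictOrdinaryAt_of_equiv e h2,
      fun q hq hqS => isUnramifiedAt_of_equiv e (h3 q hq hqS)⟩,
      fun q hq hqp hne => isUnipotentOnInertiaAt_of_equiv e (h4 q hq hqp hne)⟩

/-- **Dictionary, flat case of S56.** -/
theorem exists_tangent_cocycles_flat
    (DQ : GaloisRep.DeformationRingData 𝒪 ρbar (fun _A _ _ _ ρ =>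
      GaloisRep.flatCondition 𝒪 p S' ρ ∧
        ∀ q ∈ Smin, q.Prime → q ≠ p → ρ.IsUnipotentOnInertiaAt q))
    (bbar : Module.Basis (Fin 2) (ResidueField 𝒪) ρbar.V) :
    ∃ Φ : (DQ.R →ₐ[𝒪] DualNumber (ResidueField 𝒪)) →
        Γℚ → Matrix (Fin 2) (Fin 2) (ResidueField 𝒪),
      (∀ φ, IsCocycle (resHom ρbar bbar) (Φ φ)) ∧
      (∀ φ, IsSmoothCochain (resHom ρbar bbar) (Φ φ)) ∧
      (∀ φ hc hs, Φ φ = 0 ∨
        (GaloisRep.flatCondition 𝒪 p S' (liftRep (resHom ρbar bbar) (Φ φ) hc hs) ∧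
          ∀ q ∈ Smin, q.Prime → q ≠ p →
            (liftRep (resHom ρbar bbar) (Φ φ) hc hs).IsUnipotentOnInertiaAt q)) ∧
      (∀ φ φ', IsCobound (resHom ρbar bbar) (fun g => Φ φ g - Φ φ' g) → φ = φ') := by
  refine exists_tangent_cocycles DQ bbar (fun φ hs => ?_) (fun ρ ρ' hE h => ?_)
  · obtain ⟨⟨h1, h2, h3⟩, h4⟩ := DQ.isOfType
    exact ⟨⟨detIsCyclotomic_baseChangeAlong _ _ _ h1,
      isFlatAt_baseChangeAlong_of_surjective _ _ hs _ h2,
      fun q hq hqS => isUnramifiedAt_baseChangeAlong _ _ _ (h3 q hq hqS)⟩,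
      fun q hq hqp hne => isUnipotentOnInertiaAt_baseChangeAlong _ _ _ (h4 q hq hqp hne)⟩
  · obtain ⟨e⟩ := hE
    obtain ⟨⟨h1, h2, h3⟩, h4⟩ := h
    exact ⟨⟨detIsCyclotomic_of_equiv e h1, isFlatAt_of_equiv e h2,
      fun q hq hqS => isUnramifiedAt_of_equiv e (h3 q hq hqS)⟩,
      fun q hq hqp hne => isUnipotentOnInertiaAt_of_equiv e (h4 q hq hqp hne)⟩

end S56

end Fermat.Agent.S56lib.Dict
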