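import Mathlib
import Fermat.Agent.TeamA.Generation
import Fermat.Agent.S56lib.Dict.PowerSeriesSurj

/-!
# Counting tangent vectors and generating a complete local algebra

Let `R` be a complete Noetherian local `𝒪`-algebra with residue field `k` (the residue field of
`𝒪`, finite).  If the number of `𝒪`-algebra maps `R → k[ε]` is at most `|k| ^ r`, then `R` is a
quotient of the power series ring `𝒪⟦X₁,…,X_r⟧`.
-/

set_option autoImplicit false
set_option linter.unusedSectionVars false
set_option linter.style.haveILetI false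

namespace Fermat.Agent.S56lib.Dict

open IsLocalRing MvPowerSeries Fermat.Agent.TeamA TrivSqZeroExt

section LinAlg

variable {K V X : Type*} [Field K] [AddCommGroup V] [Module K V] [FiniteDimensional K V]

/-- Greedy selection: from a separating family of functionals on a finite-dimensional space
one can choose `r ≥ dim` of them which still separate. -/
theorem exists_fin_separating (ev : X → V →ₗ[K] K) (x₀ : X)
    (sep : ∀ v : V, v ≠ 0 → ∃ x, ev x v ≠ 0) :
    ∀ (r : ℕ) (U : Submodule K V), Module.finrank K U ≤ r →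
      ∃ x : Fin r → X, ∀ v ∈ U, (∀ i, ev (x i) v = 0) → v = 0 := by
  intro r
  induction r with
  | zero =>
    intro U hU
    refine ⟨fun _ => x₀, fun v hv _ => ?_⟩
    have : U = ⊥ := Submodule.finrank_eq_zero.mp (Nat.le_zero.mp hU)
    rw [this] at hv
    exact (Submodule.mem_bot K).mp hv
  | succ r ih =>
    intro U hU
    by_cases hU0 : U = ⊥
    · refine ⟨fun _ => x₀, fun v hv _ => ?_⟩
      rw [hU0] at hv
      exact (Submodule.mem_bot K).mp hv
    · obtain ⟨v₀, hv₀U, hv₀⟩ := (Submodule.ne_bot_iff U).mp hU0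
      obtain ⟨x', hx'⟩ := sep v₀ hv₀
      let U' : Submodule K V := U ⊓ LinearMap.ker (ev x')
      have hlt : U' < U := by
        refine lt_of_le_of_ne inf_le_left fun h => hx' ?_
        have : v₀ ∈ U' := h ▸ hv₀U
        exact LinearMap.mem_ker.mp this.2
      have hfin : Module.finrank K U' ≤ r := by
        have := Submodule.finrank_lt_finrank_of_lt hlt
        omega
      obtain ⟨x, hx⟩ := ih U' hfin
      refine ⟨Fin.cons x' x, fun v hv hall => ?_⟩
      apply hx v
      · refine ⟨hv, LinearMap.mem_ker.mpr ?_⟩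
        simpa using hall 0
      · intro i
        simpa using hall i.succ

end LinAlg

section Tangent

variable {𝒪 : Type*} [CommRing 𝒪] [IsLocalRing 𝒪]
variable {R : Type*} [CommRing R] [IsLocalRing R] [Algebra 𝒪 R] [IsLocalHom (algebraMap 𝒪 R)]

/-- The identification of residue fields `k_𝒪 ≃ k_R`. -/
noncomputable def kap (hsurj : Function.Surjective (residue R ∘ algebraMap 𝒪 R)) :
    ResidueField 𝒪 ≃+* ResidueField R :=
  RingEquiv.ofBijective (ResidueField.map (algebraMap 𝒪 R))
    ⟨(ResidueField.map (algebraMap 𝒪 R)).injective, fun y => by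
      obtain ⟨o, ho⟩ := hsurj y
      exact ⟨residue 𝒪 o, by rw [ResidueField.map_residue]; exact ho⟩⟩

/-- The residue map `R → k_𝒪`. -/
noncomputable def resO (hsurj : Function.Surjective (residue R ∘ algebraMap 𝒪 R)) :
    R →+* ResidueField 𝒪 :=
  ((kap hsurj).symm : ResidueField R →+* ResidueField 𝒪).comp (residue R)

theorem resO_algebraMap (hsurj : Function.Surjective (residue R ∘ algebraMap 𝒪 R)) (o : 𝒪) :
    resO hsurj (algebraMap 𝒪 R o) = residue 𝒪 o := by
  change (kap hsurj).symm (residue R (algebraMap 𝒪 R o)) = residue 𝒪 o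
  rw [RingEquiv.symm_apply_eq]
  exact (ResidueField.map_residue _ _).symm

theorem resO_eq_zero_iff (hsurj : Function.Surjective (residue R ∘ algebraMap 𝒪 R)) (a : R) :
    resO hsurj a = 0 ↔ a ∈ maximalIdeal R := by
  change (kap hsurj).symm (residue R a) = 0 ↔ _
  rw [map_eq_zero_iff _ (kap hsurj).symm.injective, residue_eq_zero_iff]

/-- The space of `𝒪`-derivations `R → k` (tangent space of `R` relative to `𝒪`). -/
def tanDer (hsurj : Function.Surjective (residue R ∘ algebraMap 𝒪 R)) :
    Submodule (ResidueField 𝒪) (R → ResidueField 𝒪) where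
  carrier := {D | (∀ a b, D (a + b) = D a + D b) ∧
    (∀ a b, D (a * b) = resO hsurj a * D b + resO hsurj b * D a) ∧
    ∀ o : 𝒪, D (algebraMap 𝒪 R o) = 0}
  zero_mem' := ⟨fun _ _ => by simp, fun _ _ => by simp, fun _ => rfl⟩
  add_mem' := by
    rintro D D' ⟨h1, h2, h3⟩ ⟨h1', h2', h3'⟩
    refine ⟨fun a b => ?_, fun a b => ?_, fun o => ?_⟩
    · simp only [Pi.add_apply, h1, h1']; ring
    · simp only [Pi.add_apply, h2, h2']; ring
    · simp only [Pi.add_apply, h3, h3', add_zero]
  smul_mem' := by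
    rintro c D ⟨h1, h2, h3⟩
    refine ⟨fun a b => ?_, fun a b => ?_, fun o => ?_⟩
    · simp only [Pi.smul_apply, h1, smul_eq_mul]; ring
    · simp only [Pi.smul_apply, h2, smul_eq_mul]; ring
    · simp only [Pi.smul_apply, h3, smul_zero]

/-- The `𝒪`-algebra map `R → k[ε]` attached to a derivation. -/
noncomputable def algHomOfDer (hsurj : Function.Surjective (residue R ∘ algebraMap 𝒪 R))
    (D : tanDer (𝒪 := 𝒪) (R := R) hsurj) :
    letI := dualNumberAlgebra 𝒪
    R →ₐ[𝒪] DualNumber (ResidueField 𝒪) :=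
  letI := dualNumberAlgebra 𝒪
  { dualNumberHom (resO hsurj)
      { toFun := D.1, map_zero' := by
          have := D.2.2.2 0
          simpa using this
        map_add' := D.2.1 } D.2.2.1 with
    commutes' := by
      intro o
      change dualNumberHom (resO hsurj) _ _ (algebraMap 𝒪 R o) = inl (residue 𝒪 o)
      rw [dualNumberHom_apply, resO_algebraMap]
      change inl (residue 𝒪 o) + inr (D.1 (algebraMap 𝒪 R o)) = _
      rw [D.2.2.2 o]
      simp }

theorem algHomOfDer_apply (hsurj : Function.Surjective (residue R ∘ algebraMap 𝒪 R))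
    (D : tanDer (𝒪 := 𝒪) (R := R) hsurj) (a : R) :
    algHomOfDer hsurj D a = inl (resO hsurj a) + inr (D.1 a) := rfl

theorem algHomOfDer_injective (hsurj : Function.Surjective (residue R ∘ algebraMap 𝒪 R)) :
    Function.Injective (algHomOfDer (𝒪 := 𝒪) (R := R) hsurj) := by
  intro D D' h
  apply Subtype.ext
  funext a
  have h1 := congrArg (fun f => TrivSqZeroExt.snd (f a)) h
  simpa [algHomOfDer_apply] using h1

end Tangent

section Main

variable {𝒪 : Type*} [CommRing 𝒪] [IsLocalRing 𝒪]
variable {R : Type*} [CommRing R] [IsLocalRing R] [Algebra 𝒪 R] [IsLocalHom (algebraMap 𝒪 R)]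

theorem tanDer_map_sub (hsurj : Function.Surjective (residue R ∘ algebraMap 𝒪 R))
    (D : tanDer (𝒪 := 𝒪) (R := R) hsurj) (a b : R) : D.1 (a - b) = D.1 a - D.1 b := by
  have h := D.2.1 (a - b) b
  rw [sub_add_cancel] at h
  rw [h]; ring

/-- Derivations are separated by their values on the maximal ideal. -/
theorem tanDer_sep (hsurj : Function.Surjective (residue R ∘ algebraMap 𝒪 R))
    (D : tanDer (𝒪 := 𝒪) (R := R) hsurj) (hD : D ≠ 0) :
    ∃ x : maximalIdeal R, D.1 x ≠ 0 := by
  have : ∃ a, D.1 a ≠ 0 := by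
    by_contra hcon
    simp only [not_exists, not_not] at hcon
    exact hD (Subtype.ext (funext hcon))
  obtain ⟨a, ha⟩ := this
  obtain ⟨o, ho⟩ := exists_sub_algebraMap_mem_maximalIdeal hsurj a
  refine ⟨⟨_, ho⟩, ?_⟩
  change D.1 (a - algebraMap 𝒪 R o) ≠ 0
  rw [tanDer_map_sub, D.2.2.2 o, sub_zero]
  exact ha

/-- Bound on the dimension of the tangent space from a bound on the number of
`𝒪`-algebra maps to the dual numbers. -/
theorem finrank_tanDer_le [Finite (ResidueField 𝒪)]
    (hsurj : Function.Surjective (residue R ∘ algebraMap 𝒪 R)) (r : ℕ)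
    (hfin : letI := dualNumberAlgebra 𝒪; Finite (R →ₐ[𝒪] DualNumber (ResidueField 𝒪)))
    (hcard : letI := dualNumberAlgebra 𝒪;
      Nat.card (R →ₐ[𝒪] DualNumber (ResidueField 𝒪)) ≤ Nat.card (ResidueField 𝒪) ^ r) :
    FiniteDimensional (ResidueField 𝒪) (tanDer (𝒪 := 𝒪) (R := R) hsurj) ∧
      Module.finrank (ResidueField 𝒪) (tanDer (𝒪 := 𝒪) (R := R) hsurj) ≤ r := by
  letI := dualNumberAlgebra 𝒪
  haveI := hfin
  haveI : Finite (tanDer (𝒪 := 𝒪) (R := R) hsurj) :=
    Finite.of_injective _ (algHomOfDer_injective hsurj)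
  haveI : Module.Finite (ResidueField 𝒪) (tanDer (𝒪 := 𝒪) (R := R) hsurj) :=
    Module.Finite.of_finite
  refine ⟨inferInstance, ?_⟩
  have h1 : Nat.card (tanDer (𝒪 := 𝒪) (R := R) hsurj) ≤ Nat.card (ResidueField 𝒪) ^ r :=
    (Nat.card_le_card_of_injective _ (algHomOfDer_injective hsurj)).trans hcard
  rw [Module.natCard_eq_pow_finrank (K := ResidueField 𝒪)] at h1
  exact (Nat.pow_le_pow_iff_right Finite.one_lt_card).mp h1

variable [IsNoetherianRing 𝒪] [IsAdicComplete (maximalIdeal 𝒪) 𝒪]
variable [IsNoetherianRing R] [IsAdicComplete (maximalIdeal R) R]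

/-- Elements of the subalgebra generated by `x` are constants modulo the ideal generated
by `x`. -/
theorem exists_sub_algebraMap_mem_span {ι : Type*} (x : ι → R) (b : R)
    (hb : b ∈ Algebra.adjoin 𝒪 (Set.range x)) :
    ∃ o : 𝒪, b - algebraMap 𝒪 R o ∈ Ideal.span (Set.range x) := by
  induction hb using Algebra.adjoin_induction with
  | mem y hy => exact ⟨0, by simpa using Ideal.subset_span hy⟩
  | algebraMap o => exact ⟨o, by simp⟩
  | add y z _ _ hy hz =>
    obtain ⟨o, ho⟩ := hy
    obtain ⟨o', ho'⟩ := hz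
    refine ⟨o + o', ?_⟩
    have e : y + z - algebraMap 𝒪 R (o + o') = (y - algebraMap 𝒪 R o) + (z - algebraMap 𝒪 R o') := by
      rw [map_add]; ring
    rw [e]
    exact Ideal.add_mem _ ho ho'
  | mul y z _ _ hy hz =>
    obtain ⟨o, ho⟩ := hy
    obtain ⟨o', ho'⟩ := hz
    refine ⟨o * o', ?_⟩
    have e : y * z - algebraMap 𝒪 R (o * o') =
        (y - algebraMap 𝒪 R o) * z + algebraMap 𝒪 R o * (z - algebraMap 𝒪 R o') := by
      rw [map_mul]; ring
    rw [e]
    exact Ideal.add_mem _ (Ideal.mul_mem_right _ _ ho) (Ideal.mul_mem_left _ _ ho')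

/-- **Main theorem.**  If there are at most `|k| ^ r` maps of `𝒪`-algebras `R → k[ε]`, then `R` is
a quotient of `𝒪⟦X₁,…,X_r⟧`. -/
theorem exists_mvPowerSeries_surjective_of_card_le [Finite (ResidueField 𝒪)]
    (hsurj : Function.Surjective (residue R ∘ algebraMap 𝒪 R)) (r : ℕ)
    (hfin : letI := dualNumberAlgebra 𝒪; Finite (R →ₐ[𝒪] DualNumber (ResidueField 𝒪)))
    (hcard : letI := dualNumberAlgebra 𝒪;
      Nat.card (R →ₐ[𝒪] DualNumber (ResidueField 𝒪)) ≤ Nat.card (ResidueField 𝒪) ^ r) :
    ∃ γ : MvPowerSeries (Fin r) 𝒪 →ₐ[𝒪] R, Function.Surjective γ := by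
  obtain ⟨hfd, hrank⟩ := finrank_tanDer_le hsurj r hfin hcard
  -- choose `r` elements of the maximal ideal separating the derivations
  let ev : maximalIdeal R → (tanDer (𝒪 := 𝒪) (R := R) hsurj) →ₗ[ResidueField 𝒪] ResidueField 𝒪 :=
    fun x => (LinearMap.proj (x : R)).comp (tanDer (𝒪 := 𝒪) (R := R) hsurj).subtype
  have hev : ∀ (x : maximalIdeal R) (D : tanDer (𝒪 := 𝒪) (R := R) hsurj), ev x D = D.1 x :=
    fun _ _ => rfl
  have hfr : Module.finrank (ResidueField 𝒪)
      (⊤ : Submodule (ResidueField 𝒪) (tanDer (𝒪 := 𝒪) (R := R) hsurj)) ≤ r := by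
    rw [finrank_top]; exact hrank
  obtain ⟨x, hx⟩ := exists_fin_separating ev 0
    (fun D hD => by
      obtain ⟨y, hy⟩ := tanDer_sep hsurj D hD
      exact ⟨y, hy⟩) r ⊤ hfr
  -- the subalgebra generated by the `x i`
  set B : Subalgebra 𝒪 R := Algebra.adjoin 𝒪 (Set.range fun i => (x i : R)) with hB
  have htop : cotangentImage hsurj B = ⊤ := by
    by_contra hne
    obtain ⟨D, hDmul, hDB, a₀, ha₀⟩ := exists_derivation_of_cotangentImage_ne_top hsurj B hne
    let D' : tanDer (𝒪 := 𝒪) (R := R) hsurj :=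
      ⟨fun a => (kap hsurj).symm (D a), fun a b => by simp, fun a b => by
        change (kap hsurj).symm (D (a * b)) = (kap hsurj).symm (residue R a) *
          (kap hsurj).symm (D b) + (kap hsurj).symm (residue R b) * (kap hsurj).symm (D a)
        rw [hDmul, map_add, map_mul, map_mul], fun o => by
        change (kap hsurj).symm (D (algebraMap 𝒪 R o)) = 0
        rw [hDB _ (B.algebraMap_mem o), map_zero]⟩
    have hD'0 : D' = 0 := by
      apply hx D' Submodule.mem_top
      intro i
      rw [hev]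
      change (kap hsurj).symm (D (x i : R)) = 0
      rw [hDB _ (Algebra.subset_adjoin ⟨i, rfl⟩), map_zero]
    have : (kap hsurj).symm (D a₀) = 0 := by
      have := congrArg (fun E : tanDer (𝒪 := 𝒪) (R := R) hsurj => E.1 a₀) hD'0
      exact this
    rw [map_eq_zero_iff _ (kap hsurj).symm.injective] at this
    exact ha₀ this
  have happrox := cotangentImage_eq_top_imp hsurj B htop
  refine (exists_surjective_of_span (σ := Fin r) hsurj (fun i => (x i : R)) (fun i => (x i).2) ?_).imp
    fun γ h => h.2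
  intro y hy
  obtain ⟨b, hbB, hbm, hyb⟩ := happrox y hy
  obtain ⟨o, ho⟩ := exists_sub_algebraMap_mem_span (𝒪 := 𝒪) (fun i => (x i : R)) b hbB
  have hspan_le : Ideal.span (Set.range fun i => (x i : R)) ≤ maximalIdeal R := by
    rw [Ideal.span_le]
    rintro _ ⟨i, rfl⟩
    exact (x i).2
  have hom : algebraMap 𝒪 R o ∈ maximalIdeal R := by
    have := (maximalIdeal R).sub_mem hbm (hspan_le ho)
    simpa using this
  have ho𝔪 : o ∈ maximalIdeal 𝒪 := by
    rw [mem_maximalIdeal, mem_nonunits_iff] at hom ⊢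
    exact fun h => hom (h.map _)
  have e : y = (b - algebraMap 𝒪 R o) + algebraMap 𝒪 R o + (y - b) := by ring
  rw [e]
  exact Ideal.add_mem _ (Ideal.mem_sup_left (Ideal.mem_sup_left ho)
    |> fun h => Ideal.add_mem _ h (Ideal.mem_sup_left (Ideal.mem_sup_right
      (Ideal.mem_map_of_mem _ ho𝔪)))) (Ideal.mem_sup_right hyb)

end Main

end Fermat.Agent.S56lib.Dict
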