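import Mathlib
import Fermat.Agent.S56lib.Dict.Selmer
import Fermat.Agent.S56lib.Dict.TangentCount

/-!
# From a Selmer bound to a presentation of the deformation ring

If the cohomology classes of smooth cocycles whose deformation satisfies the condition of S56 can
be injected into a finite set of cardinality at most `|k| ^ r`, the deformation ring is a quotient
of `𝒪⟦X₁,…,X_r⟧`.
-/

set_option autoImplicit false
set_option linter.unusedSectionVars false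
set_option linter.style.haveILetI false

namespace Fermat.Agent.S56lib.Dict

open IsLocalRing TrivSqZeroExt Fermat.Agent.TeamA Fermat.Agent.TeamA.Rep

local notation "Γℚ" => (AlgebraicClosure ℚ ≃ₐ[ℚ] AlgebraicClosure ℚ)

attribute [local instance] dualNumberAlgebra

section General

variable {𝒪 : Type} [CommRing 𝒪] [IsDomain 𝒪] [IsDiscreteValuationRing 𝒪]
  [IsAdicComplete (maximalIdeal 𝒪) 𝒪] [Finite (ResidueField 𝒪)]
variable {ρbar : ResidualGaloisRep (ResidueField 𝒪)}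
variable {𝒟 : ∀ ⦃A : Type⦄ [CommRing A] [IsLocalRing A] [Algebra 𝒪 A], GaloisRepAdic A → Prop}

/-- The cocycles relevant for the tangent space: smooth cocycles which are zero or whose
deformation to `k[ε]` satisfies `𝒟`. -/
def IsSelmerCocycle (𝒟 : ∀ ⦃A : Type⦄ [CommRing A] [IsLocalRing A] [Algebra 𝒪 A],
      GaloisRepAdic A → Prop)
    (rb : Γℚ →* Matrix (Fin 2) (Fin 2) (ResidueField 𝒪))
    (c : Γℚ → Matrix (Fin 2) (Fin 2) (ResidueField 𝒪)) : Prop :=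
  ∃ (hc : IsCocycle rb c) (hs : IsSmoothCochain rb c), c = 0 ∨ 𝒟 (liftRep rb c hc hs)

/-- **Abstract dictionary.**  Given an injection (modulo coboundaries) of the Selmer cocycles into
a finite set with at most `|k| ^ r` elements, `DQ.R` is a quotient of `𝒪⟦X₁,…,X_r⟧`. -/
theorem exists_surjective_of_selmer_bound (DQ : GaloisRep.DeformationRingData 𝒪 ρbar 𝒟)
    (bbar : Module.Basis (Fin 2) (ResidueField 𝒪) ρbar.V)
    (hbc : ∀ φ : DQ.R →ₐ[𝒪] DualNumber (ResidueField 𝒪), Function.Surjective φ →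
      𝒟 (tanRep DQ φ))
    (hiso : ∀ ρ ρ' : GaloisRepAdic (DualNumber (ResidueField 𝒪)), ρ.IsEquiv ρ' → 𝒟 ρ → 𝒟 ρ')
    (r : ℕ) (T : Type*) [Finite T] (hT : Nat.card T ≤ Nat.card (ResidueField 𝒪) ^ r)
    (cl : {c : Γℚ → Matrix (Fin 2) (Fin 2) (ResidueField 𝒪) //
      IsSelmerCocycle 𝒟 (resHom ρbar bbar) c} → T)
    (hcl : ∀ c c', cl c = cl c' → IsCobound (resHom ρbar bbar) (fun g => c.1 g - c'.1 g)) :
    ∃ γ : MvPowerSeries (Fin r) 𝒪 →ₐ[𝒪] DQ.R, Function.Surjective γ := by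
  obtain ⟨Φ, h1, h2, h3, h4⟩ := exists_tangent_cocycles DQ bbar hbc hiso
  let F : (DQ.R →ₐ[𝒪] DualNumber (ResidueField 𝒪)) → T :=
    fun φ => cl ⟨Φ φ, h1 φ, h2 φ, h3 φ (h1 φ) (h2 φ)⟩
  have hF : Function.Injective F := fun φ φ' h => h4 φ φ' (hcl _ _ h)
  have hfin : Finite (DQ.R →ₐ[𝒪] DualNumber (ResidueField 𝒪)) := Finite.of_injective F hF
  exact exists_mvPowerSeries_surjective_of_card_le DQ.residue_surjective r hfin
    ((Nat.card_le_card_of_injective F hF).trans hT)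

end General

section S56

variable {𝒪 : Type} [CommRing 𝒪] [IsDomain 𝒪] [IsDiscreteValuationRing 𝒪]
  [IsAdicComplete (maximalIdeal 𝒪) 𝒪] [Finite (ResidueField 𝒪)]
variable {ρbar : ResidualGaloisRep (ResidueField 𝒪)} (p : ℕ) (Smin S' : Finset ℕ)

/-- **Dictionary for S56, strict-ordinary case.** -/
theorem exists_surjective_of_selmer_bound_strictOrdinary
    (DQ : GaloisRep.DeformationRingData 𝒪 ρbar (fun _A _ _ _ ρ =>
      GaloisRep.strictOrdinaryCondition 𝒪 p S' ρ ∧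
        ∀ q ∈ Smin, q.Prime → q ≠ p → ρ.IsUnipotentOnInertiaAt q))
    (bbar : Module.Basis (Fin 2) (ResidueField 𝒪) ρbar.V)
    (r : ℕ) (T : Type*) [Finite T] (hT : Nat.card T ≤ Nat.card (ResidueField 𝒪) ^ r)
    (cl : {c : Γℚ → Matrix (Fin 2) (Fin 2) (ResidueField 𝒪) //
      IsSelmerCocycle (𝒪 := 𝒪) (fun _A _ _ _ ρ =>
        GaloisRep.strictOrdinaryCondition 𝒪 p S' ρ ∧
          ∀ q ∈ Smin, q.Prime → q ≠ p → ρ.IsUnipotentOnInertiaAt q) (resHom ρbar bbar) c} → T)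
    (hcl : ∀ c c', cl c = cl c' → IsCobound (resHom ρbar bbar) (fun g => c.1 g - c'.1 g)) :
    ∃ γ : MvPowerSeries (Fin r) 𝒪 →ₐ[𝒪] DQ.R, Function.Surjective γ := by
  refine exists_surjective_of_selmer_bound DQ bbar (fun φ _ => ?_) (fun ρ ρ' hE h => ?_) r T hT
    cl hcl
  · obtain ⟨⟨h1, h2, h3⟩, h4⟩ := DQ.isOfType
    exact ⟨⟨detIsCyclotomic_baseChangeAlong _ _ _ h1, isStrictOrdinaryAt_baseChangeAlong _ _ _ h2,
      fun q hq hqS => isUnramifiedAt_baseChangeAlong _ _ _ (h3 q hq hqS)⟩,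
      fun q hq hqp hne => isUnipotentOnInertiaAt_baseChangeAlong _ _ _ (h4 q hq hqp hne)⟩
  · obtain ⟨e⟩ := hE
    obtain ⟨⟨h1, h2, h3⟩, h4⟩ := h
    exact ⟨⟨detIsCyclotomic_of_equiv e h1, isStrictOrdinaryAt_of_equiv e h2,
      fun q hq hqS => isUnramifiedAt_of_equiv e (h3 q hq hqS)⟩,
      fun q hq hqp hne => isUnipotentOnInertiaAt_of_equiv e (h4 q hq hqp hne)⟩

/-- **Dictionary for S56, flat case.** -/
theorem exists_surjective_of_selmer_bound_flat
    (DQ : GaloisRep.DeformationRingData 𝒪 ρbar (fun _A _ _ _ ρ =>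
      GaloisRep.flatCondition 𝒪 p S' ρ ∧
        ∀ q ∈ Smin, q.Prime → q ≠ p → ρ.IsUnipotentOnInertiaAt q))
    (bbar : Module.Basis (Fin 2) (ResidueField 𝒪) ρbar.V)
    (r : ℕ) (T : Type*) [Finite T] (hT : Nat.card T ≤ Nat.card (ResidueField 𝒪) ^ r)
    (cl : {c : Γℚ → Matrix (Fin 2) (Fin 2) (ResidueField 𝒪) //
      IsSelmerCocycle (𝒪 := 𝒪) (fun _A _ _ _ ρ =>
        GaloisRep.flatCondition 𝒪 p S' ρ ∧
          ∀ q ∈ Smin, q.Prime → q ≠ p → ρ.IsUnipotentOnInertiaAt q) (resHom ρbar bbar) c} → T)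
    (hcl : ∀ c c', cl c = cl c' → IsCobound (resHom ρbar bbar) (fun g => c.1 g - c'.1 g)) :
    ∃ γ : MvPowerSeries (Fin r) 𝒪 →ₐ[𝒪] DQ.R, Function.Surjective γ := by
  refine exists_surjective_of_selmer_bound DQ bbar (fun φ hs => ?_) (fun ρ ρ' hE h => ?_) r T hT
    cl hcl
  · obtain ⟨⟨h1, h2, h3⟩, h4⟩ := DQ.isOfType
    exact ⟨⟨detIsCyclotomic_baseChangeAlong _ _ _ h1,
      isFlatAt_baseChangeAlong_of_surjective _ _ hs _ h2,
      fun q hq hqS => isUnramifiedAt_baseChangeAlong _ _ _ (h3 q hq hqS)⟩,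
      fun q hq hqp hne => isUnipotentOnInertiaAt_baseChangeAlong _ _ _ (h4 q hq hqp hne)⟩
  · obtain ⟨e⟩ := hE
    obtain ⟨⟨h1, h2, h3⟩, h4⟩ := h
    exact ⟨⟨detIsCyclotomic_of_equiv e h1, isFlatAt_of_equiv e h2,
      fun q hq hqS => isUnramifiedAt_of_equiv e (h3 q hq hqS)⟩,
      fun q hq hqp hne => isUnipotentOnInertiaAt_of_equiv e (h4 q hq hqp hne)⟩

end S56

end Fermat.Agent.S56lib.Dict
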