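import Mathlib
import Fermat.Agent.S56lib.Dict.Main
import Fermat.Agent.S56lib.Dict.AdRep

/-!
# Selmer cocycles of S56 as classes in `H¹(G_S, ad⁰ρ̄)`, and the final form of the dictionary

A Selmer cocycle (for either deformation condition of S56) is a trace-zero cocycle, level-constant
for a field unramified outside `S`; hence it has a class `adClass` in the smooth cohomology group
`H1S S (adRep p rb)` of the S55 library.  If all these classes lie in a finite set `W` with at most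
`|k| ^ r` elements, the deformation ring is a quotient of `𝒪⟦X₁,…,X_r⟧`.
-/

set_option autoImplicit false
set_option linter.unusedSectionVars false
set_option linter.style.haveILetI false

noncomputable section

namespace Fermat.Agent.S56lib.Dict

open IsLocalRing Fermat.Agent.TeamA Fermat.Agent.TeamA.Rep Fermat.Agent.S55lib

attribute [local instance] dualNumberAlgebra

section

variable {𝒪 : Type} [CommRing 𝒪] [IsDomain 𝒪] [IsDiscreteValuationRing 𝒪]
  [IsAdicComplete (maximalIdeal 𝒪) 𝒪] [Finite (ResidueField 𝒪)]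
variable (p : ℕ) [Fact p.Prime] (Smin S' : Finset ℕ) (S : Finset Nat.Primes)
variable {rb : GQ →* Matrix (Fin 2) (Fin 2) (ResidueField 𝒪)}

/-- Selmer cocycles of the strict-ordinary condition are unramified trace-zero cocycles. -/
theorem isUnrCocycle_of_isSelmerCocycle_strictOrdinary
    (hS : ∀ q : Nat.Primes, q ∉ S → (q : ℕ) ∉ S')
    {c : GQ → Matrix (Fin 2) (Fin 2) (ResidueField 𝒪)}
    (h : IsSelmerCocycle (𝒪 := 𝒪) (fun _A _ _ _ ρ =>
      GaloisRep.strictOrdinaryCondition 𝒪 p S' ρ ∧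
        ∀ q ∈ Smin, q.Prime → q ≠ p → ρ.IsUnipotentOnInertiaAt q) rb c) :
    IsUnrCocycle S rb c := by
  obtain ⟨hc, hs, h0 | ⟨⟨hdet, -, hur⟩, -⟩⟩ := h
  · subst h0
    exact ⟨hc, fun _ => by simp, ⟨⊥, IntermediateField.isUnramifiedOutside_bot S, fun _ _ _ => rfl⟩⟩
  · exact isUnrCocycle_of_smooth_unramified hc hs
      (trace_eq_zero_of_detIsCyclotomic rb c hc hs p hdet)
      (fun q hq P hP σ hσ =>
        eq_zero_of_isUnramifiedAt rb c hc hs (hur q q.2 (hS q hq)) P hP σ hσ)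

/-- Selmer cocycles of the flat condition are unramified trace-zero cocycles. -/
theorem isUnrCocycle_of_isSelmerCocycle_flat
    (hS : ∀ q : Nat.Primes, q ∉ S → (q : ℕ) ∉ S')
    {c : GQ → Matrix (Fin 2) (Fin 2) (ResidueField 𝒪)}
    (h : IsSelmerCocycle (𝒪 := 𝒪) (fun _A _ _ _ ρ =>
      GaloisRep.flatCondition 𝒪 p S' ρ ∧
        ∀ q ∈ Smin, q.Prime → q ≠ p → ρ.IsUnipotentOnInertiaAt q) rb c) :
    IsUnrCocycle S rb c := by
  obtain ⟨hc, hs, h0 | ⟨⟨hdet, -, hur⟩, -⟩⟩ := h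
  · subst h0
    exact ⟨hc, fun _ => by simp, ⟨⊥, IntermediateField.isUnramifiedOutside_bot S, fun _ _ _ => rfl⟩⟩
  · exact isUnrCocycle_of_smooth_unramified hc hs
      (trace_eq_zero_of_detIsCyclotomic rb c hc hs p hdet)
      (fun q hq P hP σ hσ =>
        eq_zero_of_isUnramifiedAt rb c hc hs (hur q q.2 (hS q hq)) P hP σ hσ)

variable {ρbar : ResidualGaloisRep (ResidueField 𝒪)} [CharP (ResidueField 𝒪) p]

/-- **Final form of the dictionary, strict-ordinary case.**  If the classes in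
`H¹(G_S, ad⁰ρ̄)` of all Selmer cocycles lie in a finite set `W` with at most `|k| ^ r` elements,
then `DQ.R` is a quotient of `𝒪⟦X₁,…,X_r⟧`. -/
theorem exists_surjective_of_card_le_strictOrdinary
    (DQ : GaloisRep.DeformationRingData 𝒪 ρbar (fun _A _ _ _ ρ =>
      GaloisRep.strictOrdinaryCondition 𝒪 p S' ρ ∧
        ∀ q ∈ Smin, q.Prime → q ≠ p → ρ.IsUnipotentOnInertiaAt q))
    (bbar : Module.Basis (Fin 2) (ResidueField 𝒪) ρbar.V)
    (hS : ∀ q : Nat.Primes, q ∉ S → (q : ℕ) ∉ S')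
    (r : ℕ) (W : Set (H1S S (adRep p (resHom ρbar bbar)))) [Finite W]
    (hW : ∀ (c : GQ → Matrix (Fin 2) (Fin 2) (ResidueField 𝒪))
      (hc : IsSelmerCocycle (𝒪 := 𝒪) (fun _A _ _ _ ρ =>
        GaloisRep.strictOrdinaryCondition 𝒪 p S' ρ ∧
          ∀ q ∈ Smin, q.Prime → q ≠ p → ρ.IsUnipotentOnInertiaAt q) (resHom ρbar bbar) c),
      adClass p (isUnrCocycle_of_isSelmerCocycle_strictOrdinary p Smin S' S hS hc) ∈ W)
    (hcard : Nat.card W ≤ Nat.card (ResidueField 𝒪) ^ r) :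
    ∃ γ : MvPowerSeries (Fin r) 𝒪 →ₐ[𝒪] DQ.R, Function.Surjective γ := by
  refine exists_surjective_of_selmer_bound_strictOrdinary p Smin S' DQ bbar r W hcard
    (fun c => ⟨_, hW c.1 c.2⟩) (fun c c' h => ?_)
  exact isCobound_of_adClass_eq p
    (isUnrCocycle_of_isSelmerCocycle_strictOrdinary p Smin S' S hS c.2)
    (isUnrCocycle_of_isSelmerCocycle_strictOrdinary p Smin S' S hS c'.2) (congrArg Subtype.val h)

/-- **Final form of the dictionary, flat case.** -/
theorem exists_surjective_of_card_le_flat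
    (DQ : GaloisRep.DeformationRingData 𝒪 ρbar (fun _A _ _ _ ρ =>
      GaloisRep.flatCondition 𝒪 p S' ρ ∧
        ∀ q ∈ Smin, q.Prime → q ≠ p → ρ.IsUnipotentOnInertiaAt q))
    (bbar : Module.Basis (Fin 2) (ResidueField 𝒪) ρbar.V)
    (hS : ∀ q : Nat.Primes, q ∉ S → (q : ℕ) ∉ S')
    (r : ℕ) (W : Set (H1S S (adRep p (resHom ρbar bbar)))) [Finite W]
    (hW : ∀ (c : GQ → Matrix (Fin 2) (Fin 2) (ResidueField 𝒪))
      (hc : IsSelmerCocycle (𝒪 := 𝒪) (fun _A _ _ _ ρ =>
        GaloisRep.flatCondition 𝒪 p S' ρ ∧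
          ∀ q ∈ Smin, q.Prime → q ≠ p → ρ.IsUnipotentOnInertiaAt q) (resHom ρbar bbar) c),
      adClass p (isUnrCocycle_of_isSelmerCocycle_flat p Smin S' S hS hc) ∈ W)
    (hcard : Nat.card W ≤ Nat.card (ResidueField 𝒪) ^ r) :
    ∃ γ : MvPowerSeries (Fin r) 𝒪 →ₐ[𝒪] DQ.R, Function.Surjective γ := by
  refine exists_surjective_of_selmer_bound_flat p Smin S' DQ bbar r W hcard
    (fun c => ⟨_, hW c.1 c.2⟩) (fun c c' h => ?_)
  exact isCobound_of_adClass_eq p
    (isUnrCocycle_of_isSelmerCocycle_flat p Smin S' S hS c.2)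
    (isUnrCocycle_of_isSelmerCocycle_flat p Smin S' S hS c'.2) (congrArg Subtype.val h)

end

end Fermat.Agent.S56lib.Dict
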