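/-
S56lib / Dict / CocycleCount  (helper4).

**Local package from a count of COCYCLES** (helper3's (Pkg″)): an additive group `𝒵` of smooth
trace-zero local matrix cocycles `G_q → M₂(k)` for the adjoint action of `ρ̄`, containing all
coboundaries, with `|𝒵| ≤ |k|⁴`, and containing the restriction to `G_q` of every global cocycle whose
lift satisfies `𝒟`, gives `Main.HasLocalCond p rb 𝒟 q (|H⁰(G_q, ad⁰ρ̄)| · |k|)`:
the local condition is the image of `𝒵` in `H¹(G_q, ad⁰ρ̄)`; `|image| · |B¹| = |𝒵|` and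
`|B¹| · |H⁰| = |ad⁰ρ̄| = |k|³`.
-/
import Mathlib
import Fermat.Agent.S56lib.Main.Iface
import Fermat.Agent.S56lib.Loc.SO

set_option autoImplicit false
set_option linter.unusedSectionVars false
set_option linter.style.haveILetI false

noncomputable section

namespace Fermat.Agent.S56lib.Dict

open IsLocalRing Fermat.Agent.TeamA Fermat.Agent.TeamA.Rep Fermat.Agent.S55lib
  groupCohomology ExtCitation Matrix

section Abstract

variable {K : Type} [Field K] (p : ℕ) [Fact p.Prime] [CharP K p]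
  {rb : GQ →* Matrix (Fin 2) (Fin 2) K} {q : Nat.Primes}
  {𝒵 : AddSubgroup (Gloc q → Matrix (Fin 2) (Fin 2) K)}
  (h1 : ∀ c ∈ 𝒵, (∀ g, (c g).trace = 0) ∧ IsCocycle (rb.comp (rloc q)) c ∧
    Sm.IsLC₁ (rloc q) LevelClass.all c)

/-- the smooth local cocycle of `ad⁰ρ̄` attached to an element of `𝒵` -/
def zOfCocycle (c : 𝒵) : ↥(Sm.Z1 (rloc q) LevelClass.all (Rep.res (rloc q) (adRep p rb))) :=
  ⟨fun g => (⟨c.1 g, (mem_sl2_iff _).2 ((h1 c.1 c.2).1 g)⟩ : sl2 K),
    (mem_cocycles₁_iff _).2 fun g h => by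
      apply adVal_injective p (rb := rb)
      change c.1 (g * h) = rb (rloc q g) * c.1 h * rb (rloc q g)⁻¹ + c.1 g
      rw [(h1 c.1 c.2).2.1 g h, add_comm, MonoidHom.comp_apply, MonoidHom.comp_apply, map_inv], by
      obtain ⟨F, hF, h⟩ := (h1 c.1 c.2).2.2
      exact ⟨F, hF, fun g s hs => Subtype.ext (h g s hs)⟩⟩

theorem adVal_zOfCocycle (c : 𝒵) (g : Gloc q) :
    adVal p (rb := rb) ((zOfCocycle p h1 c : Gloc q → adRep p rb) g) = c.1 g := rfl

/-- the class map `𝒵 → H¹(G_q, ad⁰ρ̄)` -/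
def clsOfCocycle : 𝒵 →+ H1loc (adRep p rb) q where
  toFun c := Sm.H1π (rloc q) LevelClass.all (Rep.res (rloc q) (adRep p rb)) (zOfCocycle p h1 c)
  map_zero' := by
    have : zOfCocycle p h1 (0 : 𝒵) = 0 := by
      apply Subtype.ext
      funext g
      apply adVal_injective p (rb := rb)
      rfl
    rw [this, map_zero]
  map_add' a b := by
    have : zOfCocycle p h1 (a + b) = zOfCocycle p h1 a + zOfCocycle p h1 b := by
      apply Subtype.ext
      funext g
      apply adVal_injective p (rb := rb)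
      rfl
    rw [this, map_add]

theorem clsOfCocycle_apply (c : 𝒵) : clsOfCocycle p h1 c =
    Sm.H1π (rloc q) LevelClass.all (Rep.res (rloc q) (adRep p rb)) (zOfCocycle p h1 c) := rfl

variable (h2 : ∀ m : Matrix (Fin 2) (Fin 2) K, m.trace = 0 →
    (fun g : Gloc q => rb (rloc q g) * m * rb (rloc q g)⁻¹ - m) ∈ 𝒵)

/-- the coboundary map `ad⁰ρ̄ → 𝒵` -/
def cobOfCocycle : adRep p rb →+ 𝒵 where
  toFun m := ⟨fun g => rb (rloc q g) * adVal p m * rb (rloc q g)⁻¹ - adVal p m,
    h2 _ (trace_adVal p m)⟩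
  map_zero' := by
    apply Subtype.ext
    funext g
    have : adVal p (rb := rb) (0 : adRep p rb) = 0 := rfl
    change rb (rloc q g) * adVal p (0 : adRep p rb) * rb (rloc q g)⁻¹ - adVal p (0 : adRep p rb) = 0
    rw [this, mul_zero, zero_mul, sub_zero]
  map_add' a b := by
    apply Subtype.ext
    funext g
    change rb (rloc q g) * adVal p (a + b) * rb (rloc q g)⁻¹ - adVal p (a + b) =
      (rb (rloc q g) * adVal p a * rb (rloc q g)⁻¹ - adVal p a) +
      (rb (rloc q g) * adVal p b * rb (rloc q g)⁻¹ - adVal p b)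
    rw [adVal_add, mul_add, add_mul]
    abel

theorem cobOfCocycle_apply (m : adRep p rb) (g : Gloc q) :
    (cobOfCocycle p h2 m).1 g = rb (rloc q g) * adVal p m * rb (rloc q g)⁻¹ - adVal p m := rfl

theorem zOfCocycle_cob (m : adRep p rb) :
    (zOfCocycle p h1 (cobOfCocycle p h2 m) : Gloc q → adRep p rb) =
      (d₀₁ (Rep.res (rloc q) (adRep p rb))).hom m := by
  funext g
  apply adVal_injective p (rb := rb)
  rw [adVal_zOfCocycle, cobOfCocycle_apply, d₀₁_hom_apply]
  rfl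

theorem range_cobOfCocycle : (cobOfCocycle p h2).range = (clsOfCocycle p h1).ker := by
  ext c
  rw [AddMonoidHom.mem_range, AddMonoidHom.mem_ker, clsOfCocycle_apply, Submodule.mkQ_apply,
    Submodule.Quotient.mk_eq_zero, Submodule.mem_comap]
  constructor
  · rintro ⟨m, rfl⟩
    refine ⟨⟨m, ?_⟩, (zOfCocycle p h1 (cobOfCocycle p h2 m)).2.2⟩
    exact (zOfCocycle_cob p h1 h2 m).symm
  · rintro ⟨⟨m, hm⟩, -⟩
    refine ⟨m, ?_⟩
    apply Subtype.ext
    funext g
    rw [cobOfCocycle_apply, ← adVal_zOfCocycle p h1 c g]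
    have h3 : (zOfCocycle p h1 c : Gloc q → adRep p rb) g =
        (d₀₁ (Rep.res (rloc q) (adRep p rb))).hom m g := (congrFun hm g).symm
    rw [h3, d₀₁_hom_apply]
    rfl

theorem card_ker_cobOfCocycle :
    Nat.card (cobOfCocycle p h2).ker = Nat.card (Main.H0loc (adRep p rb) q) := by
  apply Nat.card_congr
  refine Equiv.subtypeEquivRight fun m => ?_
  rw [AddMonoidHom.mem_ker, Main.mem_H0loc]
  constructor
  · intro h g
    have h3 : (cobOfCocycle p h2 m).1 g = 0 := congrArg (fun z : 𝒵 => z.1 g) h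
    rw [cobOfCocycle_apply] at h3
    apply adVal_injective p (rb := rb)
    rw [adVal_ρ]
    exact sub_eq_zero.mp h3
  · intro h
    apply Subtype.ext
    funext g
    rw [cobOfCocycle_apply]
    have h3 := congrArg (adVal p (rb := rb)) (h g)
    rw [adVal_ρ] at h3
    rw [h3, sub_self]
    rfl

variable [Finite K]

include h2 in
/-- **the count**: `|image of 𝒵 in H¹| ≤ |H⁰| · |k|` as soon as `|𝒵| ≤ |k|⁴` -/
theorem card_range_clsOfCocycle_le [Finite 𝒵] (h3 : Nat.card 𝒵 ≤ Nat.card K ^ 4) :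
    Nat.card (clsOfCocycle p h1).range ≤
      Nat.card (Main.H0loc (adRep p rb) q) * Nat.card K := by
  haveI : Finite (adRep p rb) := adRep_finite p rb
  have e1 := AddSubgroup.card_eq_card_quotient_mul_card_addSubgroup (clsOfCocycle p h1).ker
  have e2 : Nat.card (𝒵 ⧸ (clsOfCocycle p h1).ker) = Nat.card (clsOfCocycle p h1).range :=
    Nat.card_congr (QuotientAddGroup.quotientKerEquivRange (clsOfCocycle p h1)).toEquiv
  rw [e2] at e1
  have f1 := AddSubgroup.card_eq_card_quotient_mul_card_addSubgroup (cobOfCocycle p h2).ker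
  have f2 : Nat.card (adRep p rb ⧸ (cobOfCocycle p h2).ker) = Nat.card (cobOfCocycle p h2).range :=
    Nat.card_congr (QuotientAddGroup.quotientKerEquivRange (cobOfCocycle p h2)).toEquiv
  rw [f2, range_cobOfCocycle p h1 h2, card_ker_cobOfCocycle] at f1
  have g1 : Nat.card (adRep p rb) * Nat.card K = Nat.card K ^ 4 := Loc.card_sl2_mul
  set a := Nat.card (clsOfCocycle p h1).range
  set c := Nat.card (clsOfCocycle p h1).ker
  set h := Nat.card (Main.H0loc (adRep p rb) q)
  set κ := Nat.card K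
  have hc : 0 < c := Nat.card_pos
  rw [e1, ← g1, f1] at h3
  have key : a * c ≤ (h * κ) * c := by
    calc a * c ≤ c * h * κ := h3
      _ = (h * κ) * c := by ring
  exact Nat.le_of_mul_le_mul_right key hc

end Abstract

section Package

variable {𝒪 : Type} [CommRing 𝒪] [IsDomain 𝒪] [IsDiscreteValuationRing 𝒪]
  [IsAdicComplete (maximalIdeal 𝒪) 𝒪] [Finite (ResidueField 𝒪)]
variable (p : ℕ) [hp : Fact p.Prime] [CharP (ResidueField 𝒪) p]

attribute [local instance] dualNumberAlgebra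

/-- **(Pkg″) local package from a count of cocycles.** -/
theorem hasLocalCond_of_cocycleCount
    (rb : GQ →* Matrix (Fin 2) (Fin 2) (ResidueField 𝒪))
    (𝒟 : ∀ ⦃A : Type⦄ [CommRing A] [IsLocalRing A] [Algebra 𝒪 A], GaloisRepAdic A → Prop)
    (q : Nat.Primes)
    (𝒵 : AddSubgroup (Gloc q → Matrix (Fin 2) (Fin 2) (ResidueField 𝒪))) [Finite 𝒵]
    (h1 : ∀ c ∈ 𝒵, (∀ g, (c g).trace = 0) ∧ IsCocycle (rb.comp (rloc q)) c ∧
      Sm.IsLC₁ (rloc q) LevelClass.all c)
    (h2 : ∀ m : Matrix (Fin 2) (Fin 2) (ResidueField 𝒪), m.trace = 0 →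
      (fun g : Gloc q => rb (rloc q g) * m * rb (rloc q g)⁻¹ - m) ∈ 𝒵)
    (h3 : Nat.card 𝒵 ≤ Nat.card (ResidueField 𝒪) ^ 4)
    (h4 : ∀ (S : Finset Nat.Primes) (c : GQ → Matrix (Fin 2) (Fin 2) (ResidueField 𝒪))
      (_ : IsUnrCocycle S rb c) (hc : IsCocycle rb c) (hs : IsSmoothCochain rb c),
      𝒟 (liftRep rb c hc hs) → (fun g : Gloc q => c (rloc q g)) ∈ 𝒵) :
    Main.HasLocalCond p rb 𝒟 q
      (Nat.card (Main.H0loc (adRep p rb) q) * Nat.card (ResidueField 𝒪)) := by
  refine ⟨AddSubgroup.toZModSubmodule p (clsOfCocycle p h1).range, ?_, ?_⟩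
  · exact card_range_clsOfCocycle_le p h1 h2 h3
  · intro S c hunr hc hs hd
    change loc1 S (adRep p rb) q (adClass p hunr) ∈ (clsOfCocycle p h1).range
    refine ⟨⟨_, h4 S c hunr hc hs hd⟩, ?_⟩
    rw [loc1_adClass, clsOfCocycle_apply]
    rfl

end Package

end Fermat.Agent.S56lib.Dict
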