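/-
S56lib / Dict / FlatAssembly  (helper4).

**The final-assembly skeleton of the flat local condition at `p`** (helper3's #2065).

* `finite_and_ncard_le_of_directed` (DU): a directed union of finite sets with at most `n` elements is
  finite with at most `n` elements;
* `IsFlatLevel p L₀ L` : `L ⊇ L₀` finite normal over `ℚ_p` and Fontaine-bounded;
* `flatCocycles p r L₀ 𝒢` : the additive group of the cocycles `c : Γ → M₂(k)` in `𝒢` which lie in
  `Flat.Zad r Γ_L` for some flat level `L ⊇ L₀`;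
* `card_flatCocycles_le` : `|flatCocycles| ≤ n` if `|Zad r Γ_L ⊓ 𝒢| ≤ n` for all flat levels `L ⊇ L₀`;
* `hasLocalCond_of_flatLevels` : the package `Main.HasLocalCond p rb 𝒟 q (|H⁰| · |k|)` from the count
  `hcount` and "every `𝒟`-lift has a cocycle in `𝒢` killed by `Γ_L` for a finite normal bounded `L`".
-/
import Mathlib
import Fermat.Agent.S56lib.Dict.CocycleCount
import Fermat.Agent.S56lib.Flat.Dev
import Fermat.Agent.S55lib.LocalUnr.KrasnerDense

set_option autoImplicit false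
set_option linter.unusedSectionVars false
set_option linter.style.haveILetI false

noncomputable section

namespace Fermat.Agent.S56lib.Dict

open IsLocalRing Fermat.Agent.TeamA Fermat.Agent.TeamA.Rep Fermat.Agent.S55lib
  groupCohomology ExtCitation Matrix

/-! ### (DU) directed unions -/

/-- **(DU)** a directed union of finite sets with at most `n` elements has at most `n` elements -/
theorem finite_and_ncard_le_of_directed {α ι : Type*} (S : ι → Set α)
    (hdir : Directed (· ⊆ ·) S) (n : ℕ) (h : ∀ i, (S i).Finite ∧ (S i).ncard ≤ n) :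
    (⋃ i, S i).Finite ∧ (⋃ i, S i).ncard ≤ n := by
  classical
  by_contra hcon
  have hT : ∃ T : Finset α, (T : Set α) ⊆ ⋃ i, S i ∧ T.card = n + 1 := by
    by_cases hfin : (⋃ i, S i).Finite
    · have hlt : n + 1 ≤ (⋃ i, S i).ncard := by
        by_contra hle
        exact hcon ⟨hfin, by omega⟩
      obtain ⟨t, hts, htc⟩ := Set.exists_subset_card_eq hlt
      have htfin : t.Finite := hfin.subset hts
      refine ⟨htfin.toFinset, by simpa using hts, ?_⟩
      rw [← htc, Set.ncard_eq_toFinset_card t htfin]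
    · exact Set.Infinite.exists_subset_card_eq hfin (n + 1)
  obtain ⟨T, hTs, hTc⟩ := hT
  have hne : Nonempty ι := by
    by_contra hemp
    rw [not_nonempty_iff] at hemp
    have h0 : T = ∅ := by
      rw [Finset.eq_empty_iff_forall_notMem]
      intro x hx
      obtain ⟨i, -⟩ := Set.mem_iUnion.1 (hTs hx)
      exact hemp.elim i
    rw [h0, Finset.card_empty] at hTc
    omega
  obtain ⟨i, hi⟩ := hdir.exists_mem_subset_of_finset_subset_biUnion hTs
  have h1 := Set.ncard_le_ncard hi (h i).1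
  rw [Set.ncard_coe_finset, hTc] at h1
  have h2 := (h i).2
  omega

/-! ### Flat levels and the group of flat cocycles -/

section Local

variable (p : ℕ) [hp : Fact p.Prime] {k : Type} [Field k]

local notation "Ωp" => PadicAlgCl p
local notation "Γp" => (PadicAlgCl p ≃ₐ[ℚ_[p]] PadicAlgCl p)

/-- `L ⊇ L₀` is finite normal over `ℚ_p` and Fontaine-bounded -/
def IsFlatLevel (L₀ L : IntermediateField ℚ_[p] Ωp) : Prop :=
  L₀ ≤ L ∧ FiniteDimensional ℚ_[p] L ∧ Normal ℚ_[p] L ∧ Flat.IsBdd p L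

variable {p}

theorem IsFlatLevel.sup {L₀ L L' : IntermediateField ℚ_[p] Ωp} (h : IsFlatLevel p L₀ L)
    (h' : IsFlatLevel p L₀ L') : IsFlatLevel p L₀ (L ⊔ L') := by
  obtain ⟨h1, h2, h3, h4⟩ := h
  obtain ⟨h1', h2', h3', h4'⟩ := h'
  haveI := h2; haveI := h2'; haveI := h3; haveI := h3'
  exact ⟨h1.trans le_sup_left, IntermediateField.finiteDimensional_sup L L', inferInstance,
    h4.sup h4'⟩

theorem Zad_anti (r : Γp →* Matrix (Fin 2) (Fin 2) k) {N N' : Subgroup Γp} (h : N' ≤ N) :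
    Flat.Zad r N ≤ Flat.Zad r N' := fun _ hc => ⟨hc.1, hc.2.1, fun n hn => hc.2.2 n (h hn)⟩

variable (p)

/-- **the group of flat cocycles**: the cocycles in `𝒢` killed by `Γ_L` for some flat level `L ⊇ L₀` -/
def flatCocycles (r : Γp →* Matrix (Fin 2) (Fin 2) k) (L₀ : IntermediateField ℚ_[p] Ωp)
    (hL₀ : IsFlatLevel p L₀ L₀) (𝒢 : AddSubgroup (Γp → Matrix (Fin 2) (Fin 2) k)) :
    AddSubgroup (Γp → Matrix (Fin 2) (Fin 2) k) where
  carrier := {c | c ∈ 𝒢 ∧ ∃ L, IsFlatLevel p L₀ L ∧ c ∈ Flat.Zad r L.fixingSubgroup}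
  zero_mem' := ⟨𝒢.zero_mem, L₀, hL₀, (Flat.Zad r L₀.fixingSubgroup).zero_mem⟩
  add_mem' := by
    rintro a b ⟨ha, L, hL, haL⟩ ⟨hb, L', hL', hbL'⟩
    refine ⟨𝒢.add_mem ha hb, L ⊔ L', hL.sup hL', ?_⟩
    exact (Flat.Zad r (L ⊔ L').fixingSubgroup).add_mem
      (Zad_anti r (IntermediateField.fixingSubgroup_antitone le_sup_left) haL)
      (Zad_anti r (IntermediateField.fixingSubgroup_antitone le_sup_right) hbL')
  neg_mem' := by
    rintro a ⟨ha, L, hL, haL⟩
    exact ⟨𝒢.neg_mem ha, L, hL, (Flat.Zad r L.fixingSubgroup).neg_mem haL⟩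

variable {p}

theorem mem_flatCocycles {r : Γp →* Matrix (Fin 2) (Fin 2) k} {L₀ : IntermediateField ℚ_[p] Ωp}
    {hL₀ : IsFlatLevel p L₀ L₀} {𝒢 : AddSubgroup (Γp → Matrix (Fin 2) (Fin 2) k)}
    {c : Γp → Matrix (Fin 2) (Fin 2) k} :
    c ∈ flatCocycles p r L₀ hL₀ 𝒢 ↔
      c ∈ 𝒢 ∧ ∃ L, IsFlatLevel p L₀ L ∧ c ∈ Flat.Zad r L.fixingSubgroup := Iff.rfl

theorem finite_quotient_fixingSubgroup (L : IntermediateField ℚ_[p] Ωp)
    [FiniteDimensional ℚ_[p] L] : Finite (Γp ⧸ L.fixingSubgroup) := by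
  haveI : IsGalois ℚ_[p] (PadicAlgCl p) := ⟨⟩
  haveI : L.fixingSubgroup.FiniteIndex := by
    refine ⟨?_⟩
    rw [← IntermediateField.finrank_eq_fixingSubgroup_index]
    exact Module.finrank_pos.ne'
  exact Subgroup.finite_quotient_of_finiteIndex

/-- **the count**: `|flatCocycles| ≤ n` from the counts at all flat levels -/
theorem card_flatCocycles_le [Finite k] (r : Γp →* Matrix (Fin 2) (Fin 2) k)
    (L₀ : IntermediateField ℚ_[p] Ωp) (hL₀ : IsFlatLevel p L₀ L₀)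
    (𝒢 : AddSubgroup (Γp → Matrix (Fin 2) (Fin 2) k)) (n : ℕ)
    (hcount : ∀ L, IsFlatLevel p L₀ L →
      Nat.card ↥(Flat.Zad r L.fixingSubgroup ⊓ 𝒢) ≤ n) :
    Finite (flatCocycles p r L₀ hL₀ 𝒢) ∧ Nat.card (flatCocycles p r L₀ hL₀ 𝒢) ≤ n := by
  classical
  let ι := {L : IntermediateField ℚ_[p] Ωp // IsFlatLevel p L₀ L}
  let S : ι → Set (Γp → Matrix (Fin 2) (Fin 2) k) := fun L =>
    ((Flat.Zad r L.1.fixingSubgroup ⊓ 𝒢 : AddSubgroup (Γp → Matrix (Fin 2) (Fin 2) k)) :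
      Set (Γp → Matrix (Fin 2) (Fin 2) k))
  have hdir : Directed (· ⊆ ·) S := by
    intro L L'
    refine ⟨⟨L.1 ⊔ L'.1, L.2.sup L'.2⟩, ?_, ?_⟩
    · intro c hc
      exact ⟨Zad_anti r (IntermediateField.fixingSubgroup_antitone le_sup_left) hc.1, hc.2⟩
    · intro c hc
      exact ⟨Zad_anti r (IntermediateField.fixingSubgroup_antitone le_sup_right) hc.1, hc.2⟩
  have hS : ∀ i, (S i).Finite ∧ (S i).ncard ≤ n := by
    intro L
    haveI : FiniteDimensional ℚ_[p] L.1 := L.2.2.1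
    haveI := finite_quotient_fixingSubgroup L.1
    haveI : Finite ↥(Flat.Zad r L.1.fixingSubgroup) := Flat.finite_Zad r L.1.fixingSubgroup
    have hfin : (S L).Finite :=
      Set.Finite.subset (Set.toFinite (Flat.Zad r L.1.fixingSubgroup :
        Set (Γp → Matrix (Fin 2) (Fin 2) k))) (fun c hc => hc.1)
    refine ⟨hfin, ?_⟩
    exact (Nat.card_coe_set_eq (S L)).symm.trans_le (hcount L.1 L.2)
  have hU : (⋃ i, S i) = (flatCocycles p r L₀ hL₀ 𝒢 : Set (Γp → Matrix (Fin 2) (Fin 2) k)) := by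
    ext c
    simp only [Set.mem_iUnion, SetLike.mem_coe]
    constructor
    · rintro ⟨L, hc⟩
      exact ⟨hc.2, L.1, L.2, hc.1⟩
    · rintro ⟨hc, L, hL, hcL⟩
      exact ⟨⟨L, hL⟩, hcL, hc⟩
  obtain ⟨h1, h2⟩ := finite_and_ncard_le_of_directed S hdir n hS
  rw [hU] at h1 h2
  refine ⟨h1.to_subtype, ?_⟩
  exact (Nat.card_coe_set_eq _).trans_le h2

end Local

/-! ### The package -/

section Package

variable {𝒪 : Type} [CommRing 𝒪] [IsDomain 𝒪] [IsDiscreteValuationRing 𝒪]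
  [IsAdicComplete (maximalIdeal 𝒪) 𝒪] [Finite (ResidueField 𝒪)]
variable (p : ℕ) [hp : Fact p.Prime] [CharP (ResidueField 𝒪) p]

attribute [local instance] dualNumberAlgebra

theorem map_inv_eq_one_of_eq_one {G : Type*} [Group G] {k : Type*} [Field k]
    (r : G →* Matrix (Fin 2) (Fin 2) k) (n : G) (h : r n = 1) : r n⁻¹ = 1 := by
  have := rb_inv_mul r n
  rwa [h, Matrix.mul_one] at this

/-- coboundaries of trace-zero matrices are in `Zad r N` as soon as `r` is trivial on `N` -/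
theorem cob_mem_Zad {G : Type*} [Group G] {k : Type*} [Field k]
    (r : G →* Matrix (Fin 2) (Fin 2) k) (N : Subgroup G) (hN : ∀ n ∈ N, r n = 1)
    (m : Matrix (Fin 2) (Fin 2) k) (hm : m.trace = 0) :
    (fun g => r g * m * r g⁻¹ - m) ∈ Flat.Zad r N := by
  refine ⟨fun g => ?_, fun g h => ?_, fun n hn => ?_⟩
  · rw [Matrix.trace_sub, Matrix.trace_mul_comm, ← Matrix.mul_assoc, rb_inv_mul, Matrix.one_mul,
      sub_self]
  · simp only []
    rw [_root_.mul_inv_rev, map_mul, map_mul]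
    simp only [Matrix.mul_sub, Matrix.sub_mul, Matrix.mul_assoc]
    abel
  · simp only []
    rw [map_inv_eq_one_of_eq_one r n (hN n hn), hN n hn, Matrix.one_mul, Matrix.mul_one, sub_self]

/-- the same for `r = rb ∘ f` -/
theorem cob_mem_Zad_comp {G H : Type*} [Group G] [Group H] {k : Type*} [Field k]
    (rb : H →* Matrix (Fin 2) (Fin 2) k) (f : G →* H) (N : Subgroup G)
    (hN : ∀ n ∈ N, rb (f n) = 1) (m : Matrix (Fin 2) (Fin 2) k) (hm : m.trace = 0) :
    (fun g => rb (f g) * m * rb (f g)⁻¹ - m) ∈ Flat.Zad (rb.comp f) N := by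
  have e : (fun g => rb (f g) * m * rb (f g)⁻¹ - m) =
      (fun g => (rb.comp f) g * m * (rb.comp f) g⁻¹ - m) := by
    funext g
    rw [MonoidHom.comp_apply, MonoidHom.comp_apply, map_inv f g]
  rw [e]
  exact cob_mem_Zad (rb.comp f) N hN m hm

/-- **The flat local package from counts at all flat levels.**  For `q : Nat.Primes` with
`(q : ℕ) = p`. -/
theorem hasLocalCond_of_flatLevels
    (rb : GQ →* Matrix (Fin 2) (Fin 2) (ResidueField 𝒪))
    (𝒟 : ∀ ⦃A : Type⦄ [CommRing A] [IsLocalRing A] [Algebra 𝒪 A], GaloisRepAdic A → Prop)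
    (q : Nat.Primes) (hq : (q : ℕ) = p)
    (L₀ : IntermediateField ℚ_[p] (PadicAlgCl p)) (hL₀ : IsFlatLevel p L₀ L₀)
    (hL₀rb : ∀ g ∈ L₀.fixingSubgroup, rb (localGaloisToGlobal p g) = 1)
    (𝒢 : AddSubgroup ((PadicAlgCl p ≃ₐ[ℚ_[p]] PadicAlgCl p) →
      Matrix (Fin 2) (Fin 2) (ResidueField 𝒪)))
    (h𝒢 : ∀ m : Matrix (Fin 2) (Fin 2) (ResidueField 𝒪), m.trace = 0 →
      (fun g => rb (localGaloisToGlobal p g) * m * rb (localGaloisToGlobal p g)⁻¹ - m) ∈ 𝒢)
    (hcount : ∀ L, IsFlatLevel p L₀ L →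
      Nat.card ↥(Flat.Zad (rb.comp (localGaloisToGlobal p)) L.fixingSubgroup ⊓ 𝒢) ≤
        Nat.card (ResidueField 𝒪) ^ 4)
    (hflat : ∀ (S : Finset Nat.Primes) (c : GQ → Matrix (Fin 2) (Fin 2) (ResidueField 𝒪))
      (_ : IsUnrCocycle S rb c) (hc : IsCocycle rb c) (hs : IsSmoothCochain rb c),
      𝒟 (liftRep rb c hc hs) → (fun g => c (localGaloisToGlobal p g)) ∈ 𝒢 ∧
        ∃ L : IntermediateField ℚ_[p] (PadicAlgCl p), FiniteDimensional ℚ_[p] L ∧
          Normal ℚ_[p] L ∧ Flat.IsBdd p L ∧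
          ∀ g ∈ L.fixingSubgroup, c (localGaloisToGlobal p g) = 0) :
    Main.HasLocalCond p rb 𝒟 q
      (Nat.card (Main.H0loc (adRep p rb) q) * Nat.card (ResidueField 𝒪)) := by
  subst hq
  obtain ⟨hfin, hcard⟩ := card_flatCocycles_le (rb.comp (localGaloisToGlobal (q : ℕ))) L₀ hL₀ 𝒢
    _ hcount
  set 𝒵 : AddSubgroup (Gloc q → Matrix (Fin 2) (Fin 2) (ResidueField 𝒪)) :=
    flatCocycles (q : ℕ) (rb.comp (localGaloisToGlobal (q : ℕ))) L₀ hL₀ 𝒢 with h𝒵
  haveI : Finite 𝒵 := hfin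
  refine hasLocalCond_of_cocycleCount (q : ℕ) rb 𝒟 q 𝒵 ?_ ?_ hcard ?_
  · -- h1
    rintro c ⟨-, L, hL, hcL⟩
    haveI : FiniteDimensional ℚ_[(q : ℕ)] L := hL.2.1
    refine ⟨hcL.1, hcL.2.1, ?_⟩
    refine LocalUnr.isLevelConstant₁_of_fixingSubgroup (q : ℕ) L c fun g s hs => ?_
    have h1 := hcL.2.1 g s
    rw [hcL.2.2 s hs, Matrix.mul_zero, Matrix.zero_mul, add_zero] at h1
    exact h1
  · -- h2
    intro m hm
    refine ⟨h𝒢 m hm, L₀, hL₀, ?_⟩
    exact cob_mem_Zad_comp rb (localGaloisToGlobal (q : ℕ)) L₀.fixingSubgroup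
      (fun n hn => hL₀rb n hn) m hm
  · -- h4
    intro S c hunr hc hs hd
    obtain ⟨hc𝒢, L, hfd, hn, hb, hL⟩ := hflat S c hunr hc hs hd
    refine ⟨hc𝒢, L ⊔ L₀, ?_, ?_⟩
    · obtain ⟨h1, h2, h3, h4⟩ := hL₀
      haveI := hfd; haveI := hn; haveI := h2; haveI := h3
      exact ⟨le_sup_right, IntermediateField.finiteDimensional_sup L L₀, inferInstance,
        hb.sup h4⟩
    · refine ⟨fun g => hunr.trace _, fun g h => ?_, fun n hn => ?_⟩
      · change c (localGaloisToGlobal (q : ℕ) (g * h)) = c (localGaloisToGlobal (q : ℕ) g) +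
          rb (localGaloisToGlobal (q : ℕ) g) * c (localGaloisToGlobal (q : ℕ) h) *
            rb (localGaloisToGlobal (q : ℕ) g⁻¹)
        rw [map_mul, hc, map_inv (localGaloisToGlobal (q : ℕ)) g]
      · exact hL n (IntermediateField.fixingSubgroup_antitone le_sup_left hn)

end Package

end Fermat.Agent.S56lib.Dict
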