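import Mathlib
import Fermat.Agent.S56lib.Dict.CondCocycle

/-!
# The strict-ordinary condition in cocycle language

Let `ρ = liftRep rb c` be strict-ordinary at `p` with cyclotomic determinant (`p` odd).  For a
place `P` over `p` there are a vector `u ≠ 0` of `k²` and a matrix `m` such that on the
decomposition group `D_P`: `rb σ` is upper triangular with respect to `u` with diagonal
`(χ(σ) z, z)`, `z = ±1`, it is unipotent on inertia, and the cohomologous cocycle
`c' = c + m - rb m rb⁻¹` takes values in `Hom(k² / k u, k u)`.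
-/

set_option autoImplicit false
set_option linter.unusedSectionVars false
set_option linter.style.haveILetI false

namespace Fermat.Agent.S56lib.Dict

open IsLocalRing TrivSqZeroExt Fermat.Agent.TeamA Fermat.Agent.TeamA.Rep Polynomial Matrix

local notation "Γℚ" => (AlgebraicClosure ℚ ≃ₐ[ℚ] AlgebraicClosure ℚ)

section VecCalc
variable {k : Type*} [CommRing k]
def fstV (w : Fin 2 → DualNumber k) : Fin 2 → k := fun i => (w i).fst
def sndV (w : Fin 2 → DualNumber k) : Fin 2 → k := fun i => (w i).snd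
def inlV (v : Fin 2 → k) : Fin 2 → DualNumber k := fun i => inl (v i)
@[simp] theorem fstV_inlV (v : Fin 2 → k) : fstV (inlV v) = v := by ext i; simp [fstV, inlV]
@[simp] theorem sndV_inlV (v : Fin 2 → k) : sndV (inlV v) = 0 := by ext i; simp [sndV, inlV]
theorem fstV_mulVec (M : Matrix (Fin 2) (Fin 2) (DualNumber k)) (w : Fin 2 → DualNumber k) :
    fstV (M.mulVec w) = (fstM M).mulVec (fstV w) := by
  ext i
  simp [fstV, Matrix.mulVec, dotProduct]

theorem sndV_mulVec (M : Matrix (Fin 2) (Fin 2) (DualNumber k)) (w : Fin 2 → DualNumber k) :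
    sndV (M.mulVec w) = (fstM M).mulVec (sndV w) + (sndM M).mulVec (fstV w) := by
  ext i
  simp only [sndV, fstV, Matrix.mulVec, dotProduct, Fin.sum_univ_two, TrivSqZeroExt.snd_add,
    TrivSqZeroExt.snd_mul, Pi.add_apply, fstM, sndM, Matrix.map_apply, smul_eq_mul,
    MulOpposite.smul_eq_mul_unop, MulOpposite.unop_op]
  ring

theorem fstV_smul (s : DualNumber k) (w : Fin 2 → DualNumber k) :
    fstV (s • w) = s.fst • fstV w := by
  ext i; simp [fstV]

theorem sndV_smul (s : DualNumber k) (w : Fin 2 → DualNumber k) :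
    sndV (s • w) = s.fst • sndV w + s.snd • fstV w := by
  ext i; simp [fstV, sndV, mul_comm]

theorem fstV_sub (w w' : Fin 2 → DualNumber k) : fstV (w - w') = fstV w - fstV w' := by
  ext i; simp [fstV]

theorem sndV_sub (w w' : Fin 2 → DualNumber k) : sndV (w - w') = sndV w - sndV w' := by
  ext i; simp [sndV]
end VecCalc

section Core
variable {k : Type*} [Field k]

/-- The matrix computation behind the strict-ordinary condition. -/
theorem strictOrd_core (R R' C m : Matrix (Fin 2) (Fin 2) k) (hR : R' * R = 1)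
    (w : Fin 2 → DualNumber k) (hu : fstV w ≠ 0) (hm : m *ᵥ fstV w = - sndV w) (x₀ z₀ : k)
    (h1 : mkM R (C * R) *ᵥ w = (inl x₀ : DualNumber k) • w)
    (h2 : ∀ v : Fin 2 → DualNumber k, ∃ s : DualNumber k,
      mkM R (C * R) *ᵥ v - (inl z₀ : DualNumber k) • v = s • w) :
    R *ᵥ fstV w = x₀ • fstV w ∧ (∀ v, ∃ t : k, R *ᵥ v - z₀ • v = t • fstV w) ∧
      (C + m - R * m * R') *ᵥ fstV w = 0 ∧
      ∀ v, ∃ t : k, (C + m - R * m * R') *ᵥ v = t • fstV w := by
  set u := fstV w with hu_def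
  set u₁ := sndV w with hu₁_def
  -- components of h1
  have a1 : R *ᵥ u = x₀ • u := by
    have := congrArg fstV h1
    rwa [fstV_mulVec, fstV_smul, fstM_mkM, fst_inl] at this
  have a2 : R *ᵥ u₁ + (C * R) *ᵥ u = x₀ • u₁ := by
    have := congrArg sndV h1
    rwa [sndV_mulVec, sndV_smul, fstM_mkM, sndM_mkM, fst_inl, snd_inl, zero_smul, add_zero] at this
  -- components of h2
  have b1 : ∀ v, ∃ t : k, R *ᵥ v - z₀ • v = t • u := by
    intro v
    obtain ⟨s, hs⟩ := h2 (inlV v)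
    refine ⟨s.fst, ?_⟩
    have := congrArg fstV hs
    rwa [fstV_sub, fstV_mulVec, fstV_smul, fstV_smul, fstM_mkM, fst_inl, fstV_inlV] at this
  have b2 : ∀ v, ∃ s₀ s₁ : k, R *ᵥ v - z₀ • v = s₀ • u ∧ (C * R) *ᵥ v = s₀ • u₁ + s₁ • u := by
    intro v
    obtain ⟨s, hs⟩ := h2 (inlV v)
    refine ⟨s.fst, s.snd, ?_, ?_⟩
    · have := congrArg fstV hs
      rwa [fstV_sub, fstV_mulVec, fstV_smul, fstV_smul, fstM_mkM, fst_inl, fstV_inlV] at this
    · have := congrArg sndV hs
      rwa [sndV_sub, sndV_mulVec, sndV_smul, sndV_smul, fstM_mkM, sndM_mkM, fst_inl, snd_inl,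
        fstV_inlV, sndV_inlV, Matrix.mulVec_zero, smul_zero, zero_smul, add_zero, zero_add,
        sub_zero] at this
  have hx₀ : x₀ ≠ 0 := by
    rintro rfl
    rw [zero_smul] at a1
    apply hu
    have := congrArg (fun v => R' *ᵥ v) a1
    simp only [Matrix.mulVec_mulVec, hR, Matrix.one_mulVec, Matrix.mulVec_zero] at this
    exact this
  -- D * R
  have hDR : (C + m - R * m * R') * R = C * R + m * R - R * m := by
    rw [sub_mul, add_mul, Matrix.mul_assoc (R * m), hR, mul_one]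
  have c1 : ((C + m - R * m * R') * R) *ᵥ u = 0 := by
    rw [hDR, Matrix.sub_mulVec, Matrix.add_mulVec, ← Matrix.mulVec_mulVec _ m R, a1,
      Matrix.mulVec_smul, ← Matrix.mulVec_mulVec _ R m, hm, Matrix.mulVec_neg]
    linear_combination (norm := module) a2
  have c2 : ∀ v, ∃ t : k, ((C + m - R * m * R') * R) *ᵥ v = t • u := by
    intro v
    obtain ⟨s₀, s₁, e1, e2⟩ := b2 v
    obtain ⟨t', e3⟩ := b1 (m *ᵥ v)
    refine ⟨s₁ - t', ?_⟩
    have e1' : R *ᵥ v = z₀ • v + s₀ • u := by rw [← e1]; abel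
    rw [hDR, Matrix.sub_mulVec, Matrix.add_mulVec, ← Matrix.mulVec_mulVec _ m R, e1',
      Matrix.mulVec_add, Matrix.mulVec_smul, Matrix.mulVec_smul, hm, e2,
      ← Matrix.mulVec_mulVec _ R m]
    linear_combination (norm := module) - e3
  have hsurj : ∀ v, R *ᵥ (R' *ᵥ v) = v := by
    intro v
    have hR2 : R * R' = 1 := mul_eq_one_comm.mp hR
    rw [Matrix.mulVec_mulVec, hR2, Matrix.one_mulVec]
  refine ⟨a1, b1, ?_, ?_⟩
  · have := c1
    rw [← Matrix.mulVec_mulVec, a1, Matrix.mulVec_smul] at this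
    exact (smul_eq_zero.mp this).resolve_left hx₀
  · intro v
    obtain ⟨t, ht⟩ := c2 (R' *ᵥ v)
    refine ⟨t, ?_⟩
    rw [← Matrix.mulVec_mulVec, hsurj] at ht
    exact ht
end Core

section Aux

/-- Cayley–Hamilton for `2 × 2` matrices. -/
theorem cayley_fin_two {k : Type*} [CommRing k] (M : Matrix (Fin 2) (Fin 2) k) :
    M * M - M.trace • M + M.det • (1 : Matrix (Fin 2) (Fin 2) k) = 0 := by
  ext i j
  fin_cases i <;> fin_cases j <;>
    simp [Matrix.mul_apply, Fin.sum_univ_two, Matrix.trace_fin_two, Matrix.det_fin_two] <;> ring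


theorem exists_matrix_mulVec_eq {k : Type*} [Field k] (u u₁ : Fin 2 → k) (hu : u ≠ 0) :
    ∃ m : Matrix (Fin 2) (Fin 2) k, m *ᵥ u = u₁ := by
  obtain ⟨i, hi⟩ := Function.ne_iff.mp hu
  refine ⟨Matrix.of fun a b => if b = i then u₁ a * (u i)⁻¹ else 0, ?_⟩
  ext a
  simp only [Matrix.mulVec, dotProduct, Matrix.of_apply, ite_mul, zero_mul,
    Finset.sum_ite_eq', Finset.mem_univ, if_true]
  rw [mul_assoc, inv_mul_cancel₀ hi, mul_one]

theorem eps_smul_eq_zero_of_fstV {k : Type*} [CommRing k] (w : Fin 2 → DualNumber k)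
    (h : fstV w = 0) : (TrivSqZeroExt.inr 1 : DualNumber k) • w = 0 := by
  ext i
  · simp
  · have := congrFun h i
    simp only [fstV, Pi.zero_apply] at this
    simp [this]

theorem det_of_triangular {A V : Type*} [CommRing A] [AddCommGroup V] [Module A V]
    (b : Module.Basis (Fin 2) A V) (f : V →ₗ[A] V) (x z t : A)
    (h0 : f (b 0) = x • b 0) (h1 : f (b 1) = z • b 1 + t • b 0) :
    LinearMap.det f = x * z := by
  rw [← LinearMap.det_toMatrix b, Matrix.det_fin_two]
  simp only [LinearMap.toMatrix_apply, h0, h1, map_add, map_smul, Module.Basis.repr_self,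
    Finsupp.smul_single, smul_eq_mul, mul_one, Finsupp.coe_add, Pi.add_apply]
  simp

theorem two_ne_zero_of_odd_prime_cast {k : Type*} [Field k] {p : ℕ} (hp : p.Prime) (hp2 : p ≠ 2)
    (hp0 : (p : k) = 0) : (2 : k) ≠ 0 := by
  intro h2
  have hodd : p % 2 = 1 := hp.eq_two_or_odd.resolve_left hp2
  have e : (p : k) = 2 * ((p / 2 : ℕ) : k) + 1 := by
    conv_lhs => rw [← Nat.div_add_mod p 2, hodd]
    push_cast
    ring
  rw [hp0, h2, zero_mul, zero_add] at e
  exact one_ne_zero e.symm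

theorem diag_of_strictOrd {k : Type*} [Field k] (h2 : (2 : k) ≠ 0)
    (x z : DualNumber k) (a : ℕ) (hx : x = (a : DualNumber k) * z)
    (hdet : x * z = (a : DualNumber k)) (ha : IsUnit (a : DualNumber k)) :
    z = inl z.fst ∧ z.fst * z.fst = 1 ∧ x = inl ((a : k) * z.fst) := by
  have hzz : z * z = 1 := by
    apply ha.mul_left_cancel
    rw [← mul_assoc, ← hx, hdet, mul_one]
  have e1 : z.fst * z.fst = 1 := by
    have := congrArg TrivSqZeroExt.fst hzz
    simpa using this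
  have e2 : z.snd = 0 := by
    have := congrArg TrivSqZeroExt.snd hzz
    simp only [snd_mul, smul_eq_mul, MulOpposite.smul_eq_mul_unop, MulOpposite.unop_op,
      snd_one] at this
    have hz0 : z.fst ≠ 0 := by
      intro h0
      rw [h0, zero_mul] at e1
      exact zero_ne_one e1
    have h3 : (2 * z.fst) * z.snd = 0 := by linear_combination this
    exact (mul_eq_zero.mp h3).resolve_left (mul_ne_zero h2 hz0)
  have hz : z = inl z.fst := by
    ext
    · simp
    · simpa using e2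
  refine ⟨hz, e1, ?_⟩
  rw [hx]
  conv_lhs => rw [hz]
  ext <;> simp

end Aux

section Main

variable {k : Type} [Field k] (rb : Γℚ →* Matrix (Fin 2) (Fin 2) k)
  (c : Γℚ → Matrix (Fin 2) (Fin 2) k) (hc : IsCocycle rb c) (hs : IsSmoothCochain rb c)

theorem fstV_basis_ne_zero (b : Module.Basis (Fin 2) (DualNumber k) (liftRep rb c hc hs).V)
    (i : Fin 2) : fstV (b i : Fin 2 → DualNumber k) ≠ 0 := by
  intro h
  have h1 : (TrivSqZeroExt.inr 1 : DualNumber k) • b i = 0 :=
    eps_smul_eq_zero_of_fstV (b i : Fin 2 → DualNumber k) h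
  have h2 := congrArg (fun v => b.repr v i) h1
  simp only [map_smul, Module.Basis.repr_self, Finsupp.smul_single, smul_eq_mul, mul_one,
    Finsupp.single_eq_same, map_zero, Finsupp.coe_zero, Pi.zero_apply] at h2
  have := congrArg TrivSqZeroExt.snd h2
  simp at this

/-- **Strict-ordinary, cocycle form.** -/
theorem strictOrdinary_cocycle_form (p : ℕ) [Fact p.Prime] (hp2 : p ≠ 2)
    (hdet : (liftRep rb c hc hs).DetIsCyclotomic p)
    (hso : (liftRep rb c hc hs).IsStrictOrdinaryAt p)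
    (P : ValuationSubring (AlgebraicClosure ℚ)) (hP : P.LiesOverPrime p) :
    ∃ (u : Fin 2 → k) (m : Matrix (Fin 2) (Fin 2) k), u ≠ 0 ∧
      (∀ σ ∈ P.inertiaSubgroupIn ℚ, ∀ v, ∃ t : k, rb σ *ᵥ v - v = t • u) ∧
      (∀ σ ∈ P.decompositionSubgroup ℚ, ∃ z : k, z * z = 1 ∧
        rb σ *ᵥ u = ((ExtCitation.cycloExp p σ : k) * z) • u ∧
        (∀ v, ∃ t : k, rb σ *ᵥ v - z • v = t • u) ∧
        (c σ + m - rb σ * m * rb σ⁻¹) *ᵥ u = 0 ∧
        ∀ v, ∃ t : k, (c σ + m - rb σ * m * rb σ⁻¹) *ᵥ v = t • u) := by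
  obtain ⟨hpm, hL⟩ := hso
  obtain ⟨L, ⟨b, rfl⟩, hD, hI, hxz⟩ := hL P hP
  have hp0 : (p : DualNumber k) = 0 := natCast_dualNumber_eq_zero hpm
  have hp0k : (p : k) = 0 := by simpa using congrArg TrivSqZeroExt.fst hp0
  have h2k : (2 : k) ≠ 0 := two_ne_zero_of_odd_prime_cast Fact.out hp2 hp0k
  set w : Fin 2 → DualNumber k := b 0 with hw
  have hu : fstV w ≠ 0 := fstV_basis_ne_zero rb c hc hs b 0
  obtain ⟨m, hm⟩ := exists_matrix_mulVec_eq (fstV w) (- sndV w) hu
  refine ⟨fstV w, m, hu, ?_, ?_⟩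
  · intro σ hσ v
    obtain ⟨s, hs'⟩ := Submodule.mem_span_singleton.mp (hI σ hσ (inlV v))
    have hs'' : liftFun rb c σ *ᵥ inlV v - inlV v = s • w := hs'.symm
    refine ⟨s.fst, ?_⟩
    have := congrArg fstV hs''
    rwa [fstV_sub, fstV_mulVec, fstV_smul, fstM_liftFun, fstV_inlV] at this
  · intro σ hσ
    obtain ⟨x, z, h1, h2, h3⟩ := hxz σ hσ
    have h1' : liftFun rb c σ *ᵥ w = x • w := h1 (b 0) (Submodule.mem_span_singleton_self _)
    have h2' : ∀ v : Fin 2 → DualNumber k, ∃ s : DualNumber k,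
        liftFun rb c σ *ᵥ v - z • v = s • w := by
      intro v
      obtain ⟨s, hs'⟩ := Submodule.mem_span_singleton.mp (h2 v)
      exact ⟨s, hs'.symm⟩
    have hx : x = (ExtCitation.cycloExp p σ : DualNumber k) * z := by
      have := h3 1 (ExtCitation.cycloExp p σ) (apply_root_eq_pow_cycloExp p σ)
      rw [pow_one, hp0, Ideal.span_singleton_eq_bot.mpr rfl, Ideal.mem_bot, sub_eq_zero] at this
      exact this
    let w1 : Fin 2 → DualNumber k := b 1
    obtain ⟨t, ht⟩ := h2' w1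
    have hdet1 : LinearMap.det ((liftRep rb c hc hs).ρ σ) = x * z := by
      refine det_of_triangular b _ x z t h1' ?_
      have : liftFun rb c σ *ᵥ w1 = z • w1 + t • w := by
        rw [← ht]; abel
      exact this
    have hdet2 : LinearMap.det ((liftRep rb c hc hs).ρ σ)
        = (ExtCitation.cycloExp p σ : DualNumber k) := by
      have := hdet.2 1 σ _ (apply_root_eq_pow_cycloExp p σ)
      rwa [pow_one, hp0, Ideal.span_singleton_eq_bot.mpr rfl, Ideal.mem_bot, sub_eq_zero] at this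
    have hunit : IsUnit (ExtCitation.cycloExp p σ : DualNumber k) := by
      rw [← hdet2]
      have : LinearMap.det ((liftRep rb c hc hs).ρ σ) *
          LinearMap.det ((liftRep rb c hc hs).ρ σ⁻¹) = 1 := by
        rw [← map_mul, ← map_mul, mul_inv_cancel, map_one, map_one]
      exact IsUnit.of_mul_eq_one _ this
    obtain ⟨hz, hzz, hxx⟩ := diag_of_strictOrd h2k x z _ hx (hdet1.symm.trans hdet2) hunit
    have h1'' : mkM (rb σ) (c σ * rb σ) *ᵥ w
        = (inl ((ExtCitation.cycloExp p σ : k) * z.fst) : DualNumber k) • w := by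
      rw [← hxx]; exact h1'
    have h2'' : ∀ v : Fin 2 → DualNumber k, ∃ s : DualNumber k,
        mkM (rb σ) (c σ * rb σ) *ᵥ v - (inl z.fst : DualNumber k) • v = s • w := by
      intro v
      rw [← hz]; exact h2' v
    obtain ⟨r1, r2, r3, r4⟩ := strictOrd_core (rb σ) (rb σ⁻¹) (c σ) m (rb_inv_mul rb σ) w hu hm
      _ _ h1'' h2''
    exact ⟨z.fst, hzz, r1, r2, r3, r4⟩

/-- Replacing `m` by its trace-zero part does not change the coboundary (`2 ≠ 0`). -/
theorem exists_trace_zero_cobound (h2 : (2 : k) ≠ 0) (m : Matrix (Fin 2) (Fin 2) k) :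
    ∃ m' : Matrix (Fin 2) (Fin 2) k, m'.trace = 0 ∧
      ∀ σ : Γℚ, rb σ * m' * rb σ⁻¹ - m' = rb σ * m * rb σ⁻¹ - m := by
  refine ⟨m - (m.trace / 2) • (1 : Matrix (Fin 2) (Fin 2) k), ?_, fun σ => ?_⟩
  · rw [Matrix.trace_sub, Matrix.trace_smul, Matrix.trace_one, Fintype.card_fin, smul_eq_mul]
    push_cast
    field_simp
    ring
  · rw [mul_sub, sub_mul, Matrix.mul_smul, Matrix.smul_mul, mul_one, rb_mul_inv]
    abel

/-- A non-identity matrix `R` with `(R - 1) k² ⊆ k u` and `⊆ k u'` forces `k u = k u'`. -/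
theorem line_unique {R : Matrix (Fin 2) (Fin 2) k} (hR : R ≠ 1) {u u' : Fin 2 → k}
    (h : ∀ v, ∃ t : k, R *ᵥ v - v = t • u) (h' : ∀ v, ∃ t : k, R *ᵥ v - v = t • u') :
    ∃ s : k, s ≠ 0 ∧ u' = s • u := by
  have hv : ∃ v, R *ᵥ v - v ≠ 0 := by
    by_contra hcon
    simp only [not_exists, not_not] at hcon
    apply hR
    apply Matrix.mulVec_injective
    funext v
    rw [Matrix.one_mulVec]
    exact sub_eq_zero.mp (hcon v)
  obtain ⟨v, hv⟩ := hv
  obtain ⟨t, ht⟩ := h v
  obtain ⟨t', ht'⟩ := h' v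
  have ht0 : t ≠ 0 := by rintro rfl; exact hv (by rw [ht, zero_smul])
  have ht'0 : t' ≠ 0 := by rintro rfl; exact hv (by rw [ht', zero_smul])
  refine ⟨t'⁻¹ * t, mul_ne_zero (inv_ne_zero ht'0) ht0, ?_⟩
  rw [mul_smul, ← ht, ht', smul_smul, inv_mul_cancel₀ ht'0, one_smul]

/-- **Strict-ordinary, cocycle form, for a prescribed line.**  If inertia at `P` acts
non-trivially through `rb` and `(rb σ - 1) k² ⊆ k u₀` for `σ` in inertia, then the cocycle of a
strict-ordinary lift with cyclotomic determinant is, on the decomposition group, cohomologous (by a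
trace-zero matrix) to a cocycle with values in `Hom(k² / k u₀, k u₀)`. -/
theorem strictOrdinary_cocycle_form_of_line (p : ℕ) [Fact p.Prime] (hp2 : p ≠ 2)
    (hdet : (liftRep rb c hc hs).DetIsCyclotomic p)
    (hso : (liftRep rb c hc hs).IsStrictOrdinaryAt p)
    (P : ValuationSubring (AlgebraicClosure ℚ)) (hP : P.LiesOverPrime p)
    (u₀ : Fin 2 → k) (σ₀ : Γℚ) (hσ₀ : σ₀ ∈ P.inertiaSubgroupIn ℚ) (hne : rb σ₀ ≠ 1)
    (hu₀ : ∀ v, ∃ t : k, rb σ₀ *ᵥ v - v = t • u₀) :
    ∃ m : Matrix (Fin 2) (Fin 2) k, m.trace = 0 ∧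
      ∀ σ ∈ P.decompositionSubgroup ℚ,
        (c σ - (rb σ * m * rb σ⁻¹ - m)) *ᵥ u₀ = 0 ∧
        ∀ v, ∃ t : k, (c σ - (rb σ * m * rb σ⁻¹ - m)) *ᵥ v = t • u₀ := by
  have hp0 : (p : DualNumber k) = 0 := natCast_dualNumber_eq_zero hso.1
  have hp0k : (p : k) = 0 := by simpa using congrArg TrivSqZeroExt.fst hp0
  have h2k : (2 : k) ≠ 0 := two_ne_zero_of_odd_prime_cast Fact.out hp2 hp0k
  obtain ⟨u, m, hu, hI, hD⟩ := strictOrdinary_cocycle_form rb c hc hs p hp2 hdet hso P hP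
  obtain ⟨s, hs0, hsu⟩ := line_unique hne hu₀ (hI σ₀ hσ₀)
  obtain ⟨m', hm'tr, hm'⟩ := exists_trace_zero_cobound rb h2k m
  refine ⟨m', hm'tr, fun σ hσ => ?_⟩
  obtain ⟨z, -, -, -, r3, r4⟩ := hD σ hσ
  have e : c σ - (rb σ * m' * rb σ⁻¹ - m') = c σ + m - rb σ * m * rb σ⁻¹ := by
    rw [hm' σ]; abel
  rw [e]
  have hu₀' : u₀ = s⁻¹ • u := by rw [hsu, smul_smul, inv_mul_cancel₀ hs0, one_smul]
  constructor
  · rw [hu₀', Matrix.mulVec_smul, r3, smul_zero]
  · intro v
    obtain ⟨t, ht⟩ := r4 v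
    refine ⟨t * s, ?_⟩
    rw [ht, hu₀', smul_smul, mul_assoc, mul_inv_cancel₀ hs0, mul_one]

end Main

end Fermat.Agent.S56lib.Dict
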