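import Mathlib
import Fermat.Agent.S56lib.Dict.StrictOrdCocycle
import Fermat.Agent.S56lib.Tame.CycloInertia

/-!
# The strict-ordinary line is canonical

Since the mod `p` cyclotomic character is non-trivial on inertia at `p` (`p` odd) and
`det rb = χ̄`, inertia at `P | p` acts non-trivially through `rb`; hence the line
`L̄ = k u₀ ⊇ (rb σ - 1) k²`, `σ ∈ I_P`, is unique, and the cocycle of every strict-ordinary lift with
cyclotomic determinant is, on the decomposition group, cohomologous to one with values in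
`Hom(k² / L̄, L̄)` for this fixed line.
-/

set_option autoImplicit false
set_option linter.unusedSectionVars false
set_option linter.style.haveILetI false

namespace Fermat.Agent.S56lib.Dict

open IsLocalRing TrivSqZeroExt Fermat.Agent.TeamA Fermat.Agent.TeamA.Rep Polynomial Matrix

local notation "Γℚ" => (AlgebraicClosure ℚ ≃ₐ[ℚ] AlgebraicClosure ℚ)

variable {k : Type} [Field k] (rb : Γℚ →* Matrix (Fin 2) (Fin 2) k)
  (c : Γℚ → Matrix (Fin 2) (Fin 2) k) (hc : IsCocycle rb c) (hs : IsSmoothCochain rb c)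

/-- `det rb = χ̄` (from the determinant condition on any lift `liftRep rb c`). -/
theorem det_rb_eq_cycloExp (p : ℕ) [Fact p.Prime]
    (hdet : (liftRep rb c hc hs).DetIsCyclotomic p) (σ : Γℚ) :
    (rb σ).det = ((ExtCitation.cycloExp p σ : ℕ) : k) := by
  have h0 := natCast_dualNumber_eq_zero hdet.1
  have h1 := hdet.2 1 σ (ExtCitation.cycloExp p σ) (apply_root_eq_pow_cycloExp p σ)
  rw [pow_one, h0, Ideal.span_singleton_eq_bot.mpr rfl, Ideal.mem_bot, sub_eq_zero, det_liftRep,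
    det_liftFun] at h1
  have h2 := congrArg TrivSqZeroExt.fst h1
  simpa using h2

/-- **Inertia at `p` acts non-trivially through `rb`.** -/
theorem exists_inertia_rb_ne_one (p : ℕ) [Fact p.Prime] (hp2 : p ≠ 2)
    (hdet : (liftRep rb c hc hs).DetIsCyclotomic p)
    (P : ValuationSubring (AlgebraicClosure ℚ)) (hP : P.LiesOverPrime p) :
    ∃ σ₀ ∈ P.inertiaSubgroupIn ℚ, rb σ₀ ≠ 1 := by
  have hp0 : (p : DualNumber k) = 0 := natCast_dualNumber_eq_zero hdet.1
  have hp0k : (p : k) = 0 := by simpa using congrArg TrivSqZeroExt.fst hp0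
  obtain ⟨σ₀, hσ₀, hne⟩ := Tame.exists_inertia_cycloExp_ne_one p hp2 P hP hp0k
  refine ⟨σ₀, hσ₀, fun h1 => hne ?_⟩
  rw [← det_rb_eq_cycloExp rb c hc hs p hdet σ₀, h1, Matrix.det_one]

/-- **Strict-ordinary, cocycle form, canonical line.**  If `(rb σ - 1) k² ⊆ k u₀` for all `σ` in
the inertia group at `P | p`, then the cocycle of every strict-ordinary lift with cyclotomic
determinant is on `D_P` cohomologous, by a trace-zero matrix, to a cocycle with values in
`Hom(k² / k u₀, k u₀)`. -/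
theorem strictOrdinary_cocycle_form_canonical (p : ℕ) [Fact p.Prime] (hp2 : p ≠ 2)
    (hdet : (liftRep rb c hc hs).DetIsCyclotomic p)
    (hso : (liftRep rb c hc hs).IsStrictOrdinaryAt p)
    (P : ValuationSubring (AlgebraicClosure ℚ)) (hP : P.LiesOverPrime p)
    (u₀ : Fin 2 → k)
    (hu₀ : ∀ σ ∈ P.inertiaSubgroupIn ℚ, ∀ v, ∃ t : k, rb σ *ᵥ v - v = t • u₀) :
    ∃ m : Matrix (Fin 2) (Fin 2) k, m.trace = 0 ∧
      ∀ σ ∈ P.decompositionSubgroup ℚ,
        (c σ - (rb σ * m * rb σ⁻¹ - m)) *ᵥ u₀ = 0 ∧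
        ∀ v, ∃ t : k, (c σ - (rb σ * m * rb σ⁻¹ - m)) *ᵥ v = t • u₀ := by
  obtain ⟨σ₀, hσ₀, hne⟩ := exists_inertia_rb_ne_one rb c hc hs p hp2 hdet P hP
  exact strictOrdinary_cocycle_form_of_line rb c hc hs p hp2 hdet hso P hP u₀ σ₀ hσ₀ hne
    (hu₀ σ₀ hσ₀)

end Fermat.Agent.S56lib.Dict
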