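/-
S56lib / Dict / FlatPre  (helper4).

**From "the lift `liftRep rb c` is trivial on `Gal(ℚ̄_p/L)`" to the cocycle form** (helper3's
(h4-pre)): if `L ⊆ ℚ̄_p` trivialises the deformation `(1 + ε c) ρ̄` of `ρ̄` to `k[ε]` and the deformation
has cyclotomic determinant, then `rb = 1` and `c = 0` on `Gal(ℚ̄_p/L)` and `μ_p ⊆ L`.
-/
import Mathlib
import Fermat.Agent.S56lib.Dict.StrictOrdLine
import Fermat.Agent.S56lib.Flat.Defs

set_option autoImplicit false
set_option linter.unusedSectionVars false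
set_option linter.style.haveILetI false

noncomputable section

namespace Fermat.Agent.S56lib.Dict

open IsLocalRing TrivSqZeroExt Fermat.Agent.TeamA Fermat.Agent.TeamA.Rep Matrix

local notation "Γℚ" => (AlgebraicClosure ℚ ≃ₐ[ℚ] AlgebraicClosure ℚ)

attribute [local instance] dualNumberAlgebra

section

variable {k : Type} [Field k] (rb : Γℚ →* Matrix (Fin 2) (Fin 2) k)
  (c : Γℚ → Matrix (Fin 2) (Fin 2) k) (hc : IsCocycle rb c) (hs : IsSmoothCochain rb c)

/-- the lift is trivial at `σ` iff `rb σ = 1` and `c σ = 0` -/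
theorem liftRep_ρ_eq_one_iff (σ : Γℚ) :
    (liftRep rb c hc hs).ρ σ = 1 ↔ rb σ = 1 ∧ c σ = 0 := by
  constructor
  · intro h1
    rw [liftRep_ρ_apply] at h1
    have h2 : liftFun rb c σ = 1 := by
      apply Matrix.toLin'.injective
      rw [h1, Matrix.toLin'_one]
      rfl
    have h3 : rb σ = 1 := by
      have := congrArg fstM h2
      simpa using this
    refine ⟨h3, ?_⟩
    have := congrArg sndM h2
    simpa [h3] using this
  · rintro ⟨h1, h2⟩
    rw [liftRep_ρ_apply]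
    have : liftFun rb c σ = 1 := by
      unfold liftFun
      rw [h1, h2, zero_mul, mkM_one_zero]
    rw [this, Matrix.toLin'_one]
    rfl

variable (p : ℕ) [hp : Fact p.Prime]

/-- every `p`-th root of unity of `ℚ̄_p` comes from `ℚ̄` -/
theorem exists_padicEmbedding_eq_of_pow_eq_one (ζ : PadicAlgCl p) (hζ : ζ ^ p = 1) :
    ∃ ζ' : AlgebraicClosure ℚ, ζ' ^ p = 1 ∧ padicEmbedding p ζ' = ζ := by
  haveI : NeZero p := ⟨hp.out.ne_zero⟩
  obtain ⟨ζ₀, hζ₀⟩ := HasEnoughRootsOfUnity.exists_primitiveRoot (AlgebraicClosure ℚ) p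
  have h1 : IsPrimitiveRoot (padicEmbedding p ζ₀) p :=
    hζ₀.map_of_injective (padicEmbedding p).toRingHom.injective
  obtain ⟨j, -, hj⟩ := h1.eq_pow_of_pow_eq_one hζ
  refine ⟨ζ₀ ^ j, ?_, ?_⟩
  · rw [← pow_mul, mul_comm, pow_mul, hζ₀.pow_eq_one, one_pow]
  · rw [map_pow, hj]

/-- **`μ_p ⊆ L`** if `rb` is trivial on `Gal(ℚ̄_p/L)` and `det rb = χ̄_p` -/
theorem root_mem_of_rb_eq_one (hdet : (liftRep rb c hc hs).DetIsCyclotomic p)
    (L : IntermediateField ℚ_[p] (PadicAlgCl p))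
    (hL : ∀ g ∈ L.fixingSubgroup, rb (localGaloisToGlobal p g) = 1)
    (ζ : PadicAlgCl p) (hζ : ζ ^ p = 1) : ζ ∈ L := by
  have hp0 : (p : DualNumber k) = 0 := natCast_dualNumber_eq_zero hdet.1
  have hp0k : (p : k) = 0 := by simpa using congrArg TrivSqZeroExt.fst hp0
  haveI : CharP k p := (CharP.charP_iff_prime_eq_zero hp.out).2 hp0k
  obtain ⟨ζ', hζ', rfl⟩ := exists_padicEmbedding_eq_of_pow_eq_one p ζ hζ
  rw [← InfiniteGalois.fixedField_fixingSubgroup L, IntermediateField.mem_fixedField_iff]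
  intro g hg
  have h1 : ((ExtCitation.cycloExp p (localGaloisToGlobal p g) : ℕ) : k) = ((1 : ℕ) : k) := by
    rw [← det_rb_eq_cycloExp rb c hc hs p hdet, hL g hg, Matrix.det_one, Nat.cast_one]
  have h2 : ExtCitation.cycloExp p (localGaloisToGlobal p g) ≡ 1 [MOD p] :=
    (CharP.natCast_eq_natCast k p).1 h1
  rw [← padicEmbedding_localGaloisToGlobal,
    apply_root_eq_pow_cycloExp p _ ζ' (by rw [pow_one]; exact hζ'),
    pow_eq_pow_of_modEq h2 hζ', pow_one]

/-- **(h4-pre)**: a field `L` trivialising the lift `liftRep rb c` on `Gal(ℚ̄_p/L)` trivialises `rb`,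
kills `c`, and contains `μ_p`. -/
theorem exists_level_of_lift_trivial (hdet : (liftRep rb c hc hs).DetIsCyclotomic p)
    (hFB : ∃ L : IntermediateField ℚ_[p] (PadicAlgCl p), FiniteDimensional ℚ_[p] L ∧
      Normal ℚ_[p] L ∧ Flat.IsBdd p L ∧
      ∀ g ∈ L.fixingSubgroup, (liftRep rb c hc hs).ρ (localGaloisToGlobal p g) = 1) :
    ∃ L : IntermediateField ℚ_[p] (PadicAlgCl p), FiniteDimensional ℚ_[p] L ∧
      Normal ℚ_[p] L ∧ Flat.IsBdd p L ∧ (∀ ζ : PadicAlgCl p, ζ ^ p = 1 → ζ ∈ L) ∧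
      ∀ g ∈ L.fixingSubgroup,
        rb (localGaloisToGlobal p g) = 1 ∧ c (localGaloisToGlobal p g) = 0 := by
  obtain ⟨L, hfd, hn, hb, h⟩ := hFB
  have h' : ∀ g ∈ L.fixingSubgroup,
      rb (localGaloisToGlobal p g) = 1 ∧ c (localGaloisToGlobal p g) = 0 :=
    fun g hg => (liftRep_ρ_eq_one_iff rb c hc hs _).1 (h g hg)
  exact ⟨L, hfd, hn, hb,
    root_mem_of_rb_eq_one rb c hc hs p hdet L (fun g hg => (h' g hg).1), h'⟩

end

end Fermat.Agent.S56lib.Dict
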