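/-
S56lib / Dict / FlatFinal  (helper4).

**The flat local package at `p` from (FB′) and the counts at flat levels.**

`hasLocalCond_flat_of_count` : for a family `𝒟` implying cyclotomic determinant and flatness at `p`,
given
* `hFB`    : helper6's (FB′) for lifts to `k[ε]` (a finite normal bounded `L` trivialising the lift),
* `𝒢`      : an additive group of local cochains containing the coboundaries and the restrictions of all
             `𝒟`-cocycles (`⊤` in general; the (CE-mat)(A) condition for the exceptional case `p = 3`),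
* `hcount` : `|Zad (ρ̄|Γ) Γ_L ⊓ 𝒢| ≤ |k|⁴` for all flat levels `L ⊇ L₀`, for every flat level `L₀`
             containing `μ_p` and trivialising `ρ̄`,
the local package `Main.HasLocalCond p rb 𝒟 q (|H⁰(G_p, ad⁰ρ̄)| · |k|)` holds.
-/
import Mathlib
import Fermat.Agent.S56lib.Dict.FlatAssembly
import Fermat.Agent.S56lib.Dict.FlatPre

set_option autoImplicit false
set_option linter.unusedSectionVars false
set_option linter.style.haveILetI false

noncomputable section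

namespace Fermat.Agent.S56lib.Dict

open IsLocalRing Fermat.Agent.TeamA Fermat.Agent.TeamA.Rep Fermat.Agent.S55lib
  groupCohomology ExtCitation Matrix

section Package

variable {𝒪 : Type} [CommRing 𝒪] [IsDomain 𝒪] [IsDiscreteValuationRing 𝒪]
  [IsAdicComplete (maximalIdeal 𝒪) 𝒪] [Finite (ResidueField 𝒪)]
variable (p : ℕ) [hp : Fact p.Prime] [CharP (ResidueField 𝒪) p]

attribute [local instance] dualNumberAlgebra

/-- **The flat local package at `p`**, general form with an auxiliary group `𝒢`. -/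
theorem hasLocalCond_flat_of_count
    (rb : GQ →* Matrix (Fin 2) (Fin 2) (ResidueField 𝒪))
    (𝒟 : ∀ ⦃A : Type⦄ [CommRing A] [IsLocalRing A] [Algebra 𝒪 A], GaloisRepAdic A → Prop)
    (q : Nat.Primes) (hq : (q : ℕ) = p)
    (h𝒟 : ∀ ρ : GaloisRepAdic (DualNumber (ResidueField 𝒪)), 𝒟 ρ →
      ρ.DetIsCyclotomic p ∧ ρ.IsFlatAt p)
    (hFB : ∀ ρ : GaloisRepAdic (DualNumber (ResidueField 𝒪)), ρ.IsFlatAt p →
      ∃ L : IntermediateField ℚ_[p] (PadicAlgCl p), FiniteDimensional ℚ_[p] L ∧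
        Normal ℚ_[p] L ∧ Flat.IsBdd p L ∧
        ∀ g ∈ L.fixingSubgroup, ρ.ρ (localGaloisToGlobal p g) = 1)
    (𝒢 : AddSubgroup ((PadicAlgCl p ≃ₐ[ℚ_[p]] PadicAlgCl p) →
      Matrix (Fin 2) (Fin 2) (ResidueField 𝒪)))
    (h𝒢cob : ∀ m : Matrix (Fin 2) (Fin 2) (ResidueField 𝒪), m.trace = 0 →
      (fun g => rb (localGaloisToGlobal p g) * m * rb (localGaloisToGlobal p g)⁻¹ - m) ∈ 𝒢)
    (h𝒢flat : ∀ (S : Finset Nat.Primes) (c : GQ → Matrix (Fin 2) (Fin 2) (ResidueField 𝒪))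
      (_ : IsUnrCocycle S rb c) (hc : IsCocycle rb c) (hs : IsSmoothCochain rb c),
      𝒟 (liftRep rb c hc hs) → (fun g => c (localGaloisToGlobal p g)) ∈ 𝒢)
    (hcount : ∀ L₀ : IntermediateField ℚ_[p] (PadicAlgCl p), IsFlatLevel p L₀ L₀ →
      (∀ ζ : PadicAlgCl p, ζ ^ p = 1 → ζ ∈ L₀) →
      (∀ g ∈ L₀.fixingSubgroup, rb (localGaloisToGlobal p g) = 1) →
      ∀ L, IsFlatLevel p L₀ L →
        Nat.card ↥(Flat.Zad (rb.comp (localGaloisToGlobal p)) L.fixingSubgroup ⊓ 𝒢) ≤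
          Nat.card (ResidueField 𝒪) ^ 4) :
    Main.HasLocalCond p rb 𝒟 q
      (Nat.card (Main.H0loc (adRep p rb) q) * Nat.card (ResidueField 𝒪)) := by
  classical
  haveI : Finite (adRep p rb) := adRep_finite p rb
  by_cases hex : ∃ (S : Finset Nat.Primes) (c : GQ → Matrix (Fin 2) (Fin 2) (ResidueField 𝒪))
      (_ : IsUnrCocycle S rb c) (hc : IsCocycle rb c) (hs : IsSmoothCochain rb c),
      𝒟 (liftRep rb c hc hs)
  · obtain ⟨S₁, c₁, -, hc₁, hs₁, hd₁⟩ := hex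
    obtain ⟨hdet₁, hfl₁⟩ := h𝒟 _ hd₁
    obtain ⟨L₀, hfd, hn, hb, hμ, hL₀⟩ :=
      exists_level_of_lift_trivial rb c₁ hc₁ hs₁ p hdet₁ (hFB _ hfl₁)
    have hL₀flat : IsFlatLevel p L₀ L₀ := ⟨le_rfl, hfd, hn, hb⟩
    refine hasLocalCond_of_flatLevels p rb 𝒟 q hq L₀ hL₀flat (fun g hg => (hL₀ g hg).1) 𝒢 h𝒢cob
      (hcount L₀ hL₀flat hμ (fun g hg => (hL₀ g hg).1)) ?_
    intro S c hunr hc hs hd
    obtain ⟨hdet, hfl⟩ := h𝒟 _ hd
    obtain ⟨L, hfd', hn', hb', -, hL⟩ :=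
      exists_level_of_lift_trivial rb c hc hs p hdet (hFB _ hfl)
    exact ⟨h𝒢flat S c hunr hc hs hd, L, hfd', hn', hb', fun g hg => (hL g hg).2⟩
  · refine ⟨⊥, ?_, fun S c hunr hc hs hd => absurd ⟨S, c, hunr, hc, hs, hd⟩ hex⟩
    have h1 : Nat.card (⊥ : Submodule (ZMod p) (H1loc (adRep p rb) q)) = 1 := by
      rw [Nat.card_eq_one_iff_unique]
      exact ⟨inferInstance, inferInstance⟩
    rw [h1]
    have h2 : 0 < Nat.card (Main.H0loc (adRep p rb) q) := Nat.card_pos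
    have h3 : 0 < Nat.card (ResidueField 𝒪) := Nat.card_pos
    exact Nat.mul_pos h2 h3

/-- **The flat local package at `p`**, form with `𝒢 = ⊤`. -/
theorem hasLocalCond_flat_of_count_top
    (rb : GQ →* Matrix (Fin 2) (Fin 2) (ResidueField 𝒪))
    (𝒟 : ∀ ⦃A : Type⦄ [CommRing A] [IsLocalRing A] [Algebra 𝒪 A], GaloisRepAdic A → Prop)
    (q : Nat.Primes) (hq : (q : ℕ) = p)
    (h𝒟 : ∀ ρ : GaloisRepAdic (DualNumber (ResidueField 𝒪)), 𝒟 ρ →
      ρ.DetIsCyclotomic p ∧ ρ.IsFlatAt p)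
    (hFB : ∀ ρ : GaloisRepAdic (DualNumber (ResidueField 𝒪)), ρ.IsFlatAt p →
      ∃ L : IntermediateField ℚ_[p] (PadicAlgCl p), FiniteDimensional ℚ_[p] L ∧
        Normal ℚ_[p] L ∧ Flat.IsBdd p L ∧
        ∀ g ∈ L.fixingSubgroup, ρ.ρ (localGaloisToGlobal p g) = 1)
    (hcount : ∀ L₀ : IntermediateField ℚ_[p] (PadicAlgCl p), IsFlatLevel p L₀ L₀ →
      (∀ ζ : PadicAlgCl p, ζ ^ p = 1 → ζ ∈ L₀) →
      (∀ g ∈ L₀.fixingSubgroup, rb (localGaloisToGlobal p g) = 1) →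
      ∀ L, IsFlatLevel p L₀ L →
        Nat.card ↥(Flat.Zad (rb.comp (localGaloisToGlobal p)) L.fixingSubgroup) ≤
          Nat.card (ResidueField 𝒪) ^ 4) :
    Main.HasLocalCond p rb 𝒟 q
      (Nat.card (Main.H0loc (adRep p rb) q) * Nat.card (ResidueField 𝒪)) := by
  refine hasLocalCond_flat_of_count p rb 𝒟 q hq h𝒟 hFB ⊤ (fun _ _ => AddSubgroup.mem_top _)
    (fun _ _ _ _ _ _ => AddSubgroup.mem_top _) ?_
  intro L₀ h1 h2 h3 L hL
  rw [inf_top_eq]
  exact hcount L₀ h1 h2 h3 L hL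

end Package

end Fermat.Agent.S56lib.Dict
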