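/-
S56lib / Dict / GoodDef  (helper4).

`GoodAt p rb L₀` : the conclusion of helper3's final interface `Flat.exists_good` at a flat level `L₀`
(finite, normal, Fontaine-bounded, containing `μ_p`, trivialising `ρ̄|Γ_p`): an additive group `𝒢` of
local cochains containing the trace-zero coboundaries and the restrictions of all flat cocycles, with
`|Zad (ρ̄|Γ_p) Γ_L ⊓ 𝒢| ≤ |k|⁴` for every flat level `L ⊇ L₀`.  (Light file: the definition only.)
-/
import Mathlib
import Fermat.Agent.S56lib.Dict.LiftRep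
import Fermat.Agent.S56lib.Flat.Defs
import Fermat.Prelude.Def_GaloisRep_CompletionBridge
import Fermat.Prelude.Def_GaloisRep_Flat

set_option autoImplicit false
set_option linter.unusedSectionVars false

noncomputable section

namespace Fermat.Agent.S56lib.Dict

open Fermat.Agent.TeamA Fermat.Agent.S55lib Matrix

/-- the conclusion of helper3's `Flat.exists_good` at the level `L₀` -/
def GoodAt {k : Type} [Field k] (p : ℕ) [Fact p.Prime]
    (rb : (AlgebraicClosure ℚ ≃ₐ[ℚ] AlgebraicClosure ℚ) →* Matrix (Fin 2) (Fin 2) k) (L₀ : IntermediateField ℚ_[p] (PadicAlgCl p)) : Prop :=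
  ∃ 𝒢 : AddSubgroup ((PadicAlgCl p ≃ₐ[ℚ_[p]] PadicAlgCl p) → Matrix (Fin 2) (Fin 2) k),
    (∀ m : Matrix (Fin 2) (Fin 2) k, m.trace = 0 →
      (fun g => rb (localGaloisToGlobal p g) * m * rb (localGaloisToGlobal p g)⁻¹ - m) ∈ 𝒢) ∧
    (∀ (c : (AlgebraicClosure ℚ ≃ₐ[ℚ] AlgebraicClosure ℚ) → Matrix (Fin 2) (Fin 2) k) (hc : IsCocycle rb c) (hs : IsSmoothCochain rb c),
      (liftRep rb c hc hs).IsFlatAt p → (fun g => c (localGaloisToGlobal p g)) ∈ 𝒢) ∧
    ∀ (L : IntermediateField ℚ_[p] (PadicAlgCl p)) [FiniteDimensional ℚ_[p] L] [Normal ℚ_[p] L],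
      L₀ ≤ L → Flat.IsBdd p L →
      Nat.card ↥(Flat.Zad (rb.comp (localGaloisToGlobal p)) L.fixingSubgroup ⊓ 𝒢) ≤ Nat.card k ^ 4

end Fermat.Agent.S56lib.Dict
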