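import Mathlib
import Fermat.Agent.S56lib.Dict.StrictOrdCocycle
import Fermat.Agent.S56lib.Tame.Main

/-!
# Unipotent on inertia at `q ≠ p`: the cocycle is a coboundary on inertia

Let `ρ = liftRep rb c` be unipotent on inertia at `q ≠ p` (`p` odd, `p = 0` in `k`), and assume
that inertia at `P | q` acts non-trivially through `rb`.  Since the image of inertia is a `p`-group
and tame inertia is cyclic (`Tame.exists_inertia_generator`), `ρ (I_P)` is generated by one
element `ρ τ`; a `2 × 2` computation shows `c τ = rb τ m rb τ⁻¹ - m` for a trace-zero `m`, and then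
`c σ = rb σ m rb σ⁻¹ - m` for all `σ ∈ I_P`: the class of `c` is unramified at `q`.
-/

set_option autoImplicit false
set_option linter.unusedSectionVars false
set_option linter.style.haveILetI false

namespace Fermat.Agent.S56lib.Dict

open IsLocalRing TrivSqZeroExt Fermat.Agent.TeamA Fermat.Agent.TeamA.Rep Polynomial Matrix

local notation "Γℚ" => (AlgebraicClosure ℚ ≃ₐ[ℚ] AlgebraicClosure ℚ)

section LinAlg

theorem exists_cobound_std {k : Type*} [Field k] (h2 : (2 : k) ≠ 0)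
    (X₀ : Matrix (Fin 2) (Fin 2) k) (h1 : X₀.trace = 0)
    (h3 : (X₀ * !![1, 1; 0, 1]).trace = 0) :
    ∃ m₀ : Matrix (Fin 2) (Fin 2) k, m₀.trace = 0 ∧
      !![1, 1; 0, 1] * m₀ * !![1, -1; 0, 1] - m₀ = X₀ := by
  rw [Matrix.trace_fin_two] at h1 h3
  simp [Matrix.mul_apply, Fin.sum_univ_two] at h3
  refine ⟨!![-(X₀ 0 0 + X₀ 0 1) / 2, 0; X₀ 0 0, (X₀ 0 0 + X₀ 0 1) / 2], ?_, ?_⟩
  · rw [Matrix.trace_fin_two]
    simp
    ring
  · ext i j
    fin_cases i <;> fin_cases j
    · simp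
    · simp
      field_simp
      ring
    · simp
      linear_combination h1 - h3
    · simp
      linear_combination -h1

theorem trace_conj_basis {k : Type*} [Field k] (b : Module.Basis (Fin 2) k (Fin 2 → k))
    (Y : Matrix (Fin 2) (Fin 2) k) :
    (LinearMap.toMatrixAlgEquiv b (Matrix.toLinAlgEquiv' Y)).trace = Y.trace := by
  have h1 := LinearMap.trace_eq_matrix_trace k b (Matrix.toLin' Y)
  have h2 := LinearMap.trace_eq_matrix_trace k (Pi.basisFun k (Fin 2)) (Matrix.toLin' Y)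
  rw [LinearMap.toMatrix_eq_toMatrix', LinearMap.toMatrix'_toLin'] at h2
  rw [← h2, h1]
  rfl

theorem exists_cobound_of_unipotent {k : Type*} [Field k] (h2 : (2 : k) ≠ 0)
    (R R' X : Matrix (Fin 2) (Fin 2) k) (hRR' : R' * R = 1) (htr : R.trace = 2)
    (hdet : R.det = 1) (hR1 : R ≠ 1) (hX : X.trace = 0) (hXR : (X * R).trace = 0) :
    ∃ m : Matrix (Fin 2) (Fin 2) k, m.trace = 0 ∧ R * m * R' - m = X := by
  set N := R - 1 with hN
  have hR : R = 1 + N := by rw [hN]; abel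
  have hN2 : N * N = 0 := by
    have h := cayley_fin_two R
    rw [htr, hdet, one_smul, two_smul] at h
    rw [hN, sub_mul, mul_sub, one_mul, mul_one]
    rw [← h]
    abel
  have hN0 : N ≠ 0 := sub_ne_zero.mpr hR1
  obtain ⟨v, hv⟩ : ∃ v, N *ᵥ v ≠ 0 := by
    by_contra h
    simp only [not_exists, not_not] at h
    apply hN0
    apply Matrix.mulVec_injective
    funext v
    rw [h v, Matrix.zero_mulVec]
  have hNNv : N *ᵥ (N *ᵥ v) = 0 := by rw [Matrix.mulVec_mulVec, hN2, Matrix.zero_mulVec]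
  have hli : LinearIndependent k ![N *ᵥ v, v] := by
    rw [LinearIndependent.pair_iff]
    intro a c hac
    have h1 := congrArg (fun w => N *ᵥ w) hac
    simp only [Matrix.mulVec_add, Matrix.mulVec_smul, hNNv, smul_zero, zero_add,
      Matrix.mulVec_zero] at h1
    have hc : c = 0 := (smul_eq_zero.mp h1).resolve_right hv
    rw [hc, zero_smul, add_zero] at hac
    exact ⟨(smul_eq_zero.mp hac).resolve_right hv, hc⟩
  let b : Module.Basis (Fin 2) k (Fin 2 → k) :=
    basisOfLinearIndependentOfCardEqFinrank hli (by simp)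
  have hb0 : b 0 = N *ᵥ v := by simp [b]
  have hb1 : b 1 = v := by simp [b]
  let Φ : Matrix (Fin 2) (Fin 2) k ≃ₐ[k] Matrix (Fin 2) (Fin 2) k :=
    (Matrix.toLinAlgEquiv' (R := k) (n := Fin 2)).trans (LinearMap.toMatrixAlgEquiv b)
  have hΦtr : ∀ Y, (Φ Y).trace = Y.trace := fun Y => trace_conj_basis b Y
  have hRb0 : R *ᵥ b 0 = b 0 := by
    rw [hR, Matrix.add_mulVec, Matrix.one_mulVec, hb0, hNNv, add_zero]
  have hRb1 : R *ᵥ b 1 = b 1 + b 0 := by
    rw [hR, Matrix.add_mulVec, Matrix.one_mulVec, hb1, hb0]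
  have hΦR : Φ R = !![1, 1; 0, 1] := by
    ext i j
    rw [show Φ R = LinearMap.toMatrixAlgEquiv b (Matrix.toLinAlgEquiv' R) from rfl,
      LinearMap.toMatrixAlgEquiv_apply, Matrix.toLinAlgEquiv'_apply]
    fin_cases j
    · change b.repr (R *ᵥ b 0) i = _
      rw [hRb0, b.repr_self]
      fin_cases i <;> simp
    · change b.repr (R *ᵥ b 1) i = _
      rw [hRb1, map_add, b.repr_self, b.repr_self]
      fin_cases i <;> simp
  have hUU' : (!![1, 1; 0, 1] : Matrix (Fin 2) (Fin 2) k) * !![1, -1; 0, 1] = 1 := by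
    ext i j
    fin_cases i <;> fin_cases j <;> simp
  have hΦR' : Φ R' = !![1, -1; 0, 1] := by
    have h1 : Φ R' * !![1, 1; 0, 1] = 1 := by rw [← hΦR, ← map_mul, hRR', map_one]
    calc Φ R' = Φ R' * (!![1, 1; 0, 1] * !![1, -1; 0, 1]) := by rw [hUU', mul_one]
      _ = !![1, -1; 0, 1] := by rw [← mul_assoc, h1, one_mul]
  obtain ⟨m₀, hm₀tr, hm₀⟩ := exists_cobound_std h2 (Φ X) (by rw [hΦtr, hX])
    (by rw [← hΦR, ← map_mul, hΦtr, hXR])
  refine ⟨Φ.symm m₀, ?_, ?_⟩
  · rw [← hΦtr, AlgEquiv.apply_symm_apply, hm₀tr]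
  · apply Φ.injective
    rw [map_sub, map_mul, map_mul, AlgEquiv.apply_symm_apply, hΦR, hΦR', hm₀]

theorem one_add_pow_of_mul_self_eq_zero {R : Type*} [Ring R] (N : R) (hN : N * N = 0) (n : ℕ) :
    (1 + N) ^ n = 1 + n • N := by
  induction n with
  | zero => simp
  | succ n ih =>
    rw [pow_succ, ih, mul_add, mul_one, add_mul, one_mul, smul_mul_assoc, hN, smul_zero, add_zero,
      succ_nsmul]
    abel

/-- A matrix with characteristic polynomial `(X - 1) ^ 2` over a ring in which `p = 0` has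
`p`-th power `1`. -/
theorem pow_eq_one_of_charpoly {A : Type*} [CommRing A] {p : ℕ} (hp : (p : A) = 0)
    (M : Matrix (Fin 2) (Fin 2) A) (h : M.charpoly = (X - 1) ^ 2) : M ^ p = 1 := by
  have h1 := Matrix.aeval_self_charpoly M
  rw [h, map_pow, map_sub, aeval_X, map_one, sq] at h1
  have h2 : M = 1 + (M - 1) := by abel
  rw [h2, one_add_pow_of_mul_self_eq_zero _ h1, ← Nat.cast_smul_eq_nsmul A, hp, zero_smul, add_zero]

end LinAlg

section Main

variable {k : Type} [Field k] (rb : Γℚ →* Matrix (Fin 2) (Fin 2) k)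
  (c : Γℚ → Matrix (Fin 2) (Fin 2) k) (hc : IsCocycle rb c) (hs : IsSmoothCochain rb c)

theorem fstM_pow (M : Matrix (Fin 2) (Fin 2) (DualNumber k)) (j : ℕ) :
    fstM (M ^ j) = fstM M ^ j := by
  induction j with
  | zero => simp
  | succ j ih => rw [pow_succ, pow_succ, fstM_mul, ih]

theorem mkM_zero_pow (A : Matrix (Fin 2) (Fin 2) k) (j : ℕ) :
    (mkM A 0) ^ j = mkM (A ^ j) 0 := by
  induction j with
  | zero => rw [pow_zero, pow_zero, mkM_one_zero]
  | succ j ih => rw [pow_succ, pow_succ, ih, mkM_mul, mul_zero, zero_mul, add_zero]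

/-- **Unipotent on inertia at `q ≠ p` with ramified `rb`: `c` is a coboundary on inertia.** -/
theorem isCobound_on_inertia_of_unipotent (p : ℕ) [Fact p.Prime] (hp2 : p ≠ 2)
    (hpk : (p : k) = 0) {q : ℕ} (hq : q.Prime) (hpq : p ≠ q)
    (hunip : (liftRep rb c hc hs).IsUnipotentOnInertiaAt q)
    (P : ValuationSubring (AlgebraicClosure ℚ)) (hP : P.LiesOverPrime q)
    (hram : ∃ σ₁ ∈ P.inertiaSubgroupIn ℚ, rb σ₁ ≠ 1) :
    ∃ m : Matrix (Fin 2) (Fin 2) k, m.trace = 0 ∧
      ∀ σ ∈ P.inertiaSubgroupIn ℚ, c σ = rb σ * m * rb σ⁻¹ - m := by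
  have hp := (Fact.out : p.Prime)
  have h2k : (2 : k) ≠ 0 := two_ne_zero_of_odd_prime_cast hp hp2 hpk
  have hpA : (p : DualNumber k) = 0 := by
    ext
    · simpa using hpk
    · simp
  -- the image of inertia is generated by one element
  have hf : ∃ L : IntermediateField ℚ (AlgebraicClosure ℚ), FiniteDimensional ℚ L ∧
      ∀ σ : Γℚ, (∀ x ∈ L, σ x = x) → liftHom rb c hc σ = 1 := by
    obtain ⟨L, hL, h⟩ := hs
    refine ⟨L, hL, fun σ hσ => ?_⟩
    obtain ⟨h1, h2⟩ := h σ hσ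
    rw [liftHom_apply]
    unfold liftFun
    rw [h1, h2, zero_mul, mkM_one_zero]
  have hpgrp : ∀ σ ∈ P.inertiaSubgroupIn ℚ, ∃ n : ℕ, liftHom rb c hc σ ^ p ^ n = 1 := by
    intro σ hσ
    refine ⟨1, ?_⟩
    rw [pow_one, liftHom_apply]
    exact pow_eq_one_of_charpoly hpA _ (charpoly_of_isUnipotentOnInertiaAt rb c hc hs hunip P hP σ hσ)
  obtain ⟨τ, hτ, hgen⟩ := Tame.exists_inertia_generator hq hP (liftHom rb c hc) hf hp hpq hpgrp
  -- `rb τ ≠ 1`
  have hrbτ : rb τ ≠ 1 := by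
    intro h1
    obtain ⟨σ₁, hσ₁, hne⟩ := hram
    obtain ⟨j, hj⟩ := hgen σ₁ hσ₁
    apply hne
    have := congrArg fstM hj
    rw [liftHom_apply, liftHom_apply, fstM_pow, fstM_liftFun, fstM_liftFun, h1, one_pow] at this
    exact this
  obtain ⟨t1, t2, t3, t4⟩ := unipotent_cocycle_form rb c hc hs hunip P hP τ hτ
  obtain ⟨m, hmtr, hm⟩ := exists_cobound_of_unipotent h2k (rb τ) (rb τ⁻¹) (c τ)
    (rb_inv_mul rb τ) t1 t2 hrbτ t3 t4
  refine ⟨m, hmtr, fun σ hσ => ?_⟩
  obtain ⟨j, hj⟩ := hgen σ hσ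
  rw [liftHom_apply, liftHom_apply] at hj
  -- the cohomologous cocycle
  set c' : Γℚ → Matrix (Fin 2) (Fin 2) k := fun g => c g + m - rb g * m * rb g⁻¹ with hc'
  have hconj : ∀ g, mkM 1 m * liftFun rb c g * mkM 1 (-m) = liftFun rb c' g :=
    fun g => conj_liftFun rb c m g
  have hc'τ : c' τ = 0 := by
    rw [hc']
    simp only
    rw [← hm]
    abel
  have hτ' : liftFun rb c' τ = mkM (rb τ) 0 := by
    unfold liftFun
    rw [hc'τ, zero_mul]
  have hE : mkM (1 : Matrix (Fin 2) (Fin 2) k) (-m) * mkM 1 m = 1 := mkM_one_neg_mul m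
  have hpow : ∀ n : ℕ, mkM 1 m * liftFun rb c τ ^ n * mkM 1 (-m)
      = (mkM 1 m * liftFun rb c τ * mkM 1 (-m)) ^ n := by
    intro n
    induction n with
    | zero =>
      rw [pow_zero, pow_zero, mul_one]
      exact mkM_one_mul_neg m
    | succ n ih =>
      rw [pow_succ, pow_succ, ← ih]
      simp only [Matrix.mul_assoc]
      rw [← Matrix.mul_assoc (mkM 1 (-m)) (mkM 1 m), hE, Matrix.one_mul]
  have hσ' : liftFun rb c' σ = mkM (rb τ ^ j) 0 := by
    rw [← hconj σ, hj, hpow, hconj τ, hτ', mkM_zero_pow]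
  have h5 : c' σ * rb σ = 0 := by
    have := congrArg sndM hσ'
    rwa [sndM_liftFun, sndM_mkM] at this
  have h6 : c' σ = 0 := by
    have := congrArg (fun Y => Y * rb σ⁻¹) h5
    simp only [Matrix.mul_assoc, rb_mul_inv, mul_one, zero_mul] at this
    exact this
  rw [hc'] at h6
  simp only at h6
  have : c σ = rb σ * m * rb σ⁻¹ - m + 0 := by
    rw [← h6]
    abel
  rw [this, add_zero]

end Main

end Fermat.Agent.S56lib.Dict
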