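import Mathlib
import Fermat.Agent.S56lib.Dict.UnipCocycle
import Fermat.Agent.S56lib.TWSel.Places

/-!
# Ramified residual representations: inertia acts non-trivially at every place

If `ρbar` is ramified at `q`, then for EVERY place `P` of `ℚ̄` over `q` some element of the inertia
group of `P` acts non-trivially (all places over `q` are conjugate).  Consequently, for
`q ≠ p` in the minimal set, the cocycle of a lift which is unipotent on inertia at `q` is a
coboundary on each inertia group at `q`.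
-/

set_option autoImplicit false
set_option linter.unusedSectionVars false
set_option linter.style.haveILetI false

namespace Fermat.Agent.S56lib.Dict

open IsLocalRing TrivSqZeroExt Fermat.Agent.TeamA Fermat.Agent.TeamA.Rep Polynomial Matrix
open scoped Pointwise

local notation "Γℚ" => (AlgebraicClosure ℚ ≃ₐ[ℚ] AlgebraicClosure ℚ)

section

variable {k : Type} [Field k]

theorem matOfRes_eq_one_iff (ρ : ResidualGaloisRep k) (b : Module.Basis (Fin 2) k ρ.V) (σ : Γℚ) :
    matOfRes ρ b σ = 1 ↔ ρ.ρ σ = 1 := by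
  unfold matOfRes
  constructor
  · intro h
    apply (LinearMap.toMatrix b b).injective
    rw [h]
    exact (LinearMap.toMatrix_one b).symm
  · intro h
    rw [h]
    exact LinearMap.toMatrix_one b

/-- A residual representation ramified at `q` is ramified at every place over `q`. -/
theorem exists_inertia_ne_one_of_not_isUnramifiedAt (ρ : ResidualGaloisRep k)
    (b : Module.Basis (Fin 2) k ρ.V) {q : ℕ} (hq : q.Prime) (h : ¬ ρ.IsUnramifiedAt q)
    (P : ValuationSubring (AlgebraicClosure ℚ)) (hP : P.LiesOverPrime q) :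
    ∃ σ₁ ∈ P.inertiaSubgroupIn ℚ, matOfRes ρ b σ₁ ≠ 1 := by
  unfold ResidualGaloisRep.IsUnramifiedAt at h
  simp only [not_forall] at h
  obtain ⟨A, hA, σ, hσ, hne⟩ := h
  obtain ⟨g, rfl⟩ := TWSel.exists_smul_eq_of_liesOverPrime hq hA hP
  refine ⟨g * σ * g⁻¹, TWSel.conj_mem_inertia hσ, fun h1 => hne ?_⟩
  rw [matOfRes_eq_one_iff] at h1
  have h2 : ρ.ρ σ = ρ.ρ g⁻¹ * ρ.ρ (g * σ * g⁻¹) * ρ.ρ g := by
    rw [← map_mul, ← map_mul]
    congr 1
    group
  rw [h2, h1, mul_one, ← map_mul, inv_mul_cancel, map_one]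

/-- **Minimally ramified at `q ≠ p` ⇒ unramified class.**  If `ρ` is ramified at `q` and the lift
`liftRep rb c` of `rb = matOfRes ρ b` is unipotent on inertia at `q`, then on every inertia group
`I_P`, `P | q`, the cocycle `c` is the coboundary of a trace-zero matrix. -/
theorem isCobound_on_inertia_of_minimal (ρ : ResidualGaloisRep k) (b : Module.Basis (Fin 2) k ρ.V)
    (rb : Γℚ →* Matrix (Fin 2) (Fin 2) k) (hrb : ∀ σ, rb σ = matOfRes ρ b σ)
    (c : Γℚ → Matrix (Fin 2) (Fin 2) k) (hc : IsCocycle rb c) (hs : IsSmoothCochain rb c)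
    (p : ℕ) [Fact p.Prime] (hp2 : p ≠ 2) (hpk : (p : k) = 0) {q : ℕ} (hq : q.Prime) (hpq : p ≠ q)
    (hram : ¬ ρ.IsUnramifiedAt q)
    (hunip : (liftRep rb c hc hs).IsUnipotentOnInertiaAt q)
    (P : ValuationSubring (AlgebraicClosure ℚ)) (hP : P.LiesOverPrime q) :
    ∃ m : Matrix (Fin 2) (Fin 2) k, m.trace = 0 ∧
      ∀ σ ∈ P.inertiaSubgroupIn ℚ, c σ = rb σ * m * rb σ⁻¹ - m := by
  obtain ⟨σ₁, hσ₁, hne⟩ := exists_inertia_ne_one_of_not_isUnramifiedAt ρ b hq hram P hP
  exact isCobound_on_inertia_of_unipotent rb c hc hs p hp2 hpk hq hpq hunip P hP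
    ⟨σ₁, hσ₁, by rwa [hrb]⟩

end

end Fermat.Agent.S56lib.Dict
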