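/-
S56lib / Dict / LocalPkg  (helper4).

**The local packages (N7)** in lead's `Main.HasLocalCond` shape:

* `hasLocalCond_unr`            : `q ≠ p`, `ρ̄` ramified at `q`, `𝒟 ⇒ IsUnipotentOnInertiaAt q`:
                                   local condition `Loc.Wunr` with `|Wunr| ≤ |H⁰(G_q, ad⁰ρ̄)|`;
* `hasLocalCond_strictOrdinary` : `q = p`, `𝒟 ⇒` cyclotomic determinant + strict-ordinary at `p`:
                                   local condition `Loc.Wso p rb u₀` (or `⊥`), with the count of `Wso`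
                                   as a hypothesis (`Loc.card_Wso_le`, helper5).
-/
import Mathlib
import Fermat.Agent.S56lib.Dict.Ramified
import Fermat.Agent.S56lib.Dict.StrictOrdLine
import Fermat.Agent.S56lib.Main.Iface
import Fermat.Agent.S56lib.Loc.Defs
import Fermat.Agent.S56lib.Loc.Unr

set_option autoImplicit false
set_option linter.unusedSectionVars false
set_option linter.style.haveILetI false

noncomputable section

namespace Fermat.Agent.S56lib.Dict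

open IsLocalRing Fermat.Agent.TeamA Fermat.Agent.TeamA.Rep Fermat.Agent.S55lib
  Fermat.Agent.S56lib.TWSel groupCohomology ExtCitation Matrix

attribute [local instance] dualNumberAlgebra

section

variable {𝒪 : Type} [CommRing 𝒪] [IsDomain 𝒪] [IsDiscreteValuationRing 𝒪]
  [IsAdicComplete (maximalIdeal 𝒪) 𝒪] [Finite (ResidueField 𝒪)]
variable (p : ℕ) [hp : Fact p.Prime] [CharP (ResidueField 𝒪) p]

/-- **(N7) at `q ∈ Smin ∖ {p}`.** -/
theorem hasLocalCond_unr (hp2 : p ≠ 2)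
    (ρbar : ResidualGaloisRep (ResidueField 𝒪))
    (bbar : Module.Basis (Fin 2) (ResidueField 𝒪) ρbar.V)
    (𝒟 : ∀ ⦃A : Type⦄ [CommRing A] [IsLocalRing A] [Algebra 𝒪 A], GaloisRepAdic A → Prop)
    (q : Nat.Primes) (hqp : (q : ℕ) ≠ p) (hram : ¬ ρbar.IsUnramifiedAt q)
    (h𝒟 : ∀ ρ : GaloisRepAdic (DualNumber (ResidueField 𝒪)), 𝒟 ρ → ρ.IsUnipotentOnInertiaAt q)
    (hfin : Finite (H1loc (adRep p (resHom ρbar bbar)) q)) :
    Main.HasLocalCond p (resHom ρbar bbar) 𝒟 q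
      (Nat.card (Main.H0loc (adRep p (resHom ρbar bbar)) q)) := by
  haveI := hfin
  haveI : Finite (adRep p (resHom ρbar bbar)) := adRep_finite p (resHom ρbar bbar)
  refine ⟨Loc.Wunr (adRep p (resHom ρbar bbar)) q, Loc.card_Wunr_le _ q, ?_⟩
  intro S c hunr hc hs hd
  have hpk : (p : ResidueField 𝒪) = 0 := CharP.cast_eq_zero _ p
  obtain ⟨m, hm0, hm⟩ := isCobound_on_inertia_of_minimal ρbar bbar (resHom ρbar bbar)
    (fun _ => rfl) c hc hs p hp2 hpk q.2 (fun h => hqp h.symm) hram (h𝒟 _ hd)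
    (primeLocalPlace q) (primeLocalPlace_liesOverPrime q)
  obtain ⟨L, hL, hLs⟩ := hs
  refine Loc.loc1_mem_Wunr (adRep p (resHom ρbar bbar)) q S ⟨_, toAd_mem_Z1 p hunr⟩
    ⟨L, hL, fun s hs' => ?_⟩
    (toAd p (rb := resHom ρbar bbar) (fun _ => m) (fun _ => hm0) 1) ?_
  · exact adRep_ρ_eq_one_of_rb_eq_one p _
      (hLs s ((IntermediateField.mem_fixingSubgroup_iff _ _).1 hs')).1
  · intro σ hσ
    apply adVal_injective p
    rw [adVal_sub, adVal_ρ, adVal_toAd]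
    exact hm σ hσ

/-- **(N7) at `p`, strict-ordinary case**, modulo the count of `Loc.Wso` (`hcount`, helper5's
`Loc.card_Wso_le`).  Stated for a variable `q : Nat.Primes` with `(q : ℕ) = p`. -/
theorem hasLocalCond_strictOrdinary (hp2 : p ≠ 2)
    (rb : GQ →* Matrix (Fin 2) (Fin 2) (ResidueField 𝒪))
    (𝒟 : ∀ ⦃A : Type⦄ [CommRing A] [IsLocalRing A] [Algebra 𝒪 A], GaloisRepAdic A → Prop)
    (q : Nat.Primes) (hq : (q : ℕ) = p)
    (h𝒟 : ∀ ρ : GaloisRepAdic (DualNumber (ResidueField 𝒪)), 𝒟 ρ →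
      ρ.DetIsCyclotomic p ∧ ρ.IsStrictOrdinaryAt p)
    (hcount : ∀ u₀ : Fin 2 → ResidueField 𝒪, u₀ ≠ 0 →
      (∀ τ : Gloc q, ∃ z : ResidueField 𝒪, z * z = 1 ∧
        rb (rloc q τ) *ᵥ u₀ = (((cycloExp p (rloc q τ) : ℕ) : ResidueField 𝒪) * z) • u₀ ∧
        ∀ v, ∃ t : ResidueField 𝒪, rb (rloc q τ) *ᵥ v - z • v = t • u₀) →
      Nat.card (Loc.Wso p rb u₀ q) ≤
        Nat.card (Main.H0loc (adRep p rb) q) * Nat.card (ResidueField 𝒪)) :
    Main.HasLocalCond p rb 𝒟 q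
      (Nat.card (Main.H0loc (adRep p rb) q) * Nat.card (ResidueField 𝒪)) := by
  classical
  haveI : Finite (adRep p rb) := adRep_finite p rb
  have hP : (primeLocalPlace q).LiesOverPrime p := hq ▸ primeLocalPlace_liesOverPrime q
  by_cases hex : ∃ (S : Finset Nat.Primes) (c : GQ → Matrix (Fin 2) (Fin 2) (ResidueField 𝒪))
      (_ : IsUnrCocycle S rb c) (hc : IsCocycle rb c) (hs : IsSmoothCochain rb c),
      𝒟 (liftRep rb c hc hs)
  · obtain ⟨S₁, c₁, -, hc₁, hs₁, hd₁⟩ := hex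
    obtain ⟨hdet₁, hso₁⟩ := h𝒟 _ hd₁
    obtain ⟨u, m₁, hu0, hI, hD⟩ :=
      strictOrdinary_cocycle_form rb c₁ hc₁ hs₁ p hp2 hdet₁ hso₁ (primeLocalPlace q) hP
    refine ⟨Loc.Wso p rb u q, hcount u hu0 (fun τ => ?_), ?_⟩
    · obtain ⟨z, hz1, hz2, hz3, -⟩ := hD (rloc q τ) (Loc.rloc_mem_decomp q τ)
      exact ⟨z, hz1, hz2, hz3⟩
    · intro S c hunr hc hs hd
      obtain ⟨hdet, hso⟩ := h𝒟 _ hd
      obtain ⟨m, hm0, hm⟩ := strictOrdinary_cocycle_form_canonical rb c hc hs p hp2 hdet hso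
        (primeLocalPlace q) hP u hI
      obtain ⟨L, hL, hLs⟩ := hs
      -- the coboundary of `m`, as a smooth local cocycle
      set mt : adRep p rb := toAd p (rb := rb) (fun _ => m) (fun _ => hm0) 1 with hmt
      have hbB : (fun τ : Gloc q => (Rep.res (rloc q) (adRep p rb)).ρ τ mt - mt) ∈
          Sm.B1 (rloc q) LevelClass.all (Rep.res (rloc q) (adRep p rb)) := by
        refine ⟨?_, L, hL, fun g s hs' => ?_⟩
        · exact ⟨mt, funext fun τ => (d₀₁_hom_apply _ _ _)⟩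
        · have h1 : (adRep p rb).ρ (rloc q s) = 1 := adRep_ρ_eq_one_of_rb_eq_one p rb
            (hLs _ ((IntermediateField.mem_fixingSubgroup_iff _ _).1 hs')).1
          show (adRep p rb).ρ (rloc q (g * s)) mt - mt = (adRep p rb).ρ (rloc q g) mt - mt
          rw [map_mul, map_mul, h1, mul_one]
      have hbZ : (fun τ : Gloc q => (Rep.res (rloc q) (adRep p rb)).ρ τ mt - mt) ∈
          Sm.Z1 (rloc q) LevelClass.all (Rep.res (rloc q) (adRep p rb)) :=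
        ⟨coboundaries₁_le_cocycles₁ _ hbB.1, hbB.2⟩
      set z₀ : ↥(Sm.Z1 (rloc q) LevelClass.all (Rep.res (rloc q) (adRep p rb))) :=
        Sm.resZ1 (rloc q) (r := MonoidHom.id GQ) (r' := rloc q) (fun _ => rfl)
          (𝓛 := LevelClass.unr S) (𝓛' := LevelClass.all) (fun _ h => h.1) (adRep p rb)
          ⟨_, toAd_mem_Z1 p hunr⟩ with hz₀
      refine ⟨z₀ - ⟨_, hbZ⟩, ?_, fun τ => ?_⟩
      · rw [map_sub, loc1_adClass]
        have : Sm.H1π (rloc q) LevelClass.all (Rep.res (rloc q) (adRep p rb)) ⟨_, hbZ⟩ = 0 := by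
          rw [Submodule.mkQ_apply, Submodule.Quotient.mk_eq_zero, Submodule.mem_comap]
          exact hbB
        rw [this, sub_zero]
      · have e : adVal p (rb := rb)
            (((z₀ - ⟨_, hbZ⟩ : ↥(Sm.Z1 (rloc q) LevelClass.all (Rep.res (rloc q) (adRep p rb)))) :
              Gloc q → adRep p rb) τ) =
            c (rloc q τ) - (rb (rloc q τ) * m * rb (rloc q τ)⁻¹ - m) := rfl
        rw [e]
        exact hm (rloc q τ) (Loc.rloc_mem_decomp q τ)
  · refine ⟨⊥, ?_, fun S c hunr hc hs hd => absurd ⟨S, c, hunr, hc, hs, hd⟩ hex⟩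
    have h1 : Nat.card (⊥ : Submodule (ZMod p) (H1loc (adRep p rb) q)) = 1 := by
      rw [Nat.card_eq_one_iff_unique]
      exact ⟨inferInstance, inferInstance⟩
    rw [h1]
    have h2 : 0 < Nat.card (Main.H0loc (adRep p rb) q) := Nat.card_pos
    have h3 : 0 < Nat.card (ResidueField 𝒪) := Nat.card_pos
    exact Nat.mul_pos h2 h3

/-- instantiation at `⟨p, _⟩ : Nat.Primes` for the strict-ordinary family of S56 (lead's `hso_p`) -/
theorem hasLocalCond_strictOrdinary_p (hp2 : p ≠ 2)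
    (rb : GQ →* Matrix (Fin 2) (Fin 2) (ResidueField 𝒪)) (Smin S' : Finset ℕ)
    (hcount : ∀ u₀ : Fin 2 → ResidueField 𝒪, u₀ ≠ 0 →
      (∀ τ : Gloc ⟨p, hp.out⟩, ∃ z : ResidueField 𝒪, z * z = 1 ∧
        rb (rloc ⟨p, hp.out⟩ τ) *ᵥ u₀ =
          (((cycloExp p (rloc ⟨p, hp.out⟩ τ) : ℕ) : ResidueField 𝒪) * z) • u₀ ∧
        ∀ v, ∃ t : ResidueField 𝒪, rb (rloc ⟨p, hp.out⟩ τ) *ᵥ v - z • v = t • u₀) →
      Nat.card (Loc.Wso p rb u₀ ⟨p, hp.out⟩) ≤
        Nat.card (Main.H0loc (adRep p rb) ⟨p, hp.out⟩) * Nat.card (ResidueField 𝒪)) :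
    Main.HasLocalCond p rb (fun _A _ _ _ ρ => GaloisRep.strictOrdinaryCondition 𝒪 p S' ρ ∧
        ∀ q ∈ Smin, q.Prime → q ≠ p → ρ.IsUnipotentOnInertiaAt q) ⟨p, hp.out⟩
      (Nat.card (Main.H0loc (adRep p rb) ⟨p, hp.out⟩) * Nat.card (ResidueField 𝒪)) :=
  hasLocalCond_strictOrdinary p hp2 rb _ ⟨p, hp.out⟩ rfl (fun _ hd => ⟨hd.1.1, hd.1.2.1⟩) hcount

/-- instantiation for the two families of S56 at `q ∈ Smin`, `q ≠ p` (lead's `hso_q`, `hfl_q`) -/
theorem hasLocalCond_unr_strictOrdinary (hp2 : p ≠ 2)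
    (ρbar : ResidualGaloisRep (ResidueField 𝒪))
    (bbar : Module.Basis (Fin 2) (ResidueField 𝒪) ρbar.V) (Smin S' : Finset ℕ)
    (q : Nat.Primes) (hqS : (q : ℕ) ∈ Smin) (hqp : (q : ℕ) ≠ p)
    (hram : ¬ ρbar.IsUnramifiedAt q)
    (hfin : Finite (H1loc (adRep p (resHom ρbar bbar)) q)) :
    Main.HasLocalCond p (resHom ρbar bbar)
      (fun _A _ _ _ ρ => GaloisRep.strictOrdinaryCondition 𝒪 p S' ρ ∧
        ∀ q ∈ Smin, q.Prime → q ≠ p → ρ.IsUnipotentOnInertiaAt q) q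
      (Nat.card (Main.H0loc (adRep p (resHom ρbar bbar)) q)) :=
  hasLocalCond_unr p hp2 ρbar bbar _ q hqp hram (fun _ hd => hd.2 q hqS q.2 hqp) hfin

theorem hasLocalCond_unr_flat (hp2 : p ≠ 2)
    (ρbar : ResidualGaloisRep (ResidueField 𝒪))
    (bbar : Module.Basis (Fin 2) (ResidueField 𝒪) ρbar.V) (Smin S' : Finset ℕ)
    (q : Nat.Primes) (hqS : (q : ℕ) ∈ Smin) (hqp : (q : ℕ) ≠ p)
    (hram : ¬ ρbar.IsUnramifiedAt q)
    (hfin : Finite (H1loc (adRep p (resHom ρbar bbar)) q)) :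
    Main.HasLocalCond p (resHom ρbar bbar)
      (fun _A _ _ _ ρ => GaloisRep.flatCondition 𝒪 p S' ρ ∧
        ∀ q ∈ Smin, q.Prime → q ≠ p → ρ.IsUnipotentOnInertiaAt q) q
      (Nat.card (Main.H0loc (adRep p (resHom ρbar bbar)) q)) :=
  hasLocalCond_unr p hp2 ρbar bbar _ q hqp hram (fun _ hd => hd.2 q hqS q.2 hqp) hfin

end

end Fermat.Agent.S56lib.Dict
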