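/-
S56lib / Dict / FlatGood  (helper4).

**The flat local package at `p` from helper3's `Flat.exists_good`.**

`GoodAt p rb L₀` (file Dict/GoodDef) is the conclusion of helper3's final interface `Flat.exists_good` at a flat level `L₀`
(finite, normal, Fontaine-bounded, containing `μ_p`, trivialising `ρ̄|Γ_p`): an additive group `𝒢` of
local cochains containing the trace-zero coboundaries and the restrictions of all flat cocycles, with
`|Zad (ρ̄|Γ_p) Γ_L ⊓ 𝒢| ≤ |k|⁴` for every flat level `L ⊇ L₀`.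

* `hasLocalCond_flat_of_good` : `GoodAt` at every such level `L₀` ⇒ the local package
  `Main.HasLocalCond p rb 𝒟 q (|H⁰(G_p, ad⁰ρ̄)| · |k|)` for any family `𝒟` implying cyclotomic
  determinant and flatness at `p` ((FB′) is helper6's `Flat.exists_bdd_of_isFlatAt`).
* `hasLocalCond_fl_p` : the literal input `hfl_p` of `Main.s56_of_inputs`, from the hypotheses `hdet`,
  `hsplit` of S56 and `GoodAt` (as a function of the matrix forms of `hsplit`, `hdet`).
-/
import Mathlib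
import Fermat.Agent.S56lib.Dict.FlatFinal
import Fermat.Agent.S56lib.Dict.GoodDef
import Fermat.Agent.S56lib.Lift.FBPrime
import Fermat.Agent.S56lib.Tame.CEArith
import Fermat.Agent.S56lib.Main.Glue

set_option autoImplicit false
set_option linter.unusedSectionVars false
set_option linter.style.haveILetI false

noncomputable section

namespace Fermat.Agent.S56lib.Dict

open IsLocalRing Polynomial Fermat.Agent.TeamA Fermat.Agent.TeamA.Rep Fermat.Agent.S55lib
  groupCohomology ExtCitation Matrix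

section Package

variable {𝒪 : Type} [CommRing 𝒪] [IsDomain 𝒪] [IsDiscreteValuationRing 𝒪]
  [IsAdicComplete (maximalIdeal 𝒪) 𝒪] [Finite (ResidueField 𝒪)]
variable (p : ℕ) [hp : Fact p.Prime] [CharP (ResidueField 𝒪) p]

attribute [local instance] dualNumberAlgebra

/-- (FB′) for lifts to the dual numbers of a finite field of characteristic `p` -/
theorem exists_bdd_of_isFlatAt_dualNumber {k : Type} [Field k] [Finite k] [CharP k p]
    (ρ : GaloisRepAdic (DualNumber k)) (hfl : ρ.IsFlatAt p) :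
    ∃ L : IntermediateField ℚ_[p] (PadicAlgCl p), FiniteDimensional ℚ_[p] L ∧
      Normal ℚ_[p] L ∧ Flat.IsBdd p L ∧
      ∀ g ∈ L.fixingSubgroup, ρ.ρ (localGaloisToGlobal p g) = 1 := by
  haveI : Finite (DualNumber k) := dualNumber_finite
  refine Flat.exists_bdd_of_isFlatAt ρ hfl ?_
  ext
  · simp
  · simp

/-- **The flat local package at `p`** from `GoodAt` at all admissible levels. -/
theorem hasLocalCond_flat_of_good
    (rb : GQ →* Matrix (Fin 2) (Fin 2) (ResidueField 𝒪))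
    (𝒟 : ∀ ⦃A : Type⦄ [CommRing A] [IsLocalRing A] [Algebra 𝒪 A], GaloisRepAdic A → Prop)
    (q : Nat.Primes) (hq : (q : ℕ) = p)
    (h𝒟 : ∀ ρ : GaloisRepAdic (DualNumber (ResidueField 𝒪)), 𝒟 ρ →
      ρ.DetIsCyclotomic p ∧ ρ.IsFlatAt p)
    (hgood : ∀ (L₀ : IntermediateField ℚ_[p] (PadicAlgCl p)) [FiniteDimensional ℚ_[p] L₀]
      [Normal ℚ_[p] L₀], Flat.IsBdd p L₀ → (∀ ζ : PadicAlgCl p, ζ ^ p = 1 → ζ ∈ L₀) →
      (∀ g ∈ L₀.fixingSubgroup, rb (localGaloisToGlobal p g) = 1) → GoodAt p rb L₀) :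
    Main.HasLocalCond p rb 𝒟 q
      (Nat.card (Main.H0loc (adRep p rb) q) * Nat.card (ResidueField 𝒪)) := by
  classical
  haveI : Finite (adRep p rb) := adRep_finite p rb
  by_cases hex : ∃ (S : Finset Nat.Primes) (c : GQ → Matrix (Fin 2) (Fin 2) (ResidueField 𝒪))
      (_ : IsUnrCocycle S rb c) (hc : IsCocycle rb c) (hs : IsSmoothCochain rb c),
      𝒟 (liftRep rb c hc hs)
  · obtain ⟨S₁, c₁, -, hc₁, hs₁, hd₁⟩ := hex
    obtain ⟨hdet₁, hfl₁⟩ := h𝒟 _ hd₁
    obtain ⟨L₀, hfd, hn, hb, hμ, hL₀⟩ :=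
      exists_level_of_lift_trivial rb c₁ hc₁ hs₁ p hdet₁
        (exists_bdd_of_isFlatAt_dualNumber p _ hfl₁)
    have hL₀flat : IsFlatLevel p L₀ L₀ := ⟨le_rfl, hfd, hn, hb⟩
    obtain ⟨𝒢, h𝒢cob, h𝒢flat, h𝒢count⟩ :=
      @hgood L₀ hfd hn hb hμ (fun g hg => (hL₀ g hg).1)
    refine hasLocalCond_of_flatLevels p rb 𝒟 q hq L₀ hL₀flat (fun g hg => (hL₀ g hg).1) 𝒢 h𝒢cob
      (fun L hL => @h𝒢count L hL.2.1 hL.2.2.1 hL.1 hL.2.2.2) ?_
    intro S c _ hc hs hd
    obtain ⟨hdet, hfl⟩ := h𝒟 _ hd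
    obtain ⟨L, hfd', hn', hb', -, hL⟩ :=
      exists_level_of_lift_trivial rb c hc hs p hdet (exists_bdd_of_isFlatAt_dualNumber p _ hfl)
    exact ⟨h𝒢flat c hc hs hfl, L, hfd', hn', hb', fun g hg => (hL g hg).2⟩
  · refine ⟨⊥, ?_, fun S c hunr hc hs hd => absurd ⟨S, c, hunr, hc, hs, hd⟩ hex⟩
    have h1 : Nat.card (⊥ : Submodule (ZMod p) (H1loc (adRep p rb) q)) = 1 := by
      rw [Nat.card_eq_one_iff_unique]
      exact ⟨inferInstance, inferInstance⟩
    rw [h1]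
    have h2 : 0 < Nat.card (Main.H0loc (adRep p rb) q) := Nat.card_pos
    have h3 : 0 < Nat.card (ResidueField 𝒪) := Nat.card_pos
    exact Nat.mul_pos h2 h3

variable (ρbar : ResidualGaloisRep (ResidueField 𝒪))
  (bbar : Module.Basis (Fin 2) (ResidueField 𝒪) ρbar.V)

/-- `hsplit` of S56, matrix form -/
theorem charpoly_resHom_split
    (hsplit : ∀ σ : AlgebraicClosure ℚ ≃ₐ[ℚ] AlgebraicClosure ℚ,
      ∃ α β : ResidueField 𝒪, LinearMap.charpoly (ρbar.ρ σ) = (X - C α) * (X - C β)) (σ : GQ) :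
    ∃ α β : ResidueField 𝒪, (resHom ρbar bbar σ).charpoly = (X - C α) * (X - C β) := by
  obtain ⟨α, β, h⟩ := hsplit σ
  refine ⟨α, β, ?_⟩
  rw [← h, resHom_apply, matOfRes, LinearMap.charpoly_toMatrix]

/-- `det ρ̄|Γ_p = χ̄_p`, in the `Tame.cycloN` form -/
theorem det_resHom_eq_cycloN
    (hdet : (GaloisRepAdic.ofResidualGaloisRep ρbar).DetIsCyclotomic p)
    (g : PadicAlgCl p ≃ₐ[ℚ_[p]] PadicAlgCl p) :
    (resHom ρbar bbar (localGaloisToGlobal p g)).det =
      ((Tame.cycloN p g : ℕ) : ResidueField 𝒪) := by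
  rw [Main.det_resHom_eq_cycloExp p ρbar bbar hdet, Tame.cast_cycloN]

/-- **`hfl_p`** : the flat local package at `p` for the family `𝒟fl` of S56, from `GoodAt`. -/
theorem hasLocalCond_fl_p
    (hdet : (GaloisRepAdic.ofResidualGaloisRep ρbar).DetIsCyclotomic p)
    (hsplit : ∀ σ : AlgebraicClosure ℚ ≃ₐ[ℚ] AlgebraicClosure ℚ,
      ∃ α β : ResidueField 𝒪, LinearMap.charpoly (ρbar.ρ σ) = (X - C α) * (X - C β))
    (hgood : (∀ g : PadicAlgCl p ≃ₐ[ℚ_[p]] PadicAlgCl p, ∃ α β : ResidueField 𝒪,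
        (resHom ρbar bbar (localGaloisToGlobal p g)).charpoly = (X - C α) * (X - C β)) →
      (∀ g : PadicAlgCl p ≃ₐ[ℚ_[p]] PadicAlgCl p,
        (resHom ρbar bbar (localGaloisToGlobal p g)).det =
          ((Tame.cycloN p g : ℕ) : ResidueField 𝒪)) →
      ∀ (L₀ : IntermediateField ℚ_[p] (PadicAlgCl p)) [FiniteDimensional ℚ_[p] L₀]
        [Normal ℚ_[p] L₀], Flat.IsBdd p L₀ → (∀ ζ : PadicAlgCl p, ζ ^ p = 1 → ζ ∈ L₀) →
        (∀ g ∈ L₀.fixingSubgroup, resHom ρbar bbar (localGaloisToGlobal p g) = 1) →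
        GoodAt p (resHom ρbar bbar) L₀)
    (Smin S' : Finset ℕ) :
    Main.HasLocalCond p (resHom ρbar bbar) (Main.𝒟fl 𝒪 p Smin S') ⟨p, hp.out⟩
      (Nat.card (Main.H0loc (adRep p (resHom ρbar bbar)) ⟨p, hp.out⟩) *
        Nat.card (ResidueField 𝒪)) :=
  hasLocalCond_flat_of_good p (resHom ρbar bbar) (Main.𝒟fl 𝒪 p Smin S') ⟨p, hp.out⟩ rfl
    (fun _ hd => ⟨hd.1.1, hd.1.2.1⟩)
    (hgood (fun g => charpoly_resHom_split ρbar bbar hsplit _)
      (fun g => det_resHom_eq_cycloN p ρbar bbar hdet g))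

end Package

end Fermat.Agent.S56lib.Dict
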