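/-
S56lib / Dict / CEMat  (helper4).

**(CE-mat)**: the matrix consequences of the connected–étale splitting `(CE-rep)` for the lift
`liftRep rb c` of a reducible `ρ̄|G_p` (helper3's #2060).  `Γ = Gal(ℚ̄_p/ℚ_p)`, `P ρ̄ P⁻¹` upper
triangular on `Γ` with diagonal characters `χ₁, χ₂`:

* (A) `χ₁|I = χ̄_p`, `χ₂|I = 1`: the lower-left entry of `P c P⁻¹` is the coboundary
      `g ↦ ((χ₂/χ₁)(g) - 1) d`;
* (B) `χ₁|I = 1`, `χ₂|I = χ̄_p`: the upper-right entry of `P ρ̄ P⁻¹` is `g ↦ (χ₂(g) - χ₁(g)) a`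
      (i.e. `ρ̄|Γ` is split).

`CERep p ρ` is the statement of (CE-rep) for `ρ` (helper9's `Hopf.ce_split_rep`), taken as a hypothesis.
-/
import Mathlib
import Fermat.Agent.S56lib.Dict.StrictOrdCocycle
import Fermat.Agent.S56lib.Tame.CEArith

set_option autoImplicit false
set_option linter.unusedSectionVars false
set_option linter.style.haveILetI false

noncomputable section

namespace Fermat.Agent.S56lib.Dict

open IsLocalRing TrivSqZeroExt Fermat.Agent.TeamA Fermat.Agent.TeamA.Rep Matrix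
  Fermat.Agent.S55lib

local notation "Γℚ" => (AlgebraicClosure ℚ ≃ₐ[ℚ] AlgebraicClosure ℚ)

/-- **The statement (CE-rep)** for a Galois representation `ρ` over a local ring `A`
(helper9's `Hopf.ce_split_rep` proves it for `ρ` flat at `p`, `A` finite, `p = 0` in `A`, `p ≠ 2`). -/
def CERep (p : ℕ) [Fact p.Prime] {A : Type} [CommRing A] [IsLocalRing A] (ρ : GaloisRepAdic A) :
    Prop :=
  ∀ (F1 F2 F3 : AddSubgroup ρ.V), F1 ≤ F2 → F2 ≤ F3 →
    (∀ σ : PadicAlgCl p ≃ₐ[ℚ_[p]] PadicAlgCl p, ∀ x ∈ F1,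
      ρ.ρ (localGaloisToGlobal p σ) x ∈ F1) →
    (∀ σ : PadicAlgCl p ≃ₐ[ℚ_[p]] PadicAlgCl p, ∀ x ∈ F3,
      ρ.ρ (localGaloisToGlobal p σ) x ∈ F3) →
    (∀ f ∈ F2, ∀ σ ∈ Tame.inertiaSet p, ρ.ρ (localGaloisToGlobal p σ) f - f ∈ F1) →
    (∀ f ∈ F3, ∀ σ ∈ Tame.inertiaSet p,
      ρ.ρ (localGaloisToGlobal p σ) f - (Tame.cycloN p σ) • f ∈ F2) →
    ∀ f ∈ F3, ∃ g ∈ F2, ∀ σ ∈ Tame.inertiaSet p,
      ρ.ρ (localGaloisToGlobal p σ) (f + g) - (Tame.cycloN p σ) • (f + g) ∈ F1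

/-! ### Vector calculus over the dual numbers (complements) -/

section VecCalc2

variable {k : Type*} [CommRing k]

/-- `ε v` -/
def inrV (v : Fin 2 → k) : Fin 2 → DualNumber k := fun i => inr (v i)

@[simp] theorem fstV_inrV (v : Fin 2 → k) : fstV (inrV v) = 0 := by ext i; simp [fstV, inrV]
@[simp] theorem sndV_inrV (v : Fin 2 → k) : sndV (inrV v) = v := by ext i; simp [sndV, inrV]

theorem fstV_add (w w' : Fin 2 → DualNumber k) : fstV (w + w') = fstV w + fstV w' := by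
  ext i; simp [fstV]

theorem sndV_add (w w' : Fin 2 → DualNumber k) : sndV (w + w') = sndV w + sndV w' := by
  ext i; simp [sndV]

theorem fstV_neg (w : Fin 2 → DualNumber k) : fstV (-w) = -fstV w := by
  ext i; simp [fstV]

theorem sndV_neg (w : Fin 2 → DualNumber k) : sndV (-w) = -sndV w := by
  ext i; simp [sndV]

theorem fstV_zero : fstV (0 : Fin 2 → DualNumber k) = 0 := by
  ext i; simp [fstV]

theorem sndV_zero : sndV (0 : Fin 2 → DualNumber k) = 0 := by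
  ext i; simp [sndV]

theorem fstV_nsmul (n : ℕ) (w : Fin 2 → DualNumber k) : fstV (n • w) = (n : k) • fstV w := by
  ext i; simp [fstV]

theorem sndV_nsmul (n : ℕ) (w : Fin 2 → DualNumber k) : sndV (n • w) = (n : k) • sndV w := by
  ext i; simp [sndV]

end VecCalc2

/-! ### Coordinates with respect to the basis `P⁻¹ e₀, P⁻¹ e₁` -/

section Coord

variable {k : Type*} [Field k] (P : Matrix (Fin 2) (Fin 2) k)

/-- the second coordinate of `v` in the basis of the columns of `P⁻¹` -/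
def loP (v : Fin 2 → k) : k := (P *ᵥ v) 1

/-- the first coordinate of `v` in the basis of the columns of `P⁻¹` -/
def hiP (v : Fin 2 → k) : k := (P *ᵥ v) 0

theorem loP_add (v w : Fin 2 → k) : loP P (v + w) = loP P v + loP P w := by
  unfold loP; rw [Matrix.mulVec_add]; rfl

theorem loP_sub (v w : Fin 2 → k) : loP P (v - w) = loP P v - loP P w := by
  unfold loP; rw [Matrix.mulVec_sub]; rfl

theorem loP_neg (v : Fin 2 → k) : loP P (-v) = -loP P v := by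
  unfold loP; rw [Matrix.mulVec_neg]; rfl

theorem loP_zero : loP P (0 : Fin 2 → k) = 0 := by
  unfold loP; rw [Matrix.mulVec_zero]; rfl

theorem loP_smul (a : k) (v : Fin 2 → k) : loP P (a • v) = a * loP P v := by
  unfold loP; rw [Matrix.mulVec_smul]; rfl

theorem hiP_add (v w : Fin 2 → k) : hiP P (v + w) = hiP P v + hiP P w := by
  unfold hiP; rw [Matrix.mulVec_add]; rfl

theorem hiP_smul (a : k) (v : Fin 2 → k) : hiP P (a • v) = a * hiP P v := by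
  unfold hiP; rw [Matrix.mulVec_smul]; rfl

variable {P} {Q : Matrix (Fin 2) (Fin 2) k}

theorem mulVec_conj (hQP : Q * P = 1) (R : Matrix (Fin 2) (Fin 2) k) (v : Fin 2 → k) :
    P *ᵥ (R *ᵥ v) = (P * R * Q) *ᵥ (P *ᵥ v) := by
  rw [Matrix.mulVec_mulVec, Matrix.mulVec_mulVec, Matrix.mul_assoc (P * R), hQP, Matrix.mul_one]

/-- `R` upper triangular in the `P`-basis: the second coordinate is multiplied by the `(1,1)` entry -/
theorem loP_mulVec (hQP : Q * P = 1) {R : Matrix (Fin 2) (Fin 2) k} (h10 : (P * R * Q) 1 0 = 0)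
    (v : Fin 2 → k) : loP P (R *ᵥ v) = (P * R * Q) 1 1 * loP P v := by
  unfold loP
  rw [mulVec_conj hQP]
  simp only [Matrix.mulVec, dotProduct, Fin.sum_univ_two]
  rw [h10, zero_mul, zero_add]

/-- the first coordinate -/
theorem hiP_mulVec (hQP : Q * P = 1) (R : Matrix (Fin 2) (Fin 2) k) (v : Fin 2 → k) :
    hiP P (R *ᵥ v) = (P * R * Q) 0 0 * hiP P v + (P * R * Q) 0 1 * loP P v := by
  unfold hiP loP
  rw [mulVec_conj hQP]
  simp only [Matrix.mulVec, dotProduct, Fin.sum_univ_two]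

/-- a vector is determined by its two coordinates -/
theorem eq_of_hiP_loP (hQP : Q * P = 1) {v w : Fin 2 → k} (h0 : hiP P v = hiP P w)
    (h1 : loP P v = loP P w) : v = w := by
  have h : P *ᵥ v = P *ᵥ w := by
    funext i
    fin_cases i
    · exact h0
    · exact h1
  have := congrArg (fun x => Q *ᵥ x) h
  simpa only [Matrix.mulVec_mulVec, hQP, Matrix.one_mulVec] using this

/-- `R` upper triangular in the `P`-basis acts on the first basis line by the `(0,0)` entry -/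
theorem mulVec_eq_smul_of_loP_eq_zero (hQP : Q * P = 1) {R : Matrix (Fin 2) (Fin 2) k}
    (h10 : (P * R * Q) 1 0 = 0) {u : Fin 2 → k} (hu : loP P u = 0) :
    R *ᵥ u = (P * R * Q) 0 0 • u := by
  apply eq_of_hiP_loP hQP
  · rw [hiP_mulVec hQP, hu, mul_zero, add_zero, hiP_smul]
  · rw [loP_mulVec hQP h10, hu, mul_zero, loP_smul, hu, mul_zero]

/-- the first column of `Q` -/
def colQ (Q : Matrix (Fin 2) (Fin 2) k) (j : Fin 2) : Fin 2 → k := fun i => Q i j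

theorem mulVec_colQ (M : Matrix (Fin 2) (Fin 2) k) (j i : Fin 2) :
    (M *ᵥ colQ Q j) i = (M * Q) i j := rfl

theorem loP_colQ (hPQ : P * Q = 1) (j : Fin 2) : loP P (colQ Q j) = (1 : Matrix (Fin 2) (Fin 2) k) 1 j := by
  unfold loP
  rw [mulVec_colQ, hPQ]

theorem hiP_colQ (hPQ : P * Q = 1) (j : Fin 2) : hiP P (colQ Q j) = (1 : Matrix (Fin 2) (Fin 2) k) 0 j := by
  unfold hiP
  rw [mulVec_colQ, hPQ]

theorem loP_mulVec_colQ (C : Matrix (Fin 2) (Fin 2) k) (j : Fin 2) :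
    loP P (C *ᵥ colQ Q j) = (P * C * Q) 1 j := by
  unfold loP
  rw [Matrix.mulVec_mulVec, mulVec_colQ]

end Coord

/-! ### A vanishing lemma for twisted cocycles -/

section Vanish

/-- a function `z` with `z (g h) = α(g) z(h) + z(g) β(h)` which vanishes on a conjugation-stable
set containing an element `σ₀` with `α σ₀ ≠ β σ₀` vanishes identically -/
theorem eq_zero_of_vanish_on_normal {G : Type*} [Group G] {k : Type*} [Field k] (I : Set G)
    (hI : ∀ g : G, ∀ σ ∈ I, g * σ * g⁻¹ ∈ I) (α β : G →* kˣ) (z : G → k)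
    (hz : ∀ g h, z (g * h) = (α g : k) * z h + z g * (β h : k))
    (hzI : ∀ σ ∈ I, z σ = 0) (σ₀ : G) (hσ₀ : σ₀ ∈ I) (hne : (α σ₀ : k) ≠ (β σ₀ : k)) :
    ∀ g, z g = 0 := by
  intro g
  have h1 : z (g * σ₀) = z g * (β σ₀ : k) := by
    rw [hz, hzI σ₀ hσ₀, mul_zero, zero_add]
  have h2 : z (g * σ₀) = (α σ₀ : k) * z g := by
    have e : g * σ₀ = (g * σ₀ * g⁻¹) * g := by group
    have hα : α (g * σ₀ * g⁻¹) = α σ₀ := by
      rw [map_mul, map_mul, map_inv, mul_comm (α g), mul_assoc, mul_inv_cancel, mul_one]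
    rw [e, hz, hzI _ (hI g σ₀ hσ₀), zero_mul, add_zero, hα]
  have h3 : ((α σ₀ : k) - (β σ₀ : k)) * z g = 0 := by
    rw [sub_mul, ← h2, h1, mul_comm, sub_self]
  exact (mul_eq_zero.mp h3).resolve_left (sub_ne_zero.mpr hne)

variable (p : ℕ) [hp : Fact p.Prime]

theorem conj_mem_inertiaSet (g σ : PadicAlgCl p ≃ₐ[ℚ_[p]] PadicAlgCl p)
    (hσ : σ ∈ Tame.inertiaSet p) : g * σ * g⁻¹ ∈ Tame.inertiaSet p := by
  intro x hx
  have h1 : (g * σ * g⁻¹) x - x = g (σ (g⁻¹ x) - g⁻¹ x) := by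
    rw [map_sub]
    simp only [AlgEquiv.mul_apply]
    congr 1
    change x = g (g.symm x)
    rw [AlgEquiv.apply_symm_apply]
  rw [h1, Places.norm_algEquiv]
  apply hσ
  rw [Places.norm_algEquiv]
  exact hx

end Vanish

/-! ### The lift on vectors -/

section LiftVec

variable {k : Type} [Field k] (rb : Γℚ →* Matrix (Fin 2) (Fin 2) k)
  (c : Γℚ → Matrix (Fin 2) (Fin 2) k) (hc : IsCocycle rb c) (hs : IsSmoothCochain rb c)

theorem fstV_liftRep (g : Γℚ) (x : Fin 2 → DualNumber k) :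
    fstV (liftFun rb c g *ᵥ x) = rb g *ᵥ fstV x := by
  rw [fstV_mulVec, fstM_liftFun]

theorem sndV_liftRep (g : Γℚ) (x : Fin 2 → DualNumber k) :
    sndV (liftFun rb c g *ᵥ x) = rb g *ᵥ sndV x + (c g * rb g) *ᵥ fstV x := by
  rw [sndV_mulVec, fstM_liftFun, sndM_liftFun]

theorem dualVec_ext {x y : Fin 2 → DualNumber k} (h1 : fstV x = fstV y) (h2 : sndV x = sndV y) :
    x = y := by
  funext i
  exact TrivSqZeroExt.ext (congrFun h1 i) (congrFun h2 i)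

variable (P : Matrix (Fin 2) (Fin 2) k)

/-- `ε · (first basis line)` -/
def subF1 : AddSubgroup (Fin 2 → DualNumber k) where
  carrier := {x | fstV x = 0 ∧ loP P (sndV x) = 0}
  zero_mem' := ⟨fstV_zero, by rw [sndV_zero, loP_zero]⟩
  add_mem' := fun {a b} ha hb => ⟨by rw [fstV_add, ha.1, hb.1, add_zero],
    by rw [sndV_add, loP_add, ha.2, hb.2, add_zero]⟩
  neg_mem' := fun {a} ha => ⟨by rw [fstV_neg, ha.1, neg_zero],
    by rw [sndV_neg, loP_neg, ha.2, neg_zero]⟩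

/-- `ε V` -/
def subF2 : AddSubgroup (Fin 2 → DualNumber k) where
  carrier := {x | fstV x = 0}
  zero_mem' := fstV_zero
  add_mem' := fun {a b} ha hb => by
    change fstV (a + b) = 0
    rw [fstV_add, ha, hb, add_zero]
  neg_mem' := fun {a} ha => by
    change fstV (-a) = 0
    rw [fstV_neg, ha, neg_zero]

/-- `ε V + (first basis line)` -/
def subF3 : AddSubgroup (Fin 2 → DualNumber k) where
  carrier := {x | loP P (fstV x) = 0}
  zero_mem' := by
    change loP P (fstV 0) = 0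
    rw [fstV_zero, loP_zero]
  add_mem' := fun {a b} ha hb => by
    change loP P (fstV (a + b)) = 0
    rw [fstV_add, loP_add, ha, hb, add_zero]
  neg_mem' := fun {a} ha => by
    change loP P (fstV (-a)) = 0
    rw [fstV_neg, loP_neg, ha, neg_zero]

theorem mem_subF1 (x : Fin 2 → DualNumber k) :
    x ∈ subF1 P ↔ fstV x = 0 ∧ loP P (sndV x) = 0 := Iff.rfl

theorem mem_subF2 (x : Fin 2 → DualNumber k) : x ∈ (subF2 : AddSubgroup (Fin 2 → DualNumber k)) ↔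
    fstV x = 0 := Iff.rfl

theorem mem_subF3 (x : Fin 2 → DualNumber k) : x ∈ subF3 P ↔ loP P (fstV x) = 0 := Iff.rfl

end LiftVec

/-! ### (CE-mat) -/

section Main

variable {k : Type} [Field k] (p : ℕ) [hp : Fact p.Prime] [CharP k p]
  (rb : Γℚ →* Matrix (Fin 2) (Fin 2) k)
  (c : Γℚ → Matrix (Fin 2) (Fin 2) k) (hc : IsCocycle rb c) (hs : IsSmoothCochain rb c)

local notation "Γp" => (PadicAlgCl p ≃ₐ[ℚ_[p]] PadicAlgCl p)
local notation "l2g" => localGaloisToGlobal p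

/-- entries of a product `A X B` with `A`, `B` upper triangular -/
theorem mul_mul_apply_one_zero {A X B : Matrix (Fin 2) (Fin 2) k} (hA : A 1 0 = 0)
    (hB : B 1 0 = 0) : (A * X * B) 1 0 = A 1 1 * X 1 0 * B 0 0 := by
  simp only [Matrix.mul_apply, Fin.sum_univ_two, hA, hB]
  ring

theorem inertia_cycloN_ne_one (hp2 : p ≠ 2) :
    ∃ σ₀ ∈ Tame.inertiaSet p, ((Tame.cycloN p σ₀ : ℕ) : k) ≠ 1 := by
  obtain ⟨σ₀, hσ₀, hne⟩ := Tame.exists_inertia_cycloN_not_modEq p hp2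
  refine ⟨σ₀, hσ₀, fun h => hne ?_⟩
  apply (CharP.natCast_eq_natCast k p).1
  rw [h, Nat.cast_one]

variable {p rb c}

/-- (CE-rep) for `liftRep rb c` in terms of vectors of `k[ε]²` and the matrices `liftFun rb c` -/
theorem CERep.vec (hCE : CERep p (liftRep rb c hc hs)) :
    ∀ (F1 F2 F3 : AddSubgroup (Fin 2 → DualNumber k)), F1 ≤ F2 → F2 ≤ F3 →
      (∀ σ : Γp, ∀ x ∈ F1, liftFun rb c (l2g σ) *ᵥ x ∈ F1) →
      (∀ σ : Γp, ∀ x ∈ F3, liftFun rb c (l2g σ) *ᵥ x ∈ F3) →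
      (∀ f ∈ F2, ∀ σ ∈ Tame.inertiaSet p, liftFun rb c (l2g σ) *ᵥ f - f ∈ F1) →
      (∀ f ∈ F3, ∀ σ ∈ Tame.inertiaSet p,
        liftFun rb c (l2g σ) *ᵥ f - (Tame.cycloN p σ) • f ∈ F2) →
      ∀ f ∈ F3, ∃ g ∈ F2, ∀ σ ∈ Tame.inertiaSet p,
        liftFun rb c (l2g σ) *ᵥ (f + g) - (Tame.cycloN p σ) • (f + g) ∈ F1 :=
  hCE

/-- **(CE-mat) (A).**  `χ₁|I = χ̄_p`, `χ₂|I = 1`: the lower-left entry of `P c P⁻¹` is a coboundary. -/
theorem ceMat_lowerLeft (hp2 : p ≠ 2) (hCE : CERep p (liftRep rb c hc hs))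
    (P : Matrix (Fin 2) (Fin 2) k) (hP : IsUnit P) (χ₁ χ₂ : Γp →* kˣ)
    (h10 : ∀ g : Γp, (P * rb (l2g g) * P⁻¹) 1 0 = 0)
    (h00 : ∀ g : Γp, (P * rb (l2g g) * P⁻¹) 0 0 = (χ₁ g : k))
    (h11 : ∀ g : Γp, (P * rb (l2g g) * P⁻¹) 1 1 = (χ₂ g : k))
    (hχ₁ : ∀ σ ∈ Tame.inertiaSet p, (χ₁ σ : k) = ((Tame.cycloN p σ : ℕ) : k))
    (hχ₂ : ∀ σ ∈ Tame.inertiaSet p, χ₂ σ = 1) :
    ∃ d : k, ∀ g : Γp, (P * c (l2g g) * P⁻¹) 1 0 = (((χ₂ g : k) / (χ₁ g : k)) - 1) * d := by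
  have hdet : IsUnit P.det := (Matrix.isUnit_iff_isUnit_det P).1 hP
  have hPQ : P * P⁻¹ = 1 := Matrix.mul_nonsing_inv P hdet
  have hQP : P⁻¹ * P = 1 := Matrix.nonsing_inv_mul P hdet
  set Q := P⁻¹ with hQ
  -- the two structural facts
  have hlo : ∀ (g : Γp) (v : Fin 2 → k), loP P (rb (l2g g) *ᵥ v) = (χ₂ g : k) * loP P v :=
    fun g v => by rw [loP_mulVec hQP (h10 g), h11]
  have hline : ∀ (g : Γp) (u : Fin 2 → k), loP P u = 0 → rb (l2g g) *ᵥ u = (χ₁ g : k) • u :=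
    fun g u hu => by rw [mulVec_eq_smul_of_loP_eq_zero hQP (h10 g) hu, h00]
  -- apply (CE-rep)
  have h12 : subF1 P ≤ (subF2 : AddSubgroup (Fin 2 → DualNumber k)) := fun x hx => hx.1
  have h23 : (subF2 : AddSubgroup (Fin 2 → DualNumber k)) ≤ subF3 P := fun x hx => by
    rw [mem_subF3, (mem_subF2 x).1 hx, loP_zero]
  have hst1 : ∀ σ : Γp, ∀ x ∈ subF1 P, liftFun rb c (l2g σ) *ᵥ x ∈ subF1 P := by
    intro σ x hx
    rw [mem_subF1] at hx ⊢
    rw [fstV_liftRep, sndV_liftRep, hx.1, Matrix.mulVec_zero, Matrix.mulVec_zero, add_zero, hlo,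
      hx.2, mul_zero]
    exact ⟨rfl, rfl⟩
  have hst3 : ∀ σ : Γp, ∀ x ∈ subF3 P, liftFun rb c (l2g σ) *ᵥ x ∈ subF3 P := by
    intro σ x hx
    rw [mem_subF3] at hx ⊢
    rw [fstV_liftRep, hlo, hx, mul_zero]
  have hi : ∀ f ∈ (subF2 : AddSubgroup (Fin 2 → DualNumber k)), ∀ σ ∈ Tame.inertiaSet p,
      liftFun rb c (l2g σ) *ᵥ f - f ∈ subF1 P := by
    intro f hf σ hσ
    rw [mem_subF2] at hf
    rw [mem_subF1, fstV_sub, sndV_sub, fstV_liftRep, sndV_liftRep, hf, Matrix.mulVec_zero,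
      Matrix.mulVec_zero, add_zero, sub_zero, loP_sub, hlo, hχ₂ σ hσ, Units.val_one, one_mul,
      sub_self]
    exact ⟨rfl, rfl⟩
  have hii : ∀ f ∈ subF3 P, ∀ σ ∈ Tame.inertiaSet p,
      liftFun rb c (l2g σ) *ᵥ f - (Tame.cycloN p σ) • f ∈
        (subF2 : AddSubgroup (Fin 2 → DualNumber k)) := by
    intro f hf σ hσ
    rw [mem_subF3] at hf
    rw [mem_subF2, fstV_sub, fstV_liftRep, fstV_nsmul, hline σ _ hf, hχ₁ σ hσ, sub_self]
  have hf3 : inlV (colQ Q 0) ∈ subF3 P := by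
    rw [mem_subF3, fstV_inlV, loP_colQ hPQ]
    simp
  obtain ⟨g₀, hg₀, hmain⟩ :=
    CERep.vec hc hs hCE (subF1 P) subF2 (subF3 P) h12 h23 hst1 hst3 hi hii _ hf3
  rw [mem_subF2] at hg₀
  set w := sndV g₀ with hw
  -- the relation on inertia
  have hrel : ∀ σ ∈ Tame.inertiaSet p,
      (P * c (l2g σ) * Q) 1 0 = (((χ₂ σ : k) / (χ₁ σ : k)) - 1) * (-loP P w) := by
    intro σ hσ
    have h1 := ((mem_subF1 P _).1 (hmain σ hσ)).2
    rw [sndV_sub, sndV_liftRep, sndV_nsmul, fstV_add, sndV_add, fstV_inlV, sndV_inlV, hg₀,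
      add_zero, zero_add, ← hw, loP_sub, loP_add, hlo, loP_smul, ← Matrix.mulVec_mulVec,
      hline σ (colQ Q 0) (by rw [loP_colQ hPQ]; simp), Matrix.mulVec_smul, loP_smul,
      loP_mulVec_colQ, hχ₂ σ hσ, Units.val_one, one_mul, ← hχ₁ σ hσ] at h1
    have hne : (χ₁ σ : k) ≠ 0 := (χ₁ σ).ne_zero
    rw [hχ₂ σ hσ, Units.val_one]
    field_simp
    linear_combination h1
  refine ⟨-loP P w, ?_⟩
  -- the difference is a twisted cocycle vanishing on inertia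
  set d := -loP P w with hd
  set z : Γp → k := fun g => (P * c (l2g g) * Q) 1 0 - (((χ₂ g : k) / (χ₁ g : k)) - 1) * d with hz
  obtain ⟨σ₀, hσ₀, hne₀⟩ := inertia_cycloN_ne_one (k := k) p hp2
  have hzero : ∀ g, z g = 0 := by
    refine eq_zero_of_vanish_on_normal (Tame.inertiaSet p) (fun g σ hσ => conj_mem_inertiaSet p g σ hσ)
      (χ₂ / χ₁) 1 z ?_ (fun σ hσ => ?_) σ₀ hσ₀ ?_
    · intro g h
      have hcg : c (l2g (g * h)) = c (l2g g) + rb (l2g g) * c (l2g h) * rb (l2g g)⁻¹ := by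
        rw [map_mul, hc]
      have e1 : P * c (l2g (g * h)) * Q = P * c (l2g g) * Q +
          (P * rb (l2g g) * Q) * (P * c (l2g h) * Q) * (P * rb (l2g g⁻¹) * Q) := by
        rw [hcg, map_inv (localGaloisToGlobal p) g]
        have : (P * rb (l2g g) * Q) * (P * c (l2g h) * Q) * (P * rb (l2g g)⁻¹ * Q) =
            P * (rb (l2g g) * (Q * P) * c (l2g h) * (Q * P) * rb (l2g g)⁻¹) * Q := by
          simp only [Matrix.mul_assoc]
        rw [this, hQP, Matrix.mul_one, Matrix.mul_one, Matrix.mul_add, Matrix.add_mul]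
      have e2 : (P * c (l2g (g * h)) * Q) 1 0 = (P * c (l2g g) * Q) 1 0 +
          (χ₂ g : k) * (P * c (l2g h) * Q) 1 0 * (χ₁ g : k)⁻¹ := by
        rw [e1, Matrix.add_apply, mul_mul_apply_one_zero (h10 g) (h10 g⁻¹), h11, h00, map_inv,
          Units.val_inv_eq_inv_val]
      simp only [hz]
      rw [e2]
      simp only [map_mul, MonoidHom.div_apply, MonoidHom.one_apply, Units.val_mul,
        Units.val_div_eq_div_val, Units.val_one]
      have hg1 : (χ₁ g : k) ≠ 0 := (χ₁ g).ne_zero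
      have hh1 : (χ₁ h : k) ≠ 0 := (χ₁ h).ne_zero
      field_simp
      ring
    · simp only [hz]
      rw [hrel σ hσ, sub_self]
    · rw [MonoidHom.div_apply, MonoidHom.one_apply, Units.val_div_eq_div_val, hχ₂ σ₀ hσ₀,
        Units.val_one, hχ₁ σ₀ hσ₀]
      intro h
      apply hne₀
      have h0 : ((Tame.cycloN p σ₀ : ℕ) : k) ≠ 0 := by
        rw [← hχ₁ σ₀ hσ₀]; exact (χ₁ σ₀).ne_zero
      field_simp at h
      exact h.symm
  intro g
  have := hzero g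
  simp only [hz] at this
  exact sub_eq_zero.mp this

/-- **(CE-mat) (B).**  `χ₁|I = 1`, `χ₂|I = χ̄_p`: `ρ̄|Γ` is split, i.e. the upper-right entry of
`P ρ̄ P⁻¹` is `g ↦ (χ₂(g) - χ₁(g)) a`. -/
theorem ceMat_upperRight (hp2 : p ≠ 2) (hCE : CERep p (liftRep rb c hc hs))
    (P : Matrix (Fin 2) (Fin 2) k) (hP : IsUnit P) (χ₁ χ₂ : Γp →* kˣ)
    (h10 : ∀ g : Γp, (P * rb (l2g g) * P⁻¹) 1 0 = 0)
    (h00 : ∀ g : Γp, (P * rb (l2g g) * P⁻¹) 0 0 = (χ₁ g : k))
    (h11 : ∀ g : Γp, (P * rb (l2g g) * P⁻¹) 1 1 = (χ₂ g : k))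
    (hχ₁ : ∀ σ ∈ Tame.inertiaSet p, χ₁ σ = 1)
    (hχ₂ : ∀ σ ∈ Tame.inertiaSet p, (χ₂ σ : k) = ((Tame.cycloN p σ : ℕ) : k)) :
    ∃ a : k, ∀ g : Γp, (P * rb (l2g g) * P⁻¹) 0 1 = ((χ₂ g : k) - (χ₁ g : k)) * a := by
  have hdet : IsUnit P.det := (Matrix.isUnit_iff_isUnit_det P).1 hP
  have hPQ : P * P⁻¹ = 1 := Matrix.mul_nonsing_inv P hdet
  have hQP : P⁻¹ * P = 1 := Matrix.nonsing_inv_mul P hdet
  set Q := P⁻¹ with hQ
  have hlo : ∀ (g : Γp) (v : Fin 2 → k), loP P (rb (l2g g) *ᵥ v) = (χ₂ g : k) * loP P v :=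
    fun g v => by rw [loP_mulVec hQP (h10 g), h11]
  have hline : ∀ (g : Γp) (u : Fin 2 → k), loP P u = 0 → rb (l2g g) *ᵥ u = (χ₁ g : k) • u :=
    fun g u hu => by rw [mulVec_eq_smul_of_loP_eq_zero hQP (h10 g) hu, h00]
  have h12 : (⊥ : AddSubgroup (Fin 2 → DualNumber k)) ≤ subF1 P := bot_le
  have h23 : subF1 P ≤ (subF2 : AddSubgroup (Fin 2 → DualNumber k)) := fun x hx => hx.1
  have hst1 : ∀ σ : Γp, ∀ x ∈ (⊥ : AddSubgroup (Fin 2 → DualNumber k)),
      liftFun rb c (l2g σ) *ᵥ x ∈ (⊥ : AddSubgroup (Fin 2 → DualNumber k)) := by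
    intro σ x hx
    rw [AddSubgroup.mem_bot] at hx ⊢
    rw [hx, Matrix.mulVec_zero]
  have hst3 : ∀ σ : Γp, ∀ x ∈ (subF2 : AddSubgroup (Fin 2 → DualNumber k)),
      liftFun rb c (l2g σ) *ᵥ x ∈ (subF2 : AddSubgroup (Fin 2 → DualNumber k)) := by
    intro σ x hx
    rw [mem_subF2] at hx ⊢
    rw [fstV_liftRep, hx, Matrix.mulVec_zero]
  have hi : ∀ f ∈ subF1 P, ∀ σ ∈ Tame.inertiaSet p,
      liftFun rb c (l2g σ) *ᵥ f - f ∈ (⊥ : AddSubgroup (Fin 2 → DualNumber k)) := by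
    intro f hf σ hσ
    rw [mem_subF1] at hf
    rw [AddSubgroup.mem_bot]
    apply dualVec_ext
    · rw [fstV_sub, fstV_liftRep, hf.1, Matrix.mulVec_zero, sub_zero, fstV_zero]
    · rw [sndV_sub, sndV_liftRep, hf.1, Matrix.mulVec_zero, add_zero, hline σ _ hf.2, hχ₁ σ hσ,
        Units.val_one, one_smul, sub_self, sndV_zero]
  have hii : ∀ f ∈ (subF2 : AddSubgroup (Fin 2 → DualNumber k)), ∀ σ ∈ Tame.inertiaSet p,
      liftFun rb c (l2g σ) *ᵥ f - (Tame.cycloN p σ) • f ∈ subF1 P := by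
    intro f hf σ hσ
    rw [mem_subF2] at hf
    rw [mem_subF1, fstV_sub, sndV_sub, fstV_liftRep, sndV_liftRep, fstV_nsmul, sndV_nsmul, hf,
      Matrix.mulVec_zero, Matrix.mulVec_zero, smul_zero, sub_zero, add_zero, loP_sub, hlo,
      loP_smul, hχ₂ σ hσ, sub_self]
    exact ⟨rfl, rfl⟩
  have hf3 : inrV (colQ Q 1) ∈ (subF2 : AddSubgroup (Fin 2 → DualNumber k)) := by
    rw [mem_subF2, fstV_inrV]
  obtain ⟨g₀, hg₀, hmain⟩ :=
    CERep.vec hc hs hCE ⊥ (subF1 P) subF2 h12 h23 hst1 hst3 hi hii _ hf3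
  rw [mem_subF1] at hg₀
  set w := colQ Q 1 + sndV g₀ with hw
  have hlow : loP P w = 1 := by
    rw [hw, loP_add, hg₀.2, add_zero, loP_colQ hPQ]
    simp
  -- the relation on inertia
  have hrel : ∀ σ ∈ Tame.inertiaSet p,
      (P * rb (l2g σ) * Q) 0 1 = ((χ₂ σ : k) - (χ₁ σ : k)) * hiP P w := by
    intro σ hσ
    have h1 := (AddSubgroup.mem_bot).1 (hmain σ hσ)
    have h2 := congrArg sndV h1
    rw [sndV_sub, sndV_liftRep, sndV_nsmul, fstV_add, sndV_add, fstV_inrV, sndV_inrV, hg₀.1,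
      add_zero, Matrix.mulVec_zero, add_zero, ← hw, sndV_zero, sub_eq_zero] at h2
    have h3 := congrArg (hiP P) h2
    rw [hiP_mulVec hQP, hiP_smul, hlow, mul_one, h00, ← hχ₂ σ hσ] at h3
    linear_combination h3
  refine ⟨hiP P w, ?_⟩
  set a := hiP P w with ha
  set z : Γp → k := fun g => (P * rb (l2g g) * Q) 0 1 - ((χ₂ g : k) - (χ₁ g : k)) * a with hz
  obtain ⟨σ₀, hσ₀, hne₀⟩ := inertia_cycloN_ne_one (k := k) p hp2
  have hzero : ∀ g, z g = 0 := by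
    refine eq_zero_of_vanish_on_normal (Tame.inertiaSet p)
      (fun g σ hσ => conj_mem_inertiaSet p g σ hσ) χ₁ χ₂ z ?_ (fun σ hσ => ?_) σ₀ hσ₀ ?_
    · intro g h
      have e1 : P * rb (l2g (g * h)) * Q = (P * rb (l2g g) * Q) * (P * rb (l2g h) * Q) := by
        have : (P * rb (l2g g) * Q) * (P * rb (l2g h) * Q) =
            P * (rb (l2g g) * (Q * P) * rb (l2g h)) * Q := by
          simp only [Matrix.mul_assoc]
        rw [this, hQP, Matrix.mul_one, map_mul, map_mul]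
      have e2 : (P * rb (l2g (g * h)) * Q) 0 1 =
          (χ₁ g : k) * (P * rb (l2g h) * Q) 0 1 + (P * rb (l2g g) * Q) 0 1 * (χ₂ h : k) := by
        rw [e1, Matrix.mul_apply, Fin.sum_univ_two, h00, h11]
      simp only [hz]
      rw [e2]
      simp only [map_mul, Units.val_mul]
      ring
    · simp only [hz]
      rw [hrel σ hσ, sub_self]
    · rw [hχ₁ σ₀ hσ₀, Units.val_one, hχ₂ σ₀ hσ₀]
      exact fun h => hne₀ h.symm
  intro g
  have := hzero g
  simp only [hz] at this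
  exact sub_eq_zero.mp this

end Main

end Fermat.Agent.S56lib.Dict
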