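/-
S56lib / Dict / CEMatFlat  (helper4).

(CE-mat) (A), (B) with the hypothesis `CERep` discharged by helper9's `Hopf.ce_split_rep`:
for `liftRep rb c` flat at `p` (finite field `k` of characteristic `p ≠ 2`).
-/
import Mathlib
import Fermat.Agent.S56lib.Dict.CEMat
import Fermat.Agent.S56lib.Hopf.CERepTame

set_option autoImplicit false
set_option linter.unusedSectionVars false
set_option linter.style.haveILetI false

noncomputable section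

namespace Fermat.Agent.S56lib.Dict

open IsLocalRing TrivSqZeroExt Fermat.Agent.TeamA Fermat.Agent.TeamA.Rep Matrix
  Fermat.Agent.S55lib

local notation "Γℚ" => (AlgebraicClosure ℚ ≃ₐ[ℚ] AlgebraicClosure ℚ)

section

variable {k : Type} [Field k] [Finite k] (p : ℕ) [hp : Fact p.Prime] [CharP k p]
  {rb : Γℚ →* Matrix (Fin 2) (Fin 2) k}
  {c : Γℚ → Matrix (Fin 2) (Fin 2) k} (hc : IsCocycle rb c) (hs : IsSmoothCochain rb c)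

local notation "Γp" => (PadicAlgCl p ≃ₐ[ℚ_[p]] PadicAlgCl p)
local notation "l2g" => localGaloisToGlobal p

theorem natCast_dualNumber_eq_zero_of_charP : ((p : ℕ) : DualNumber k) = 0 := by
  ext
  · simp
  · simp

/-- **(CE-rep) for a flat lift** -/
theorem ceRep_of_isFlatAt (hp2 : p ≠ 2) (hfl : (liftRep rb c hc hs).IsFlatAt p) :
    CERep p (liftRep rb c hc hs) := by
  haveI : Finite (DualNumber k) := dualNumber_finite
  intro F1 F2 F3 h12 h23 hst1 hst3 hi hii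
  exact Hopf.ce_split_rep p hp2 (liftRep rb c hc hs) hfl
    (natCast_dualNumber_eq_zero_of_charP p) F1 F2 F3 h12 h23 hst1 hst3 hi hii

/-- **(CE-mat) (A)** for a flat lift -/
theorem ceMat_lowerLeft_of_isFlatAt (hp2 : p ≠ 2) (hfl : (liftRep rb c hc hs).IsFlatAt p)
    (P : Matrix (Fin 2) (Fin 2) k) (hP : IsUnit P) (χ₁ χ₂ : Γp →* kˣ)
    (h10 : ∀ g : Γp, (P * rb (l2g g) * P⁻¹) 1 0 = 0)
    (h00 : ∀ g : Γp, (P * rb (l2g g) * P⁻¹) 0 0 = (χ₁ g : k))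
    (h11 : ∀ g : Γp, (P * rb (l2g g) * P⁻¹) 1 1 = (χ₂ g : k))
    (hχ₁ : ∀ σ ∈ Tame.inertiaSet p, (χ₁ σ : k) = ((Tame.cycloN p σ : ℕ) : k))
    (hχ₂ : ∀ σ ∈ Tame.inertiaSet p, χ₂ σ = 1) :
    ∃ d : k, ∀ g : Γp, (P * c (l2g g) * P⁻¹) 1 0 = (((χ₂ g : k) / (χ₁ g : k)) - 1) * d :=
  ceMat_lowerLeft hc hs hp2 (ceRep_of_isFlatAt p hc hs hp2 hfl) P hP χ₁ χ₂ h10 h00 h11 hχ₁ hχ₂

/-- **(CE-mat) (B)** for a flat lift -/
theorem ceMat_upperRight_of_isFlatAt (hp2 : p ≠ 2) (hfl : (liftRep rb c hc hs).IsFlatAt p)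
    (P : Matrix (Fin 2) (Fin 2) k) (hP : IsUnit P) (χ₁ χ₂ : Γp →* kˣ)
    (h10 : ∀ g : Γp, (P * rb (l2g g) * P⁻¹) 1 0 = 0)
    (h00 : ∀ g : Γp, (P * rb (l2g g) * P⁻¹) 0 0 = (χ₁ g : k))
    (h11 : ∀ g : Γp, (P * rb (l2g g) * P⁻¹) 1 1 = (χ₂ g : k))
    (hχ₁ : ∀ σ ∈ Tame.inertiaSet p, χ₁ σ = 1)
    (hχ₂ : ∀ σ ∈ Tame.inertiaSet p, (χ₂ σ : k) = ((Tame.cycloN p σ : ℕ) : k)) :
    ∃ a : k, ∀ g : Γp, (P * rb (l2g g) * P⁻¹) 0 1 = ((χ₂ g : k) - (χ₁ g : k)) * a :=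
  ceMat_upperRight hc hs hp2 (ceRep_of_isFlatAt p hc hs hp2 hfl) P hP χ₁ χ₂ h10 h00 h11 hχ₁ hχ₂

end

end Fermat.Agent.S56lib.Dict
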