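/-
S56lib / Dict / LocalPkgSO  (helper4).

**The local package (N7) at `p`, strict-ordinary case, with no remaining hypothesis** (lead's `hso_p`):
`hasLocalCond_strictOrdinary_p` of `Dict/LocalPkg` fed with helper5's count `Loc.card_Wso_le'` and the
Kummer count `Kum2.card_cycloCocycles_le`.
-/
import Mathlib
import Fermat.Agent.S56lib.Dict.LocalPkg
import Fermat.Agent.S56lib.Loc.SO
import Fermat.Agent.S56lib.Kum2.Count

set_option autoImplicit false
set_option linter.unusedSectionVars false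
set_option linter.style.haveILetI false

noncomputable section

namespace Fermat.Agent.S56lib.Dict

open IsLocalRing Fermat.Agent.TeamA Fermat.Agent.TeamA.Rep Fermat.Agent.S55lib
  Fermat.Agent.S56lib.TWSel groupCohomology ExtCitation Matrix

attribute [local instance] dualNumberAlgebra

section

variable {𝒪 : Type} [CommRing 𝒪] [IsDomain 𝒪] [IsDiscreteValuationRing 𝒪]
  [IsAdicComplete (maximalIdeal 𝒪) 𝒪] [Finite (ResidueField 𝒪)]

/-- the Kummer count in helper5's `Loc.cycloCocycles` form, for `q : Nat.Primes` with `(q : ℕ) = p` -/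
theorem card_locCycloCocycles_le (p : ℕ) [hp : Fact p.Prime] (hp2 : p ≠ 2) (q : Nat.Primes)
    (hq : (q : ℕ) = p) :
    (Loc.cycloCocycles (ZMod p) p q).Finite ∧ Nat.card (Loc.cycloCocycles (ZMod p) p q) ≤ p ^ 3 := by
  subst hq
  exact Kum2.card_cycloCocycles_le q hp2

variable (p : ℕ) [hp : Fact p.Prime] [CharP (ResidueField 𝒪) p]

/-- **(N7) at `p`, strict-ordinary case** for a variable `q : Nat.Primes` with `(q : ℕ) = p`. -/
theorem hasLocalCond_strictOrdinary_final (hp2 : p ≠ 2)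
    (rb : GQ →* Matrix (Fin 2) (Fin 2) (ResidueField 𝒪))
    (hsm : ∃ F₀ : FieldQ, FiniteDimensional ℚ F₀ ∧ ∀ s ∈ F₀.fixingSubgroup, rb s = 1)
    (𝒟 : ∀ ⦃A : Type⦄ [CommRing A] [IsLocalRing A] [Algebra 𝒪 A], GaloisRepAdic A → Prop)
    (q : Nat.Primes) (hq : (q : ℕ) = p)
    (h𝒟 : ∀ ρ : GaloisRepAdic (DualNumber (ResidueField 𝒪)), 𝒟 ρ →
      ρ.DetIsCyclotomic p ∧ ρ.IsStrictOrdinaryAt p) :
    Main.HasLocalCond p rb 𝒟 q
      (Nat.card (Main.H0loc (adRep p rb) q) * Nat.card (ResidueField 𝒪)) :=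
  hasLocalCond_strictOrdinary p hp2 rb 𝒟 q hq h𝒟 fun _u₀ hu₀ hD =>
    Loc.card_Wso_le' hu₀ hsm hD (card_locCycloCocycles_le p hp2 q hq)

/-- **lead's `hso_p`**: the local package at `p` for the strict-ordinary family of S56. -/
theorem hasLocalCond_so_p (hp2 : p ≠ 2)
    (ρbar : ResidualGaloisRep (ResidueField 𝒪))
    (bbar : Module.Basis (Fin 2) (ResidueField 𝒪) ρbar.V) (Smin S' : Finset ℕ) :
    Main.HasLocalCond p (resHom ρbar bbar)
      (fun _A _ _ _ ρ => GaloisRep.strictOrdinaryCondition 𝒪 p S' ρ ∧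
        ∀ q ∈ Smin, q.Prime → q ≠ p → ρ.IsUnipotentOnInertiaAt q) ⟨p, hp.out⟩
      (Nat.card (Main.H0loc (adRep p (resHom ρbar bbar)) ⟨p, hp.out⟩) *
        Nat.card (ResidueField 𝒪)) := by
  have hsm : ∃ F₀ : FieldQ, FiniteDimensional ℚ F₀ ∧
      ∀ s ∈ F₀.fixingSubgroup, resHom ρbar bbar s = 1 := by
    obtain ⟨L, hL, h⟩ := ρbar.factorsThroughFiniteLevel
    refine ⟨L, hL, fun s hs => ?_⟩
    have h1 : ρbar.ρ s = 1 :=
      h s fun x hx => (IntermediateField.mem_fixingSubgroup_iff _ _).1 hs x hx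
    rw [Dict.resHom_apply, matOfRes, h1, LinearMap.toMatrix_one]
  exact hasLocalCond_strictOrdinary_final p hp2 (resHom ρbar bbar) hsm _ ⟨p, hp.out⟩ rfl
    (fun _ hd => ⟨hd.1.1, hd.1.2.1⟩)

end

end Fermat.Agent.S56lib.Dict
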