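import Mathlib
import Fermat.Prelude.Def_GaloisRep_ComplexConjugation
import Fermat.Agent.S56lib.Dict.AdRep
import Fermat.Agent.S56lib.Dict.StrictOrdCocycle

/-!
# Complex conjugation on `ad⁰ρ̄`

Complex conjugation `c` inverts the roots of unity, so `χ̄(c) = -1`; if `det rb = χ̄` then `rb c`
is an involution of determinant `-1`, hence of trace `0`, and `k · rb c` is a line of
`c`-invariants in `ad⁰ρ̄`: `|(ad⁰ρ̄)^c| ≥ |k|`.
-/

set_option autoImplicit false
set_option linter.unusedSectionVars false
set_option linter.style.haveILetI false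

namespace Fermat.Agent.S56lib.Dict

open IsLocalRing TrivSqZeroExt Fermat.Agent.TeamA Fermat.Agent.TeamA.Rep Polynomial Matrix
open Fermat.Agent.S55lib

local notation "Γℚ" => (AlgebraicClosure ℚ ≃ₐ[ℚ] AlgebraicClosure ℚ)

section Cyclo

/-- Complex conjugation inverts roots of unity. -/
theorem complexConjugation_apply_of_pow_eq_one {ζ : AlgebraicClosure ℚ} {n : ℕ} (hn : n ≠ 0)
    (hζ : ζ ^ n = 1) : complexConjugation ζ = ζ⁻¹ := by
  apply complexEmbedding.toRingHom.injective
  change complexEmbedding (complexConjugation ζ) = complexEmbedding ζ⁻¹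
  rw [complexEmbedding_complexConjugation, map_inv₀]
  have h1 : complexEmbedding ζ ^ n = 1 := by rw [← map_pow, hζ, map_one]
  have h2 : ‖complexEmbedding ζ‖ = 1 := Complex.norm_eq_one_of_pow_eq_one h1 hn
  exact (Complex.inv_eq_conj h2).symm

variable (p : ℕ) [Fact p.Prime]

/-- `χ̄(c) = -1`. -/
theorem cycloExp_complexConjugation {k : Type*} [Field k] (hpk : (p : k) = 0) :
    ((ExtCitation.cycloExp p complexConjugation : ℕ) : k) = -1 := by
  have hp := (Fact.out : p.Prime)
  haveI : NeZero p := ⟨hp.ne_zero⟩
  obtain ⟨ζ, hζ⟩ := HasEnoughRootsOfUnity.exists_primitiveRoot (AlgebraicClosure ℚ) p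
  have hζp : ζ ^ p = 1 := hζ.pow_eq_one
  have h1 := apply_root_eq_pow_cycloExp p complexConjugation ζ (by rw [pow_one]; exact hζp)
  rw [complexConjugation_apply_of_pow_eq_one hp.ne_zero hζp] at h1
  -- `ζ ^ (a + 1) = 1`
  set a := ExtCitation.cycloExp p complexConjugation with ha
  have hζ0 : ζ ≠ 0 := hζ.ne_zero hp.ne_zero
  have h2 : ζ ^ (a + 1) = 1 := by
    rw [pow_succ, ← h1, inv_mul_cancel₀ hζ0]
  have h3 : p ∣ a + 1 := (hζ.pow_eq_one_iff_dvd _).mp h2
  obtain ⟨t, ht⟩ := h3
  have h4 : ((a + 1 : ℕ) : k) = 0 := by rw [ht, Nat.cast_mul, hpk, zero_mul]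
  push_cast at h4
  linear_combination h4

end Cyclo

section Invariants

variable {k : Type} [Field k] (rb : Γℚ →* Matrix (Fin 2) (Fin 2) k)

/-- An involution of determinant `-1` has trace `0`. -/
theorem trace_eq_zero_of_involution (X : Matrix (Fin 2) (Fin 2) k) (h1 : X * X = 1)
    (hdet : X.det = -1) : X.trace = 0 := by
  have h := cayley_fin_two X
  rw [h1, hdet] at h
  have h2 : X.trace • X = 0 := by
    have : (1 : Matrix (Fin 2) (Fin 2) k) - X.trace • X + (-1 : k) • (1 : Matrix (Fin 2) (Fin 2) k)
        = -(X.trace • X) := by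
      rw [neg_smul, one_smul]; abel
    rw [this, neg_eq_zero] at h
    exact h
  have hX0 : X ≠ 0 := by
    rintro rfl
    rw [mul_zero] at h1
    exact zero_ne_one h1
  exact (smul_eq_zero.mp h2).resolve_right hX0

variable (p : ℕ) [Fact p.Prime]

theorem rb_complexConjugation_mul_self :
    rb complexConjugation * rb complexConjugation = 1 := by
  rw [← map_mul, complexConjugation_mul_self, map_one]

/-- `rb c` has trace zero when `det rb c = χ̄(c)`. -/
theorem trace_rb_complexConjugation (hpk : (p : k) = 0)
    (hdet : (rb complexConjugation).det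
      = ((ExtCitation.cycloExp p complexConjugation : ℕ) : k)) :
    (rb complexConjugation).trace = 0 :=
  trace_eq_zero_of_involution _ (rb_complexConjugation_mul_self rb)
    (by rw [hdet, cycloExp_complexConjugation p hpk])

end Invariants

section Card

variable {K : Type} [Field K] (p : ℕ) [Fact p.Prime] [CharP K p]
  (rb : Γℚ →* Matrix (Fin 2) (Fin 2) K)

/-- The invariant `rb c` of complex conjugation in `ad⁰ρ̄`, scaled by `a`. -/
noncomputable def complexConjInvariant
    (htr : (rb complexConjugation).trace = 0) (a : K) : adRep p rb :=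
  (⟨a • rb complexConjugation,
    (mem_sl2_iff _).2 (by rw [Matrix.trace_smul, htr, smul_zero])⟩ : sl2 K)

theorem adVal_complexConjInvariant (htr : (rb complexConjugation).trace = 0) (a : K) :
    adVal p (complexConjInvariant p rb htr a) = a • rb complexConjugation := rfl

theorem ρ_complexConjInvariant (htr : (rb complexConjugation).trace = 0) (a : K) :
    (adRep p rb).ρ complexConjugation (complexConjInvariant p rb htr a)
      = complexConjInvariant p rb htr a := by
  apply adVal_injective
  rw [adVal_ρ, adVal_complexConjInvariant, Matrix.mul_smul, Matrix.smul_mul, Matrix.mul_assoc,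
    rb_mul_inv, mul_one]

theorem complexConjInvariant_injective (htr : (rb complexConjugation).trace = 0) :
    Function.Injective (complexConjInvariant p rb htr) := by
  intro a b h
  have h1 := congrArg (adVal p (rb := rb)) h
  rw [adVal_complexConjInvariant, adVal_complexConjInvariant] at h1
  have h2 : (a - b) • rb complexConjugation = 0 := by rw [sub_smul, h1, sub_self]
  have hne : rb complexConjugation ≠ 0 := by
    intro h0
    have := rb_complexConjugation_mul_self rb
    rw [h0, mul_zero] at this
    exact zero_ne_one this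
  exact sub_eq_zero.mp ((smul_eq_zero.mp h2).resolve_right hne)

/-- **`|(ad⁰ρ̄)^c| ≥ |k|`** when `det rb c = χ̄(c)`. -/
theorem card_le_card_complexConj_invariants [Finite K]
    (hdet : (rb complexConjugation).det
      = ((ExtCitation.cycloExp p complexConjugation : ℕ) : K)) :
    Nat.card K ≤ Nat.card {X : adRep p rb // (adRep p rb).ρ complexConjugation X = X} := by
  have hpk : (p : K) = 0 := CharP.cast_eq_zero K p
  have htr := trace_rb_complexConjugation rb p hpk hdet
  refine Nat.card_le_card_of_injective
    (fun a => (⟨complexConjInvariant p rb htr a, ρ_complexConjInvariant p rb htr a⟩ :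
      {X : adRep p rb // (adRep p rb).ρ complexConjugation X = X})) fun a b h => ?_
  exact complexConjInvariant_injective p rb htr (congrArg Subtype.val h)

end Card

end Fermat.Agent.S56lib.Dict
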